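import Fermat.Agent.H29.ESB.Interfaces
import Fermat.Agent.H58.RR.CharZero

/-!
# P-ES / ESB-6: minimal auxiliary divisor

For a divisor `D` of degree zero on a function field of one variable over an algebraically
closed field of characteristic zero: if `L(D + B) ≠ 0` for some effective `B` supported in `S`,
then there is such a `B` with `L(D + B)` of dimension exactly one.
-/

set_option autoImplicit false
set_option linter.style.haveILetI false
set_option linter.unusedVariables false
set_option linter.unusedSectionVars false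

noncomputable section

open AlgebraicCurve IntermediateField

namespace Fermat.Agent.H3

section

variable {K F : Type} [Field K] [Field F] [Algebra K F] [IsAlgClosed K] [CharZero K]

/-- A function field of one variable has a place. -/
theorem esb_exists_place (x : F) (hx : Transcendental K x) (hfin : FiniteDimensional K⟮x⟯ F) :
    Nonempty (Place K F) := by
  obtain ⟨-, hfinset, hsum⟩ := Fermat.Agent.H84.fundamentalIdentity K F x hx hfin
  by_contra hne
  rw [not_nonempty_iff] at hne
  have h0 : ∑ᶠ v ∈ {v : Place K F | 0 < v.ord x}, v.ord x = 0 := by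
    apply finsum_eq_zero_of_forall_eq_zero
    intro v
    exact (hne.false v).elim
  rw [h0] at hsum
  haveI := hfin
  have hpos : 0 < Module.finrank K⟮x⟯ F := Module.finrank_pos
  have : (0 : ℤ) < (Module.finrank K⟮x⟯ F : ℤ) := by exact_mod_cast hpos
  omega

/-- Case `B = 0`: a nonzero element of `L(D)`, `deg D = 0`, spans `L(D)`. -/
theorem esb_span_of_degree_zero [HasPrincipalDivisors K F] (hdeg : ∀ v : Place K F, v.deg = 1)
    (v₀ : Place K F) {D : Divisor K F} (hD : Divisor.degree D = 0) {f : F} (hf0 : f ≠ 0)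
    (hf : f ∈ riemannRochSpace D) {g : F} (hg : g ∈ riemannRochSpace D) :
    ∃ c : K, g = algebraMap K F c * f := by
  obtain ⟨E, hE, hE0⟩ := HasPrincipalDivisors.exists_divisor (K := K) f hf0
  have h1 : 0 ≤ E + D := by
    rw [Finsupp.le_def]
    intro v
    have := ((mem_riemannRochSpace_iff.mp hf) v).resolve_left hf0
    simp only [Finsupp.coe_zero, Pi.zero_apply, Finsupp.coe_add, Pi.add_apply, hE v]
    omega
  have h2 : E + D = 0 :=
    Fermat.Agent.H58.rr_eq_zero_of_degree_eq_zero hdeg (E + D) h1 (by rw [map_add, hE0, hD, add_zero])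
  have hDv : ∀ v : Place K F, D v = -v.ord f := by
    intro v
    have := congrArg (fun X : Divisor K F => X v) h2
    simp only [Finsupp.coe_add, Pi.add_apply, Finsupp.coe_zero, Pi.zero_apply, hE v] at this
    omega
  rcases eq_or_ne g 0 with rfl | hg0
  · exact ⟨0, by simp⟩
  have hq : g * f⁻¹ ∈ riemannRochSpace (0 : Divisor K F) := by
    rw [mem_riemannRochSpace_iff]
    intro v
    right
    have := ((mem_riemannRochSpace_iff.mp hg) v).resolve_left hg0
    rw [v.ord_mul hg0 (inv_ne_zero hf0), v.ord_inv]
    simp only [Finsupp.coe_zero, Pi.zero_apply, neg_zero]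
    rw [hDv v] at this
    omega
  obtain ⟨c, hc⟩ := (Fermat.Agent.H58.rr_mem_zero_iff hdeg v₀).mp hq
  refine ⟨c, ?_⟩
  rw [← hc]
  field_simp

/-- Case `L(A) = 0`: a nonzero element of `L(A + v)` spans `L(A + v)`. -/
theorem esb_span_of_onestep (hdeg : ∀ v : Place K F, v.deg = 1) (A : Divisor K F)
    (v : Place K F) (hA : ∀ h ∈ riemannRochSpace A, h = 0) {f : F} (hf0 : f ≠ 0)
    (hf : f ∈ riemannRochSpace (A + Finsupp.single v 1)) {g : F}
    (hg : g ∈ riemannRochSpace (A + Finsupp.single v 1)) :
    ∃ c : K, g = algebraMap K F c * f := by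
  obtain ⟨f₀, -, h⟩ := Fermat.Agent.H58.rr_space_onestep A v (hdeg v)
  obtain ⟨c₀, hc₀⟩ := h f hf
  obtain ⟨c, hc⟩ := h g hg
  have e₀ : f = c₀ • f₀ := sub_eq_zero.mp (hA _ hc₀)
  have e : g = c • f₀ := sub_eq_zero.mp (hA _ hc)
  have hc₀0 : c₀ ≠ 0 := by
    rintro rfl
    apply hf0
    rw [e₀, zero_smul]
  refine ⟨c * c₀⁻¹, ?_⟩
  rw [e, e₀, Algebra.smul_def, Algebra.smul_def, map_mul, map_inv₀]
  have : algebraMap K F c₀ ≠ 0 := (map_ne_zero _).mpr hc₀0
  field_simp

end

/-- **ESB-6**, unconditional. -/
theorem esb_minimalB : Fermat.Agent.H29.MinimalBStatement := by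
  classical
  intro K F _ _ _ _ _ x hx hfin S D hD hex
  haveI hP : HasPrincipalDivisors K F :=
    Fermat.Agent.H58.rr_hasPrincipalDivisors_charZero K F x hx hfin
  have hdeg : ∀ v : Place K F, v.deg = 1 :=
    (Fermat.Agent.H84.fundamentalIdentity K F x hx hfin).1
  obtain ⟨v₀⟩ := esb_exists_place x hx hfin
  -- strong induction on the degree of `B`
  have key : ∀ (n : ℕ) (B : Divisor K F), 0 ≤ B → (∀ v, B v ≠ 0 → v ∈ S) →
      Divisor.degree B = (n : ℤ) → (∃ f : F, f ≠ 0 ∧ f ∈ riemannRochSpace (D + B)) →
      ∃ B' : Divisor K F, 0 ≤ B' ∧ (∀ v, B' v ≠ 0 → v ∈ S) ∧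
        ∃ f : F, f ≠ 0 ∧ f ∈ riemannRochSpace (D + B') ∧
          ∀ g : F, g ∈ riemannRochSpace (D + B') → ∃ c : K, g = algebraMap K F c * f := by
    intro n
    induction n with
    | zero =>
      intro B hB0 hBS hBdeg ⟨f, hf0, hf⟩
      have hBz : B = 0 :=
        Fermat.Agent.H58.rr_eq_zero_of_degree_eq_zero hdeg B hB0 (by simpa using hBdeg)
      subst hBz
      refine ⟨0, le_rfl, hBS, f, hf0, hf, fun g hg => ?_⟩
      rw [add_zero] at hf hg
      exact esb_span_of_degree_zero hdeg v₀ hD hf0 hf hg
    | succ n ih =>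
      intro B hB0 hBS hBdeg ⟨f, hf0, hf⟩
      by_cases hcase : ∃ v, B v ≠ 0 ∧
          ∃ f' : F, f' ≠ 0 ∧ f' ∈ riemannRochSpace (D + (B + Finsupp.single v (-1)))
      · obtain ⟨v, hv, hf'⟩ := hcase
        have hBv : 1 ≤ B v := by
          have := Finsupp.le_def.mp hB0 v
          simp only [Finsupp.coe_zero, Pi.zero_apply] at this
          omega
        refine ih (B + Finsupp.single v (-1)) ?_ ?_ ?_ hf'
        · rw [Finsupp.le_def]
          intro w
          by_cases hw : w = v
          · subst hw
            rw [Fermat.Agent.H58.rr_add_single_apply_same]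
            simp only [Finsupp.coe_zero, Pi.zero_apply]
            omega
          · rw [Fermat.Agent.H58.rr_add_single_apply_ne B _ hw]
            exact Finsupp.le_def.mp hB0 w
        · intro w hw
          by_cases hwv : w = v
          · subst hwv
            exact hBS w hv
          · rw [Fermat.Agent.H58.rr_add_single_apply_ne B _ hwv] at hw
            exact hBS w hw
        · rw [Fermat.Agent.H58.rr_degree_add_single hdeg, hBdeg]
          push_cast
          ring
      · push Not at hcase
        have hBne : B ≠ 0 := by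
          rintro rfl
          rw [map_zero] at hBdeg
          have : (0 : ℤ) < ((n + 1 : ℕ) : ℤ) := by exact_mod_cast Nat.succ_pos n
          omega
        obtain ⟨v, hv⟩ := Fermat.Agent.H58.rr_exists_pos_of_ne_zero B hB0 hBne
        have hv' : B v ≠ 0 := by omega
        have hA : ∀ h ∈ riemannRochSpace (D + (B + Finsupp.single v (-1))), h = 0 := by
          intro h hh
          by_contra hne
          exact hcase v hv' h hne hh
        have hAB : D + (B + Finsupp.single v (-1)) + Finsupp.single v 1 = D + B := by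
          rw [add_assoc, add_assoc, ← Finsupp.single_add]
          simp
        refine ⟨B, hB0, hBS, f, hf0, hf, fun g hg => ?_⟩
        rw [← hAB] at hf hg
        exact esb_span_of_onestep hdeg _ v hA hf0 hf hg
  obtain ⟨B, hB0, hBS, hf⟩ := hex
  have hdegB : 0 ≤ Divisor.degree B := Fermat.Agent.H58.rr_degree_nonneg B hB0
  obtain ⟨n, hn⟩ := Int.eq_ofNat_of_zero_le hdegB
  exact key n B hB0 hBS hn hf

/-- **ESB-6** in the shape requested by the row (the hypothesis is not needed). -/
theorem esb_minimalB_of (_h0 : Fermat.Agent.H29.ConstantStatement) :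
    Fermat.Agent.H29.MinimalBStatement :=
  esb_minimalB

/-- By-product: **ESB-0** `ConstantStatement` (a function without zeros and poles is
constant). -/
theorem esb_constant : Fermat.Agent.H29.ConstantStatement := by
  intro K F _ _ _ _ _ x hx hfin h hh0 hord
  haveI hP : HasPrincipalDivisors K F :=
    Fermat.Agent.H58.rr_hasPrincipalDivisors_charZero K F x hx hfin
  have hdeg : ∀ v : Place K F, v.deg = 1 :=
    (Fermat.Agent.H84.fundamentalIdentity K F x hx hfin).1
  obtain ⟨v₀⟩ := esb_exists_place x hx hfin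
  have hmem : h ∈ riemannRochSpace (0 : Divisor K F) := by
    rw [mem_riemannRochSpace_iff]
    intro v
    right
    rw [hord v]
    simp
  obtain ⟨c, hc⟩ := (Fermat.Agent.H58.rr_mem_zero_iff hdeg v₀).mp hmem
  exact ⟨c, hc.symm⟩

end Fermat.Agent.H3
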