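import Fermat.Agent.H3.SSTwistCore
import Fermat.Agent.H82.SS.Model

/-!
# P-SS / SS-A2a (helper3): `TwistIndepStatement`

If `1, θ, …, θ^(d-1)` are independent over `k[x]` and `x ∉ k((t^q))`, then the series
`θ(t^q)^i x^j` (`i < d`, `j < q`) are independent over `k[x(t^q)]`.
-/

set_option autoImplicit false
set_option linter.unusedSectionVars false

noncomputable section

namespace Fermat.Agent.H3.SSTwist

open Polynomial ModularCurve

/-- **SS-A2a** -/
theorem twistIndep : Fermat.Agent.H82.SS.TwistIndepStatement := by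
  intro k _ q _ hq x θ d hGI hx p hp
  obtain ⟨m, hm, hxm⟩ := hx
  have h1 : ∑ j : Fin q, qExpand k q (∑ i : Fin d, aeval x (p i j) * θ ^ (i : ℕ)) *
      x ^ (j : ℕ) = 0 := by
    rw [← hp, Finset.sum_comm]
    refine Finset.sum_congr rfl fun j _ => ?_
    rw [map_sum, Finset.sum_mul]
    refine Finset.sum_congr rfl fun i _ => ?_
    rw [map_mul, map_pow, aeval_qExpand]
  have h2 := pow_independent q hq hm hxm _ h1
  intro i j
  exact hGI (fun i => p i j) (h2 j) i

end Fermat.Agent.H3.SSTwist
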