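import Mathlib
import Fermat.Prelude.Def_FLTPrelim_FreyPackage
import Fermat.Prelude.Def_FLTPrelim_Modularity

/-!
# Elementary facts on the Frey curve (helper3)

`freyCurveInt` is an integral model of `freyCurve`, it has nonzero discriminant and it is a
semistable model.  Consequently modularity of all semistable integral Weierstrass curves
implies modularity of the Frey curve.
-/

set_option autoImplicit false

namespace Fermat.Agent.H3

open WeierstrassCurve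

/-- `a ^ p ≡ 3 mod 4`. -/
lemma frey_apow_mod_four (P : FreyPackage) : ((P.a ^ P.p : ℤ) : ZMod 4) = 3 := by
  obtain ⟨k, hk⟩ := P.hp_odd
  have h : ((P.a ^ P.p : ℤ) : ZMod 4) = (3 : ZMod 4) ^ P.p := by
    push_cast
    rw [P.ha4]
  rw [h, hk, pow_succ, pow_mul]
  have h9 : (3 : ZMod 4) ^ 2 = 1 := by decide
  rw [h9, one_pow, one_mul]

/-- `32 ∣ b ^ p`. -/
lemma frey_thirtytwo_dvd_bpow (P : FreyPackage) : (32 : ℤ) ∣ P.b ^ P.p := by
  have h2 : (2 : ℤ) ∣ P.b := (ZMod.intCast_zmod_eq_zero_iff_dvd P.b 2).1 P.hb2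
  have h5 : (2 : ℤ) ^ 5 ∣ P.b ^ P.p :=
    (pow_dvd_pow_of_dvd h2 5).trans (pow_dvd_pow _ P.hp5)
  norm_num at h5
  exact h5

lemma frey_four_dvd (P : FreyPackage) : (4 : ℤ) ∣ P.b ^ P.p - 1 - P.a ^ P.p := by
  have hA := frey_apow_mod_four P
  have hB : (4 : ℤ) ∣ P.b ^ P.p := (by norm_num : (4 : ℤ) ∣ 32).trans (frey_thirtytwo_dvd_bpow P)
  have hB' : ((P.b ^ P.p : ℤ) : ZMod 4) = 0 :=
    (ZMod.intCast_zmod_eq_zero_iff_dvd _ 4).2 hB
  apply (ZMod.intCast_zmod_eq_zero_iff_dvd _ 4).1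
  rw [Int.cast_sub, Int.cast_sub, hA, hB']
  decide

lemma frey_sixteen_dvd (P : FreyPackage) : (16 : ℤ) ∣ -(P.a ^ P.p) * (P.b ^ P.p) := by
  have hB : (16 : ℤ) ∣ P.b ^ P.p := (by norm_num : (16 : ℤ) ∣ 32).trans (frey_thirtytwo_dvd_bpow P)
  exact Dvd.dvd.mul_left hB _

lemma frey_four_mul_a₂ (P : FreyPackage) :
    4 * P.freyCurveInt.a₂ = P.b ^ P.p - 1 - P.a ^ P.p :=
  Int.mul_ediv_cancel' (frey_four_dvd P)

lemma frey_sixteen_mul_a₄ (P : FreyPackage) :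
    16 * P.freyCurveInt.a₄ = -(P.a ^ P.p) * (P.b ^ P.p) :=
  Int.mul_ediv_cancel' (frey_sixteen_dvd P)

/-- The integral Frey curve base-changes to the rational Frey curve. -/
lemma freyCurveInt_map (P : FreyPackage) :
    P.freyCurveInt.map (Int.castRingHom ℚ) = P.freyCurve := by
  have h2 := frey_four_mul_a₂ P
  have h4 := frey_sixteen_mul_a₄ P
  have h2' : (4 : ℚ) * (P.freyCurveInt.a₂ : ℚ) = (P.b : ℚ) ^ P.p - 1 - (P.a : ℚ) ^ P.p := by
    exact_mod_cast h2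
  have h4' : (16 : ℚ) * (P.freyCurveInt.a₄ : ℚ) = -((P.a : ℚ) ^ P.p) * ((P.b : ℚ) ^ P.p) := by
    exact_mod_cast h4
  ext
  · simp [FreyPackage.freyCurveInt, FreyPackage.freyCurve]
  · show ((P.freyCurveInt.a₂ : ℤ) : ℚ) = ((P.b : ℚ) ^ P.p - 1 - (P.a : ℚ) ^ P.p) / 4
    rw [← h2']; ring
  · simp [FreyPackage.freyCurveInt, FreyPackage.freyCurve]
  · show ((P.freyCurveInt.a₄ : ℤ) : ℚ) = -((P.a : ℚ) ^ P.p) * ((P.b : ℚ) ^ P.p) / 16
    rw [← h4']; ring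
  · simp [FreyPackage.freyCurveInt, FreyPackage.freyCurve]

lemma freyCurveInt_isIntegralModelOf (P : FreyPackage) :
    P.freyCurveInt.IsIntegralModelOf P.freyCurve :=
  ⟨1, by rw [one_smul, freyCurveInt_map]⟩

lemma freyCurveInt_a₁ (P : FreyPackage) : P.freyCurveInt.a₁ = 1 := rfl
lemma freyCurveInt_a₃ (P : FreyPackage) : P.freyCurveInt.a₃ = 0 := rfl
lemma freyCurveInt_a₆ (P : FreyPackage) : P.freyCurveInt.a₆ = 0 := rfl

/-- `c₄ = a^{2p} + a^p b^p + b^{2p}`. -/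
lemma freyCurveInt_c₄ (P : FreyPackage) :
    P.freyCurveInt.c₄ = (P.a ^ P.p) ^ 2 + P.a ^ P.p * P.b ^ P.p + (P.b ^ P.p) ^ 2 := by
  have h2 := frey_four_mul_a₂ P
  have h4 := frey_sixteen_mul_a₄ P
  simp only [WeierstrassCurve.c₄, WeierstrassCurve.b₂, WeierstrassCurve.b₄,
    freyCurveInt_a₁, freyCurveInt_a₃]
  linear_combination (4 * P.freyCurveInt.a₂ + 2 + P.b ^ P.p - 1 - P.a ^ P.p) * h2 - 3 * h4

/-- `Δ = a₄² c^{2p}`. -/
lemma freyCurveInt_Δ (P : FreyPackage) :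
    P.freyCurveInt.Δ = P.freyCurveInt.a₄ ^ 2 * (P.c ^ P.p) ^ 2 := by
  have h2 := frey_four_mul_a₂ P
  have h4 := frey_sixteen_mul_a₄ P
  have hF := P.hFLT
  simp only [WeierstrassCurve.Δ, WeierstrassCurve.b₂, WeierstrassCurve.b₄, WeierstrassCurve.b₆,
    WeierstrassCurve.b₈, freyCurveInt_a₁, freyCurveInt_a₃, freyCurveInt_a₆]
  rw [← hF]
  linear_combination
    (P.freyCurveInt.a₄ ^ 2 * (4 * P.freyCurveInt.a₂ + 2 + P.b ^ P.p - 1 - P.a ^ P.p)) * h2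
      - 4 * P.freyCurveInt.a₄ ^ 2 * h4

lemma freyCurveInt_a₄_ne_zero (P : FreyPackage) : P.freyCurveInt.a₄ ≠ 0 := by
  intro h
  have h4 := frey_sixteen_mul_a₄ P
  rw [h, mul_zero] at h4
  have : P.a ^ P.p * P.b ^ P.p ≠ 0 :=
    mul_ne_zero (pow_ne_zero _ P.ha0) (pow_ne_zero _ P.hb0)
  apply this
  linear_combination h4

lemma freyCurveInt_Δ_ne_zero (P : FreyPackage) : P.freyCurveInt.Δ ≠ 0 := by
  rw [freyCurveInt_Δ]
  exact mul_ne_zero (pow_ne_zero _ (freyCurveInt_a₄_ne_zero P))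
    (pow_ne_zero _ (pow_ne_zero _ P.hc0))

lemma not_prime_dvd_both {x y : ℤ} (hxy : gcd x y = 1) {q : ℕ} (hq : q.Prime)
    (hx : (q : ℤ) ∣ x) (hy : (q : ℤ) ∣ y) : False := by
  have h : (q : ℤ) ∣ gcd x y := dvd_gcd hx hy
  rw [hxy] at h
  have := Int.natCast_dvd_natCast.mp (by simpa using h : ((q : ℕ) : ℤ) ∣ ((1 : ℕ) : ℤ))
  exact hq.one_lt.ne' (Nat.dvd_one.mp this)

lemma freyCurveInt_isSemistableModel (P : FreyPackage) : P.freyCurveInt.IsSemistableModel := by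
  intro q hq hΔ hc₄
  have hqp : Prime (q : ℤ) := Nat.prime_iff_prime_int.mp hq
  rw [freyCurveInt_Δ] at hΔ
  rw [freyCurveInt_c₄] at hc₄
  have h4 := frey_sixteen_mul_a₄ P
  have hF := P.hFLT
  -- `q ∣ a` or `q ∣ b` or `q ∣ c`
  have hcases : (q : ℤ) ∣ P.a ∨ (q : ℤ) ∣ P.b ∨ (q : ℤ) ∣ P.c := by
    rcases hqp.dvd_or_dvd hΔ with h | h
    · have h1 : (q : ℤ) ∣ P.freyCurveInt.a₄ := hqp.dvd_of_dvd_pow h
      have h2 : (q : ℤ) ∣ P.a ^ P.p * P.b ^ P.p := by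
        have : P.a ^ P.p * P.b ^ P.p = -(16 * P.freyCurveInt.a₄) := by
          linear_combination h4
        rw [this]
        exact (Dvd.dvd.mul_left h1 16).neg_right
      rcases hqp.dvd_or_dvd h2 with h3 | h3
      · exact Or.inl (hqp.dvd_of_dvd_pow h3)
      · exact Or.inr (Or.inl (hqp.dvd_of_dvd_pow h3))
    · exact Or.inr (Or.inr (hqp.dvd_of_dvd_pow (hqp.dvd_of_dvd_pow h)))
  rcases hcases with ha | hb | hc
  · -- `q ∣ a`, so `q ∣ b ^ (2p)`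
    have hA : (q : ℤ) ∣ P.a ^ P.p := dvd_pow ha P.hp0
    have hB2 : (q : ℤ) ∣ (P.b ^ P.p) ^ 2 := by
      have : (P.b ^ P.p) ^ 2 = ((P.a ^ P.p) ^ 2 + P.a ^ P.p * P.b ^ P.p + (P.b ^ P.p) ^ 2)
          - P.a ^ P.p * (P.a ^ P.p + P.b ^ P.p) := by ring
      rw [this]
      exact dvd_sub hc₄ (Dvd.dvd.mul_right hA _)
    exact not_prime_dvd_both P.hgcdab hq ha (hqp.dvd_of_dvd_pow (hqp.dvd_of_dvd_pow hB2))
  · have hB : (q : ℤ) ∣ P.b ^ P.p := dvd_pow hb P.hp0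
    have hA2 : (q : ℤ) ∣ (P.a ^ P.p) ^ 2 := by
      have : (P.a ^ P.p) ^ 2 = ((P.a ^ P.p) ^ 2 + P.a ^ P.p * P.b ^ P.p + (P.b ^ P.p) ^ 2)
          - P.b ^ P.p * (P.a ^ P.p + P.b ^ P.p) := by ring
      rw [this]
      exact dvd_sub hc₄ (Dvd.dvd.mul_right hB _)
    exact not_prime_dvd_both P.hgcdab hq (hqp.dvd_of_dvd_pow (hqp.dvd_of_dvd_pow hA2)) hb
  · have hC : (q : ℤ) ∣ P.c ^ P.p := dvd_pow hc P.hp0
    have hAB : (q : ℤ) ∣ P.a ^ P.p * P.b ^ P.p := by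
      have : P.a ^ P.p * P.b ^ P.p = (P.c ^ P.p) * (P.c ^ P.p)
          - ((P.a ^ P.p) ^ 2 + P.a ^ P.p * P.b ^ P.p + (P.b ^ P.p) ^ 2) := by
        rw [← hF]; ring
      rw [this]
      exact dvd_sub (Dvd.dvd.mul_right hC _) hc₄
    rcases hqp.dvd_or_dvd hAB with h3 | h3
    · exact not_prime_dvd_both P.hgcdac hq (hqp.dvd_of_dvd_pow h3) hc
    · exact not_prime_dvd_both P.hgcdbc hq (hqp.dvd_of_dvd_pow h3) hc

/-- **Reduction of S04 to S60.**  If every semistable integral Weierstrass curve with nonzero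
discriminant is modular, then the Frey curve of every Frey package is modular. -/
theorem frey_isModular_of_semistable_modularity
    (h60 : ∀ W : WeierstrassCurve ℤ, W.Δ ≠ 0 → W.IsSemistableModel →
      (W.map (Int.castRingHom ℚ)).IsModular)
    (P : FreyPackage) : P.freyCurve.IsModular := by
  have h := h60 P.freyCurveInt (freyCurveInt_Δ_ne_zero P) (freyCurveInt_isSemistableModel P)
  rwa [freyCurveInt_map] at h

/-- **Reduction of S04 to S03.** -/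
theorem frey_isModular_of_no_freyPackage (h03 : FreyPackage → False)
    (P : FreyPackage) : P.freyCurve.IsModular :=
  (h03 P).elim

end Fermat.Agent.H3
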