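/-
P-S14 / C4c-B4 (helper3): Abel summation.

From a count of integral ideals of bounded norm in each ideal class with a power-saving error
term (`ClassCountRate K`), we deduce that the difference of two partial zeta functions is bounded
on the real interval `(1, 2]`, and that the `L`-series of a nontrivial character of the class
group is bounded there.
-/
import Mathlib

set_option autoImplicit false
set_option linter.style.haveILetI false

namespace Fermat.Agent.H3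

open Filter Topology Finset NumberField

/-! ### Generic reindexing lemmas -/

/-- Reindexing a sum of `φ ∘ g` along the fibres of `g : α → ℕ` (finite fibres, `φ ≥ 0`). -/
theorem summable_comp_and_tsum_eq {α : Type*} (g : α → ℕ) (hfin : ∀ k, Finite {a // g a = k})
    (φ : ℕ → ℝ) (hφ : ∀ k, 0 ≤ φ k)
    (hsum : Summable fun k ↦ (Nat.card {a // g a = k} : ℝ) * φ k) :
    Summable (fun a ↦ φ (g a)) ∧
      ∑' a, φ (g a) = ∑' k, (Nat.card {a // g a = k} : ℝ) * φ k := by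
  classical
  let e : (Σ k : ℕ, {a // g a = k}) ≃ α := Equiv.sigmaFiberEquiv g
  have hfib : ∀ k : ℕ, ∑' a : {a // g a = k}, φ (g (e ⟨k, a⟩)) =
      (Nat.card {a // g a = k} : ℝ) * φ k := by
    intro k
    have : ∀ a : {a // g a = k}, φ (g (e ⟨k, a⟩)) = φ k := by
      intro a
      have : g (e ⟨k, a⟩) = k := a.2
      rw [this]
    simp_rw [this]
    haveI := hfin k
    haveI := Fintype.ofFinite {a // g a = k}
    rw [tsum_fintype, Finset.sum_const, Finset.card_univ, Nat.card_eq_fintype_card, nsmul_eq_mul]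
  have hS : Summable (fun x : (Σ k : ℕ, {a // g a = k}) ↦ φ (g (e x))) := by
    rw [summable_sigma_of_nonneg (fun x ↦ hφ _)]
    refine ⟨fun k ↦ ?_, ?_⟩
    · haveI := hfin k
      exact Summable.of_finite
    · simpa only [hfib] using hsum
  refine ⟨?_, ?_⟩
  · exact (e.summable_iff (f := fun a ↦ φ (g a))).mp hS
  · rw [← e.tsum_eq (fun a ↦ φ (g a)), hS.tsum_sigma' (fun k ↦ ?_)]
    · exact tsum_congr hfib
    · haveI := hfin k
      exact Summable.of_finite

/-- Partial sums of the fibre-counting function of `g : α → ℕ` (with `1 ≤ g`). -/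
theorem sum_card_fiber_eq {α : Type*} (g : α → ℕ) (hfin : ∀ k, Finite {a // g a = k})
    (hpos : ∀ a, 1 ≤ g a) (m : ℕ) :
    Finite {a // g a ≤ m} ∧
      ∑ k ∈ Icc 1 m, Nat.card {a // g a = k} = Nat.card {a // g a ≤ m} := by
  induction m with
  | zero =>
    have hE : IsEmpty {a // g a ≤ 0} := ⟨fun a ↦ by have := hpos a.1; have := a.2; omega⟩
    refine ⟨inferInstance, ?_⟩
    rw [Finset.Icc_eq_empty (by omega), Finset.sum_empty, Nat.card_of_isEmpty]
  | succ m ih =>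
    obtain ⟨hf, hs⟩ := ih
    have hf' := hfin (m + 1)
    have hset : {a | g a ≤ m + 1} = {a | g a ≤ m} ∪ {a | g a = m + 1} := by
      ext a
      simp only [Set.mem_ofPred_eq, Set.mem_union]
      omega
    have hdisj : Disjoint {a | g a ≤ m} {a | g a = m + 1} := by
      rw [Set.disjoint_left]
      intro a h1 h2
      simp only [Set.mem_ofPred_eq] at h1 h2
      omega
    have hfm : ({a | g a ≤ m} : Set α).Finite :=
      Set.finite_coe_iff.mp (show Finite ↥{a | g a ≤ m} from hf)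
    have hfm1 : ({a | g a = m + 1} : Set α).Finite :=
      Set.finite_coe_iff.mp (show Finite ↥{a | g a = m + 1} from hf')
    refine ⟨?_, ?_⟩
    · have : ({a | g a ≤ m + 1} : Set α).Finite := by rw [hset]; exact hfm.union hfm1
      exact this.to_subtype
    · rw [Finset.sum_Icc_succ_top (by omega), hs]
      have h := Set.ncard_union_eq hdisj hfm hfm1
      rw [← hset] at h
      have e1 : Nat.card {a // g a ≤ m + 1} = ({a | g a ≤ m + 1} : Set α).ncard :=
        Nat.card_coe_set_eq _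
      have e2 : Nat.card {a // g a ≤ m} = ({a | g a ≤ m} : Set α).ncard :=
        Nat.card_coe_set_eq _
      have e3 : Nat.card {a // g a = m + 1} = ({a | g a = m + 1} : Set α).ncard :=
        Nat.card_coe_set_eq _
      rw [e1, e2, e3, h]


/-! ### Abel summation bound -/

/-- **Abel summation bound.** If the partial sums of `f` are `≤ B n ^ θ` with `0 ≤ θ < 1`, then
the `L`-series of `f` is bounded by `2 B / (1 - θ)` on the real interval `(1, 2]`. -/
theorem norm_lseries_le_of_partial_sum_le (f : ℕ → ℂ) {θ B : ℝ} (hθ0 : 0 ≤ θ) (hθ : θ < 1)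
    (hB : 0 ≤ B) (hf : ∀ n : ℕ, 1 ≤ n → ‖∑ k ∈ Icc 1 n, f k‖ ≤ B * (n : ℝ) ^ θ)
    {s : ℝ} (hs1 : 1 < s) (hs2 : s ≤ 2) (hS : LSeriesSummable f (s : ℂ)) :
    ‖LSeries f (s : ℂ)‖ ≤ 2 * B / (1 - θ) := by
  have hO : (fun n : ℕ ↦ ∑ k ∈ Icc 1 n, f k) =O[atTop] fun n ↦ (n : ℝ) ^ θ := by
    refine Asymptotics.IsBigO.of_bound B ?_
    filter_upwards [eventually_ge_atTop 1] with n hn
    rw [Real.norm_of_nonneg (Real.rpow_nonneg (Nat.cast_nonneg n) _)]
    exact hf n hn
  have hsre : θ < (s : ℂ).re := by simpa using hθ.trans hs1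
  rw [LSeries_eq_mul_integral f hθ0 hsre hS hO, norm_mul]
  have hexp : θ - s - 1 < -1 := by linarith
  have hint : MeasureTheory.IntegrableOn (fun t : ℝ ↦ B * t ^ (θ - s - 1)) (Set.Ioi 1) :=
    (integrableOn_Ioi_rpow_of_lt hexp zero_lt_one).const_mul B
  have hbound : ∀ t ∈ Set.Ioi (1 : ℝ),
      ‖(∑ k ∈ Icc 1 ⌊t⌋₊, f k) * (t : ℂ) ^ (-((s : ℂ) + 1))‖ ≤ B * t ^ (θ - s - 1) := by
    intro t ht
    have ht1 : (1 : ℝ) < t := ht
    have ht0 : (0 : ℝ) < t := by linarith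
    have hfl : 1 ≤ ⌊t⌋₊ := Nat.floor_pos.mpr ht1.le
    rw [norm_mul, Complex.norm_cpow_eq_rpow_re_of_pos ht0]
    have hre : (-((s : ℂ) + 1)).re = -s - 1 := by simp; ring
    rw [hre]
    have h1 : ‖∑ k ∈ Icc 1 ⌊t⌋₊, f k‖ ≤ B * t ^ θ := by
      refine (hf _ hfl).trans ?_
      refine mul_le_mul_of_nonneg_left ?_ hB
      exact Real.rpow_le_rpow (Nat.cast_nonneg _) (Nat.floor_le ht0.le) hθ0
    have h2 : t ^ (θ - s - 1) = t ^ θ * t ^ (-s - 1) := by
      rw [← Real.rpow_add ht0]; congr 1; ring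
    rw [h2, ← mul_assoc]
    exact mul_le_mul_of_nonneg_right h1 (Real.rpow_nonneg ht0.le _)
  have hI : ‖∫ t in Set.Ioi (1 : ℝ), (∑ k ∈ Icc 1 ⌊t⌋₊, f k) * (t : ℂ) ^ (-((s : ℂ) + 1))‖
      ≤ ∫ t in Set.Ioi (1 : ℝ), B * t ^ (θ - s - 1) :=
    MeasureTheory.norm_integral_le_of_norm_le hint
      (MeasureTheory.ae_restrict_of_forall_mem measurableSet_Ioi hbound)
  have hval : ∫ t in Set.Ioi (1 : ℝ), B * t ^ (θ - s - 1) = B / (s - θ) := by
    rw [MeasureTheory.integral_const_mul, integral_Ioi_rpow_of_lt hexp zero_lt_one]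
    rw [Real.one_rpow]
    have : θ - s - 1 + 1 = -(s - θ) := by ring
    rw [this]
    have hne : s - θ ≠ 0 := by linarith
    field_simp
  rw [hval] at hI
  have hsn : ‖(s : ℂ)‖ ≤ 2 := by
    rw [Complex.norm_real, Real.norm_of_nonneg (by linarith)]
    exact hs2
  have hpos : 0 < 1 - θ := by linarith
  have hpos' : 0 < s - θ := by linarith
  calc ‖(s : ℂ)‖ * ‖∫ t in Set.Ioi (1 : ℝ), (∑ k ∈ Icc 1 ⌊t⌋₊, f k) *
        (t : ℂ) ^ (-((s : ℂ) + 1))‖
      ≤ 2 * (B / (s - θ)) := mul_le_mul hsn hI (norm_nonneg _) (by norm_num)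
    _ ≤ 2 * (B / (1 - θ)) := by
        refine mul_le_mul_of_nonneg_left ?_ (by norm_num)
        exact div_le_div_of_nonneg_left hB hpos (by linarith)
    _ = 2 * B / (1 - θ) := by ring

/-! ### Ideals in a class -/

section NumberField

variable (K : Type*) [Field K] [NumberField K]

open scoped nonZeroDivisors

/-- The hypothesis delivered by the lattice-point count: the number of integral ideals of norm
`≤ x` in each class is `κ x + O(x ^ θ)` with `θ < 1`, uniformly in the class. -/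
def ClassCountRate : Prop :=
  ∃ κ B θ : ℝ, 0 ≤ θ ∧ θ < 1 ∧ ∀ (C : ClassGroup (𝓞 K)) (x : ℝ), 1 ≤ x →
    |(Nat.card {I : (Ideal (𝓞 K))⁰ //
        (Ideal.absNorm (I : Ideal (𝓞 K)) : ℝ) ≤ x ∧ ClassGroup.mk0 I = C} : ℝ) - κ * x|
      ≤ B * x ^ θ

variable {K}

/-- The norm map on the nonzero ideals of a class. -/
noncomputable def classNorm (C : ClassGroup (𝓞 K)) :
    {I : (Ideal (𝓞 K))⁰ // ClassGroup.mk0 I = C} → ℕ :=
  fun I ↦ Ideal.absNorm (I.1 : Ideal (𝓞 K))

theorem classNorm_pos (C : ClassGroup (𝓞 K))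
    (I : {I : (Ideal (𝓞 K))⁰ // ClassGroup.mk0 I = C}) : 1 ≤ classNorm C I :=
  Ideal.absNorm_pos_of_nonZeroDivisors I.1

theorem finite_classNorm_fiber (C : ClassGroup (𝓞 K)) (k : ℕ) :
    Finite {a : {I : (Ideal (𝓞 K))⁰ // ClassGroup.mk0 I = C} // classNorm C a = k} := by
  have h : Finite {I : Ideal (𝓞 K) // Ideal.absNorm I = k} :=
    (Ideal.finite_setOfPred_absNorm_eq (S := 𝓞 K) k).to_subtype
  refine Finite.of_injective
    (fun a ↦ (⟨(a.1.1 : Ideal (𝓞 K)), a.2⟩ : {I : Ideal (𝓞 K) // Ideal.absNorm I = k})) ?_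
  intro a b hab
  have : (a.1.1 : Ideal (𝓞 K)) = b.1.1 := by
    simpa using congrArg Subtype.val hab
  exact Subtype.ext (Subtype.ext (Subtype.ext this))

/-- The counting function of a class: number of ideals of norm `k` in the class `C`. -/
noncomputable def classCount (C : ClassGroup (𝓞 K)) (k : ℕ) : ℕ :=
  Nat.card {a : {I : (Ideal (𝓞 K))⁰ // ClassGroup.mk0 I = C} // classNorm C a = k}

/-- The number of ideals of norm `≤ x` in the class `C` (the function appearing in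
`ClassCountRate`) is the partial sum of `classCount`. -/
theorem sum_classCount_eq (C : ClassGroup (𝓞 K)) {x : ℝ} (hx : 0 ≤ x) :
    ∑ k ∈ Icc 1 ⌊x⌋₊, classCount C k =
      Nat.card {I : (Ideal (𝓞 K))⁰ //
        (Ideal.absNorm (I : Ideal (𝓞 K)) : ℝ) ≤ x ∧ ClassGroup.mk0 I = C} := by
  have h := (sum_card_fiber_eq (classNorm C) (finite_classNorm_fiber C) (classNorm_pos C) ⌊x⌋₊).2
  unfold classCount
  rw [h]
  refine Nat.card_congr ?_
  refine
    { toFun := fun a ↦ ⟨a.1.1, ?_, a.1.2⟩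
      invFun := fun I ↦ ⟨⟨I.1, I.2.2⟩, ?_⟩
      left_inv := fun a ↦ rfl
      right_inv := fun I ↦ rfl }
  · exact (Nat.le_floor_iff hx).mp a.2
  · exact (Nat.le_floor_iff hx).mpr I.2.1


/-- Partial sums of `classCount` are `O(n)` (from Mathlib's asymptotic count). -/
theorem sum_classCount_isBigO (C : ClassGroup (𝓞 K)) :
    (fun n : ℕ ↦ ∑ k ∈ Icc 1 n, (classCount C k : ℝ)) =O[atTop] fun n ↦ (n : ℝ) ^ (1 : ℝ) := by
  have h := (NumberField.Ideal.tendsto_norm_le_and_mk_eq_div_atTop K C).comp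
    tendsto_natCast_atTop_atTop
  refine Asymptotics.isBigO_atTop_natCast_rpow_of_tendsto_div_rpow (h.congr fun n ↦ ?_)
  simp only [Function.comp_apply, Real.rpow_one]
  rw [← Nat.cast_sum]
  have := sum_classCount_eq C (x := (n : ℝ)) (Nat.cast_nonneg n)
  rw [Nat.floor_natCast] at this
  rw [this]
  rfl

theorem lseriesSummable_classCount (C : ClassGroup (𝓞 K)) {s : ℂ} (hs : 1 < s.re) :
    LSeriesSummable (fun k ↦ ((classCount C k : ℝ) : ℂ)) s :=
  LSeriesSummable_of_sum_norm_bigO_and_nonneg (sum_classCount_isBigO C)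
    (fun _ ↦ Nat.cast_nonneg _) zero_le_one hs

theorem term_classCount (C : ClassGroup (𝓞 K)) (s : ℝ) (n : ℕ) :
    LSeries.term (fun k ↦ ((classCount C k : ℝ) : ℂ)) (s : ℂ) n =
      (((classCount C n : ℝ) * (n : ℝ) ^ (-s) : ℝ) : ℂ) := by
  rcases Nat.eq_zero_or_pos n with rfl | hn
  · have h0 : classCount C 0 = 0 := by
      unfold classCount
      have : IsEmpty {a : {I : (Ideal (𝓞 K))⁰ // ClassGroup.mk0 I = C} // classNorm C a = 0} :=
        ⟨fun a ↦ by have := classNorm_pos C a.1; have := a.2; omega⟩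
      exact Nat.card_of_isEmpty
    simp [h0]
  · rw [LSeries.term_of_ne_zero hn.ne']
    have hn' : (0 : ℝ) ≤ (n : ℝ) := Nat.cast_nonneg n
    rw [Real.rpow_neg hn']
    push_cast
    rw [Complex.ofReal_cpow hn']
    simp [div_eq_mul_inv]

theorem summable_classCount_mul (C : ClassGroup (𝓞 K)) {s : ℝ} (hs : 1 < s) :
    Summable fun k : ℕ ↦ (classCount C k : ℝ) * (k : ℝ) ^ (-s) := by
  have h := lseriesSummable_classCount C (s := (s : ℂ)) (by simpa using hs)
  unfold LSeriesSummable at h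
  rw [show LSeries.term (fun k ↦ ((classCount C k : ℝ) : ℂ)) (s : ℂ) =
    fun n ↦ (((classCount C n : ℝ) * (n : ℝ) ^ (-s) : ℝ) : ℂ) from
      funext (term_classCount C s)] at h
  exact Complex.summable_ofReal.mp h

theorem lseries_classCount (C : ClassGroup (𝓞 K)) (s : ℝ) :
    LSeries (fun k ↦ ((classCount C k : ℝ) : ℂ)) (s : ℂ) =
      ((∑' k : ℕ, (classCount C k : ℝ) * (k : ℝ) ^ (-s) : ℝ) : ℂ) := by
  unfold LSeries
  rw [Complex.ofReal_tsum]
  exact tsum_congr (term_classCount C s)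

/-- Summability of the partial zeta function of a class, and its expression as a Dirichlet
series. -/
theorem summable_classZeta (C : ClassGroup (𝓞 K)) {s : ℝ} (hs : 1 < s) :
    Summable (fun I : {I : (Ideal (𝓞 K))⁰ // ClassGroup.mk0 I = C} ↦
      (Ideal.absNorm (I.1 : Ideal (𝓞 K)) : ℝ) ^ (-s)) :=
  (summable_comp_and_tsum_eq (classNorm C) (finite_classNorm_fiber C)
    (fun k ↦ (k : ℝ) ^ (-s)) (fun k ↦ Real.rpow_nonneg (Nat.cast_nonneg k) _)
    (summable_classCount_mul C hs)).1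

theorem tsum_classZeta (C : ClassGroup (𝓞 K)) {s : ℝ} (hs : 1 < s) :
    ∑' I : {I : (Ideal (𝓞 K))⁰ // ClassGroup.mk0 I = C},
      (Ideal.absNorm (I.1 : Ideal (𝓞 K)) : ℝ) ^ (-s) =
    ∑' k : ℕ, (classCount C k : ℝ) * (k : ℝ) ^ (-s) :=
  (summable_comp_and_tsum_eq (classNorm C) (finite_classNorm_fiber C)
    (fun k ↦ (k : ℝ) ^ (-s)) (fun k ↦ Real.rpow_nonneg (Nat.cast_nonneg k) _)
    (summable_classCount_mul C hs)).2


/-- The partial zeta function of an ideal class (real `s`). -/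
noncomputable def classZeta (C : ClassGroup (𝓞 K)) (s : ℝ) : ℝ :=
  ∑' I : {I : (Ideal (𝓞 K))⁰ // ClassGroup.mk0 I = C},
    (Ideal.absNorm (I.1 : Ideal (𝓞 K)) : ℝ) ^ (-s)

theorem classZeta_def (C : ClassGroup (𝓞 K)) (s : ℝ) :
    classZeta C s = ∑' I : {I : (Ideal (𝓞 K))⁰ // ClassGroup.mk0 I = C},
      (Ideal.absNorm (I.1 : Ideal (𝓞 K)) : ℝ) ^ (-s) := rfl

theorem lseries_classCount_eq_classZeta (C : ClassGroup (𝓞 K)) {s : ℝ} (hs : 1 < s) :
    LSeries (fun k ↦ ((classCount C k : ℝ) : ℂ)) (s : ℂ) = ((classZeta C s : ℝ) : ℂ) := by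
  rw [lseries_classCount, classZeta_def, tsum_classZeta C hs]

/-- **C4c-B4, difference form (uniform).** Under `ClassCountRate K`, the difference of the
partial zeta functions of two ideal classes is bounded on `(1, 2]`, uniformly in the classes. -/
theorem classZeta_sub_le_of_rate (hR : ClassCountRate K) :
    ∃ B : ℝ, ∀ (C C' : ClassGroup (𝓞 K)) (s : ℝ), 1 < s → s ≤ 2 →
      |classZeta C s - classZeta C' s| ≤ B := by
  obtain ⟨κ, B, θ, hθ0, hθ, h⟩ := hR
  have hB : 0 ≤ B := by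
    have : 0 ≤ B * (1 : ℝ) ^ θ := (abs_nonneg _).trans (h 1 1 le_rfl)
    rwa [Real.one_rpow, mul_one] at this
  refine ⟨2 * (2 * B) / (1 - θ), fun C C' s hs1 hs2 ↦ ?_⟩
  set f : ℕ → ℂ := (fun k ↦ ((classCount C k : ℝ) : ℂ)) - (fun k ↦ ((classCount C' k : ℝ) : ℂ))
    with hf
  have hsre : 1 < (s : ℂ).re := by simpa using hs1
  have hSC := lseriesSummable_classCount C hsre
  have hSC' := lseriesSummable_classCount C' hsre
  have hS : LSeriesSummable f (s : ℂ) := hSC.sub hSC'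
  have hL : LSeries f (s : ℂ) = ((classZeta C s - classZeta C' s : ℝ) : ℂ) := by
    rw [hf, LSeries_sub hSC hSC', lseries_classCount_eq_classZeta C hs1,
      lseries_classCount_eq_classZeta C' hs1]
    push_cast
    rfl
  have hpart : ∀ n : ℕ, 1 ≤ n → ‖∑ k ∈ Icc 1 n, f k‖ ≤ 2 * B * (n : ℝ) ^ θ := by
    intro n hn
    have hn1 : (1 : ℝ) ≤ (n : ℝ) := by exact_mod_cast hn
    have e1 := sum_classCount_eq C (x := (n : ℝ)) (Nat.cast_nonneg n)
    have e2 := sum_classCount_eq C' (x := (n : ℝ)) (Nat.cast_nonneg n)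
    rw [Nat.floor_natCast] at e1 e2
    have h1 := h C n hn1
    have h2 := h C' n hn1
    rw [← e1] at h1
    rw [← e2] at h2
    have hsum : ∑ k ∈ Icc 1 n, f k =
        (((∑ k ∈ Icc 1 n, classCount C k : ℕ) : ℝ) -
          ((∑ k ∈ Icc 1 n, classCount C' k : ℕ) : ℝ) : ℝ) := by
      simp only [hf, Pi.sub_apply, Finset.sum_sub_distrib]
      push_cast
      rfl
    rw [hsum, Complex.norm_real, Real.norm_eq_abs]
    have : ((∑ k ∈ Icc 1 n, classCount C k : ℕ) : ℝ) - ((∑ k ∈ Icc 1 n, classCount C' k : ℕ) : ℝ)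
        = (((∑ k ∈ Icc 1 n, classCount C k : ℕ) : ℝ) - κ * n) -
          (((∑ k ∈ Icc 1 n, classCount C' k : ℕ) : ℝ) - κ * n) := by ring
    rw [this]
    calc |(((∑ k ∈ Icc 1 n, classCount C k : ℕ) : ℝ) - κ * n) -
          (((∑ k ∈ Icc 1 n, classCount C' k : ℕ) : ℝ) - κ * n)|
        ≤ |((∑ k ∈ Icc 1 n, classCount C k : ℕ) : ℝ) - κ * n| +
          |((∑ k ∈ Icc 1 n, classCount C' k : ℕ) : ℝ) - κ * n| := abs_sub _ _
      _ ≤ B * (n : ℝ) ^ θ + B * (n : ℝ) ^ θ := add_le_add h1 h2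
      _ = 2 * B * (n : ℝ) ^ θ := by ring
  have := norm_lseries_le_of_partial_sum_le f hθ0 hθ (by positivity : (0 : ℝ) ≤ 2 * B)
    hpart hs1 hs2 hS
  rwa [hL, Complex.norm_real, Real.norm_eq_abs] at this


/-- The `L`-series of a function of the ideal class, as a finite combination of partial zeta
functions. -/
theorem hasSum_classFun (c : ClassGroup (𝓞 K) → ℂ) {s : ℝ} (hs : 1 < s) :
    HasSum (fun I : (Ideal (𝓞 K))⁰ ↦ c (ClassGroup.mk0 I) *
        (((Ideal.absNorm (I : Ideal (𝓞 K)) : ℝ) ^ (-s) : ℝ) : ℂ))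
      (∑ C : ClassGroup (𝓞 K), c C * ((classZeta C s : ℝ) : ℂ)) := by
  classical
  set F : (Ideal (𝓞 K))⁰ → ℂ := fun I ↦ c (ClassGroup.mk0 I) *
    (((Ideal.absNorm (I : Ideal (𝓞 K)) : ℝ) ^ (-s) : ℝ) : ℂ) with hF
  have hC : ∀ C : ClassGroup (𝓞 K),
      HasSum (Set.indicator {I : (Ideal (𝓞 K))⁰ | ClassGroup.mk0 I = C} F)
        (c C * ((classZeta C s : ℝ) : ℂ)) := by
    intro C
    rw [← hasSum_subtype_iff_indicator]
    have h1 : HasSum (fun I : {I : (Ideal (𝓞 K))⁰ // ClassGroup.mk0 I = C} ↦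
        (Ideal.absNorm (I.1 : Ideal (𝓞 K)) : ℝ) ^ (-s)) (classZeta C s) :=
      (summable_classZeta C hs).hasSum
    have h2 := (Complex.hasSum_ofReal.mpr h1).mul_left (c C)
    refine h2.congr_fun ?_
    intro I
    simp only [Function.comp_apply, hF]
    have hI : ClassGroup.mk0 I.1 = C := I.2
    rw [hI]
  have hsum := hasSum_sum (s := Finset.univ) (fun C _ ↦ hC C)
  refine hsum.congr_fun ?_
  intro I
  rw [Finset.sum_eq_single (ClassGroup.mk0 I)]
  · rw [Set.indicator_of_mem (by simp)]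
  · intro C _ hne
    rw [Set.indicator_of_notMem]
    simpa [eq_comm] using hne
  · intro h
    exact absurd (Finset.mem_univ _) h

/-- **C4c-B4, character form.** Under `ClassCountRate K`, the `L`-series of a nontrivial
character of the class group is bounded on `(1, 2]`. -/
theorem classL_bounded_of_rate (hR : ClassCountRate K) (χ : ClassGroup (𝓞 K) →* ℂˣ)
    (hχ : χ ≠ 1) :
    ∃ B : ℝ, ∀ s : ℝ, 1 < s → s ≤ 2 →
      ‖∑' I : (Ideal (𝓞 K))⁰, ((χ (ClassGroup.mk0 I) : ℂˣ) : ℂ) *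
          (((Ideal.absNorm (I : Ideal (𝓞 K)) : ℝ) ^ (-s) : ℝ) : ℂ)‖ ≤ B := by
  classical
  obtain ⟨B, hB⟩ := classZeta_sub_le_of_rate hR
  refine ⟨∑ C : ClassGroup (𝓞 K), ‖((χ C : ℂˣ) : ℂ)‖ * B, fun s hs1 hs2 ↦ ?_⟩
  have hsum := hasSum_classFun (K := K) (fun C ↦ ((χ C : ℂˣ) : ℂ)) hs1
  rw [hsum.tsum_eq]
  have hzero : ∑ C : ClassGroup (𝓞 K), ((χ C : ℂˣ) : ℂ) = 0 := by
    have hne : (Units.coeHom ℂ).comp χ ≠ 1 := by
      intro h
      apply hχ
      ext C
      have := congrArg (fun f : ClassGroup (𝓞 K) →* ℂ ↦ f C) h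
      simpa using this
    have := sum_hom_units_eq_zero ((Units.coeHom ℂ).comp χ) hne
    simpa using this
  have hrew : ∑ C : ClassGroup (𝓞 K), ((χ C : ℂˣ) : ℂ) * ((classZeta C s : ℝ) : ℂ) =
      ∑ C : ClassGroup (𝓞 K), ((χ C : ℂˣ) : ℂ) *
        (((classZeta C s - classZeta (1 : ClassGroup (𝓞 K)) s : ℝ)) : ℂ) := by
    have : ∑ C : ClassGroup (𝓞 K), ((χ C : ℂˣ) : ℂ) * (((classZeta C s - classZeta (1 : ClassGroup (𝓞 K)) s : ℝ)) : ℂ)
        = ∑ C : ClassGroup (𝓞 K), ((χ C : ℂˣ) : ℂ) * ((classZeta C s : ℝ) : ℂ) -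
          (∑ C : ClassGroup (𝓞 K), ((χ C : ℂˣ) : ℂ)) * ((classZeta (1 : ClassGroup (𝓞 K)) s : ℝ) : ℂ) := by
      rw [Finset.sum_mul, ← Finset.sum_sub_distrib]
      refine Finset.sum_congr rfl fun C _ ↦ ?_
      push_cast
      ring
    rw [this, hzero, zero_mul, sub_zero]
  rw [hrew]
  refine (norm_sum_le _ _).trans (Finset.sum_le_sum fun C _ ↦ ?_)
  rw [norm_mul, Complex.norm_real, Real.norm_eq_abs]
  exact mul_le_mul_of_nonneg_left (hB C 1 s hs1 hs2) (norm_nonneg _)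

/-- `ClassCountRate` from the statement in the shape delivered by the lattice count
(exponent `1 - 1 / n`, `n = [K : ℚ]`). -/
theorem classCountRate_of_exists {κ : ℝ}
    (h : ∃ B : ℝ, ∀ (C : ClassGroup (𝓞 K)) (x : ℝ), 1 ≤ x →
      |(Nat.card {I : (Ideal (𝓞 K))⁰ //
          (Ideal.absNorm (I : Ideal (𝓞 K)) : ℝ) ≤ x ∧ ClassGroup.mk0 I = C} : ℝ) - κ * x|
        ≤ B * x ^ (1 - 1 / (Module.finrank ℚ K : ℝ))) :
    ClassCountRate K := by
  obtain ⟨B, hB⟩ := h
  have hn : (1 : ℝ) ≤ (Module.finrank ℚ K : ℝ) := by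
    exact_mod_cast Module.finrank_pos (R := ℚ) (M := K)
  have hpos : (0 : ℝ) < (Module.finrank ℚ K : ℝ) := by linarith
  refine ⟨κ, B, 1 - 1 / (Module.finrank ℚ K : ℝ), ?_, ?_, hB⟩
  · rw [sub_nonneg, div_le_one hpos]
    exact hn
  · have : 0 < 1 / (Module.finrank ℚ K : ℝ) := by positivity
    linarith

end NumberField

end Fermat.Agent.H3
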