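/-
P-S14 / C4c-B4 (helper3): the two C4c interface statements of `Fermat.Agent.H13.S14Interfaces`
from the ideal count with rate (`Fermat.Agent.H3.ClassCountRate`, the output of C4c-B3).
-/
import Fermat.Agent.H3.ClassZetaAbel
import Fermat.Agent.H13.S14Interfaces

set_option autoImplicit false

namespace Fermat.Agent.H3

open NumberField

open scoped nonZeroDivisors

/-- **C4c (official form)** from the ideal count with rate. -/
theorem classZetaBoundedStatement_of_rate
    (hR : ∀ (K : Type) [Field K] [NumberField K], ClassCountRate K) :
    Fermat.Agent.H13.ClassZetaBoundedStatement := by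
  intro K _ _ C C'
  obtain ⟨B, hB⟩ := classZeta_sub_le_of_rate (hR K)
  exact ⟨B, fun s hs1 hs2 ↦ hB C C' s hs1 hs2⟩

/-- **C4c (character form)** from the ideal count with rate. -/
theorem classLBoundedStatement_of_rate
    (hR : ∀ (K : Type) [Field K] [NumberField K], ClassCountRate K) :
    Fermat.Agent.H13.ClassLBoundedStatement := by
  intro K _ _ χ hχ
  exact classL_bounded_of_rate (hR K) χ hχ

end Fermat.Agent.H3
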