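/-
P-S14 / C4c (helper3): the two C4c interface statements, unconditionally.
Inputs: `Fermat.Agent.H68.exists_classCount_rate` (ideal count per class with rate, B1+B2+B3)
and the Abel summation of `Fermat.Agent.H3.ClassZetaAbel` (B4).
-/
import Fermat.Agent.H3.ClassZetaFinal
import Fermat.Agent.H68.ClassCountRate

set_option autoImplicit false

namespace Fermat.Agent.H3

open NumberField

open scoped nonZeroDivisors

/-- The ideal count with rate holds for every number field. -/
theorem classCountRate (K : Type*) [Field K] [NumberField K] : ClassCountRate K :=
  classCountRate_of_exists (Fermat.Agent.H68.exists_classCount_rate K)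

/-- **C4c, official form**: the difference of the partial zeta functions of two ideal classes is
bounded on `(1, 2]`. -/
theorem classZetaBounded : Fermat.Agent.H13.ClassZetaBoundedStatement :=
  classZetaBoundedStatement_of_rate fun K _ _ ↦ classCountRate K

/-- **C4c, character form**: the `L`-series of a nontrivial character of the class group is
bounded on `(1, 2]`. -/
theorem classLBounded : Fermat.Agent.H13.ClassLBoundedStatement :=
  classLBoundedStatement_of_rate fun K _ _ ↦ classCountRate K

end Fermat.Agent.H3
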