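import Fermat.Agent.H3.FrobCount

/-!
# FROB-D: assembly of Frobenius' density theorem (existence form)

`DegOneSumStatement` (FROB-A) + `DegOneCountStatement` (FROB-B) +
`MoebiusFixedPointsStatement` (FROB-C) + `μ * id = φ` imply `FrobeniusNFStatement`.
-/

set_option autoImplicit false
set_option linter.unusedSectionVars false
set_option linter.style.haveILetI false

noncomputable section

namespace Fermat.Agent.H3.Frob

open NumberField IsDedekindDomain Ideal
open scoped Pointwise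

universe u

variable {L : Type u} [Field L] [NumberField L] [IsGalois ℚ L]

omit [IsGalois ℚ L] in
/-- Over every prime number there is a prime of `𝓞 L`. -/
lemma exists_prime_over (ℓ : ℕ) (hℓ : ℓ.Prime) :
    ∃ P : Ideal (𝓞 L), P.IsPrime ∧ (ℓ : 𝓞 L) ∈ P := by
  haveI hprime : (Ideal.span {(ℓ : ℤ)}).IsPrime :=
    (Ideal.span_singleton_prime (by exact_mod_cast hℓ.ne_zero)).mpr
      (Nat.prime_iff_prime_int.mp hℓ)
  obtain ⟨Q, -, hQprime, hQ⟩ := Ideal.exists_ideal_over_prime_of_isIntegral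
    (Ideal.span {(ℓ : ℤ)}) (⊥ : Ideal (𝓞 L)) (by
      intro z hz
      rw [Ideal.mem_comap, Ideal.mem_bot] at hz
      have hinj : Function.Injective (algebraMap ℤ (𝓞 L)) :=
        FaithfulSMul.algebraMap_injective _ _
      have : z = 0 := hinj (by rw [hz, map_zero])
      rw [this]
      exact zero_mem _)
  refine ⟨Q, hQprime, ?_⟩
  have : (ℓ : ℤ) ∈ Q.comap (algebraMap ℤ (𝓞 L)) := by
    rw [hQ]
    exact Ideal.mem_span_singleton_self _
  rw [Ideal.mem_comap] at this
  simpa using this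

/-- At every prime of `𝓞 L` over `ℓ` there is a Frobenius element. -/
lemma exists_frob {P : Ideal (𝓞 L)} (hP : P.IsPrime) {ℓ : ℕ} (hℓ : ℓ.Prime)
    (hℓP : (ℓ : 𝓞 L) ∈ P) : ∃ σ : L ≃ₐ[ℚ] L, ∀ x : 𝓞 L, σ • x - x ^ ℓ ∈ P := by
  haveI := hP
  have hne : P ≠ ⊥ := by
    rintro rfl
    rw [Ideal.mem_bot] at hℓP
    exact hℓ.ne_zero (by exact_mod_cast hℓP)
  haveI : Finite (𝓞 L ⧸ P) := Ideal.finiteQuotientOfFreeOfNeBot P hne
  obtain ⟨σ, hσ⟩ := IsArithFrobAt.exists_of_isInvariant ℤ (L ≃ₐ[ℚ] L) P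
  refine ⟨σ, fun x => ?_⟩
  have h := hσ x
  rw [under_int_eq_span hP hℓ hℓP, Int.card_ideal_quot] at h
  exact h

omit [IsGalois ℚ L] in
/-- Conjugating a Frobenius. -/
lemma frob_conj {P : Ideal (𝓞 L)} {ℓ : ℕ} {σ : L ≃ₐ[ℚ] L}
    (hσ : ∀ x : 𝓞 L, σ • x - x ^ ℓ ∈ P) (h : L ≃ₐ[ℚ] L) :
    ∀ x : 𝓞 L, (h⁻¹ * σ * h) • x - x ^ ℓ ∈ h⁻¹ • P := by
  intro x
  rw [Ideal.mem_pointwise_smul_iff_inv_smul_mem, inv_inv, smul_sub, smul_pow', mul_smul,
    mul_smul, smul_inv_smul]
  exact hσ (h • x)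

omit [IsGalois ℚ L] in
lemma galSmul_natCast (h : L ≃ₐ[ℚ] L) (ℓ : ℕ) : h • (ℓ : 𝓞 L) = (ℓ : 𝓞 L) :=
  map_natCast (MulSemiringAction.toRingHom (L ≃ₐ[ℚ] L) (𝓞 L) h) ℓ

/-- **FROB-D**: assembly of Frobenius' theorem from the analytic statement, the Möbius
identity and `μ * id = φ` (the count statement is `degOneCount_statement`). -/
theorem frobeniusNF_of_parts (hA : DegOneSumStatement.{u})
    (hC : MoebiusFixedPointsStatement.{u})
    (hφ : ∀ n : ℕ, 0 < n →
      ∑ d ∈ n.divisors, (ArithmeticFunction.moebius d : ℤ) * ((n / d : ℕ) : ℤ) =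
        (n.totient : ℤ)) :
    FrobeniusNFStatement.{u} := by
  intro L _ _ _ g S
  classical
  by_contra hcon
  push Not at hcon
  set n := orderOf g with hn
  have hnpos : 0 < n := orderOf_pos g
  let Hd : ℕ → Subgroup (L ≃ₐ[ℚ] L) := fun d => Subgroup.zpowers (g ^ d)
  choose T hT using fun d => degOneCount_statement.{u} L (Hd d)
  let T' : Finset ℕ := S ∪ n.divisors.biUnion T
  choose B ε hε hAB using fun d => hA (IntermediateField.fixedField (Hd d)) T'
  -- the pointwise identity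
  have hzero : ∀ ℓ : ℕ, ℓ.Prime → ℓ ∉ T' →
      ∑ d ∈ n.divisors, (ArithmeticFunction.moebius d : ℝ) * ((n / d : ℕ) : ℝ) *
        (degOneCount (IntermediateField.fixedField (Hd d)) ℓ : ℝ) = 0 := by
    intro ℓ hℓ hℓT
    obtain ⟨P, hP, hℓP⟩ := exists_prime_over (L := L) ℓ hℓ
    obtain ⟨σ, hσ⟩ := exists_frob hP hℓ hℓP
    have hS : ℓ ∉ S := fun h => hℓT (Finset.mem_union_left _ h)
    have hcount : ∀ d ∈ n.divisors, degOneCount (IntermediateField.fixedField (Hd d)) ℓ =
        Nat.card {x : (L ≃ₐ[ℚ] L) ⧸ Hd d // σ • x = x} := by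
      intro d hd
      exact hT d ℓ hℓ (fun h => hℓT (Finset.mem_union_right _
        (Finset.mem_biUnion.mpr ⟨d, hd, h⟩))) P hP hℓP σ hσ
    have hmoeb := hC (L ≃ₐ[ℚ] L) g σ
    have hempty : Nat.card {h : L ≃ₐ[ℚ] L //
        ∃ k : ℕ, k.Coprime (orderOf g) ∧ h⁻¹ * σ * h = g ^ k} = 0 := by
      rw [Nat.card_eq_zero]
      left
      constructor
      rintro ⟨h, k, hk, hh⟩
      haveI := hP
      have hprime : (h⁻¹ • P).IsPrime := (Ideal.IsPrime.smul_iff h⁻¹).mpr hP
      have hmem : (ℓ : 𝓞 L) ∈ h⁻¹ • P := by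
        rw [Ideal.mem_pointwise_smul_iff_inv_smul_mem, galSmul_natCast]
        exact hℓP
      obtain ⟨x, hx⟩ := hcon ℓ hℓ hS (h⁻¹ • P) hprime hmem k hk
      apply hx
      rw [← hh]
      exact frob_conj hσ h x
    have hint : (∑ d ∈ n.divisors, (ArithmeticFunction.moebius d : ℤ) * ((n / d : ℕ) : ℤ) *
        (Nat.card {x : (L ≃ₐ[ℚ] L) ⧸ Hd d // σ • x = x} : ℤ)) = 0 := by
      rw [hmoeb, hempty]
      simp
    have hR := congrArg (Int.cast : ℤ → ℝ) hint
    simp only [Int.cast_sum, Int.cast_mul, Int.cast_natCast, Int.cast_zero] at hR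
    rw [← hR]
    apply Finset.sum_congr rfl
    intro d hd
    rw [hcount d hd]
  -- choice of `s`
  have hD : n.divisors.Nonempty := ⟨1, Nat.one_mem_divisors.mpr hnpos.ne'⟩
  set ε0 := n.divisors.inf' hD ε with hε0def
  have hε0 : 0 < ε0 := (Finset.lt_inf'_iff hD).mpr (fun d _ => hε d)
  set M : ℝ := ∑ d ∈ n.divisors, ((n / d : ℕ) : ℝ) * |B d| with hMdef
  have hM : 0 ≤ M := Finset.sum_nonneg fun d _ => mul_nonneg (Nat.cast_nonneg _) (abs_nonneg _)
  set δ := min (ε0 / 2) (Real.exp (-(M + 1))) with hδdef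
  have hδ : 0 < δ := lt_min (by positivity) (Real.exp_pos _)
  set s := 1 + δ with hsdef
  have hs1 : 1 < s := by linarith
  have hsε : ∀ d ∈ n.divisors, s < 1 + ε d := by
    intro d hd
    have h1 : ε0 ≤ ε d := Finset.inf'_le ε hd
    have h2 : δ ≤ ε0 / 2 := min_le_left _ _
    linarith
  set Λ := Real.log (1 / (s - 1)) with hΛdef
  have hΛ : M + 1 ≤ Λ := by
    have h1 : s - 1 = δ := by simp [hsdef]
    rw [hΛdef, h1, one_div, Real.log_inv]
    have h2 : Real.log δ ≤ -(M + 1) := by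
      calc Real.log δ ≤ Real.log (Real.exp (-(M + 1))) :=
            Real.log_le_log hδ (min_le_right _ _)
        _ = -(M + 1) := Real.log_exp _
    linarith
  have hsum : ∀ d ∈ n.divisors,
      Summable (degOneTerm (IntermediateField.fixedField (Hd d)) T' s) :=
    fun d hd => (hAB d s hs1 (hsε d hd)).1
  have hbd : ∀ d ∈ n.divisors,
      |(∑' ℓ, degOneTerm (IntermediateField.fixedField (Hd d)) T' s ℓ) - Λ| ≤ B d :=
    fun d hd => (hAB d s hs1 (hsε d hd)).2
  -- the weighted total vanishes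
  have htot : ∑ d ∈ n.divisors, (ArithmeticFunction.moebius d : ℝ) * ((n / d : ℕ) : ℝ) *
      ∑' ℓ, degOneTerm (IntermediateField.fixedField (Hd d)) T' s ℓ = 0 := by
    calc ∑ d ∈ n.divisors, (ArithmeticFunction.moebius d : ℝ) * ((n / d : ℕ) : ℝ) *
          ∑' ℓ, degOneTerm (IntermediateField.fixedField (Hd d)) T' s ℓ
        = ∑ d ∈ n.divisors, ∑' ℓ, (ArithmeticFunction.moebius d : ℝ) * ((n / d : ℕ) : ℝ) *
            degOneTerm (IntermediateField.fixedField (Hd d)) T' s ℓ := by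
          apply Finset.sum_congr rfl
          intro d _
          rw [tsum_mul_left]
      _ = ∑' ℓ, ∑ d ∈ n.divisors, (ArithmeticFunction.moebius d : ℝ) * ((n / d : ℕ) : ℝ) *
            degOneTerm (IntermediateField.fixedField (Hd d)) T' s ℓ := by
          rw [Summable.tsum_finsetSum]
          intro d hd
          exact (hsum d hd).mul_left _
      _ = ∑' _ℓ : ℕ, (0 : ℝ) := by
          congr 1
          ext ℓ
          by_cases h : ℓ.Prime ∧ ℓ ∉ T'
          · simp only [degOneTerm, if_pos h]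
            have := hzero ℓ h.1 h.2
            calc ∑ d ∈ n.divisors, (ArithmeticFunction.moebius d : ℝ) * ((n / d : ℕ) : ℝ) *
                  ((degOneCount (IntermediateField.fixedField (Hd d)) ℓ : ℝ) * (ℓ : ℝ) ^ (-s))
                = (∑ d ∈ n.divisors, (ArithmeticFunction.moebius d : ℝ) * ((n / d : ℕ) : ℝ) *
                  (degOneCount (IntermediateField.fixedField (Hd d)) ℓ : ℝ)) * (ℓ : ℝ) ^ (-s) := by
                  rw [Finset.sum_mul]
                  apply Finset.sum_congr rfl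
                  intro d _
                  ring
              _ = 0 := by rw [this, zero_mul]
          · simp only [degOneTerm, if_neg h, mul_zero, Finset.sum_const_zero]
      _ = 0 := tsum_zero
  have hφ' : ∑ d ∈ n.divisors, (ArithmeticFunction.moebius d : ℝ) * ((n / d : ℕ) : ℝ) =
      (n.totient : ℝ) := by
    have h := congrArg (Int.cast : ℤ → ℝ) (hφ n hnpos)
    simp only [Int.cast_sum, Int.cast_mul, Int.cast_natCast] at h
    exact h
  have htotient : (1 : ℝ) ≤ n.totient := by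
    exact_mod_cast Nat.totient_pos.mpr hnpos
  have key : (n.totient : ℝ) * Λ =
      - ∑ d ∈ n.divisors, (ArithmeticFunction.moebius d : ℝ) * ((n / d : ℕ) : ℝ) *
        ((∑' ℓ, degOneTerm (IntermediateField.fixedField (Hd d)) T' s ℓ) - Λ) := by
    have h1 : ∑ d ∈ n.divisors, (ArithmeticFunction.moebius d : ℝ) * ((n / d : ℕ) : ℝ) *
        ((∑' ℓ, degOneTerm (IntermediateField.fixedField (Hd d)) T' s ℓ) - Λ) =
        (∑ d ∈ n.divisors, (ArithmeticFunction.moebius d : ℝ) * ((n / d : ℕ) : ℝ) *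
          ∑' ℓ, degOneTerm (IntermediateField.fixedField (Hd d)) T' s ℓ) -
        (∑ d ∈ n.divisors, (ArithmeticFunction.moebius d : ℝ) * ((n / d : ℕ) : ℝ)) * Λ := by
      rw [Finset.sum_mul, ← Finset.sum_sub_distrib]
      apply Finset.sum_congr rfl
      intro d _
      ring
    rw [h1, htot, hφ']
    ring
  have hbound : |∑ d ∈ n.divisors, (ArithmeticFunction.moebius d : ℝ) * ((n / d : ℕ) : ℝ) *
      ((∑' ℓ, degOneTerm (IntermediateField.fixedField (Hd d)) T' s ℓ) - Λ)| ≤ M := by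
    refine (Finset.abs_sum_le_sum_abs _ _).trans ?_
    apply Finset.sum_le_sum
    intro d hd
    rw [abs_mul, abs_mul]
    have h1 : |(ArithmeticFunction.moebius d : ℝ)| ≤ 1 := by
      have := @ArithmeticFunction.abs_moebius_le_one d
      have h' : ((|ArithmeticFunction.moebius d| : ℤ) : ℝ) ≤ ((1 : ℤ) : ℝ) := by
        exact_mod_cast this
      rwa [Int.cast_abs, Int.cast_one] at h'
    have h2 : |((n / d : ℕ) : ℝ)| = ((n / d : ℕ) : ℝ) := abs_of_nonneg (Nat.cast_nonneg _)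
    have h3 : |(∑' ℓ, degOneTerm (IntermediateField.fixedField (Hd d)) T' s ℓ) - Λ| ≤ |B d| :=
      (hbd d hd).trans (le_abs_self (B d))
    rw [h2]
    calc |(ArithmeticFunction.moebius d : ℝ)| * ((n / d : ℕ) : ℝ) *
          |(∑' ℓ, degOneTerm (IntermediateField.fixedField (Hd d)) T' s ℓ) - Λ|
        ≤ 1 * ((n / d : ℕ) : ℝ) * |B d| := by
          apply mul_le_mul _ h3 (abs_nonneg _) (by positivity)
          exact mul_le_mul_of_nonneg_right h1 (Nat.cast_nonneg _)
      _ = ((n / d : ℕ) : ℝ) * |B d| := by ring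
  have hΛpos : 0 ≤ Λ := by linarith
  have h1 : Λ ≤ (n.totient : ℝ) * Λ := by nlinarith
  have h2 : (n.totient : ℝ) * Λ ≤ M := by
    rw [key]
    exact (neg_le_abs _).trans hbound
  linarith

end Fermat.Agent.H3.Frob
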