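import Fermat.Agent.H3.FrobFinal
import Fermat.Agent.H72.FDT.Interfaces
import Fermat.Agent.H54.FDTTrans

/-!
# Frobenius' density theorem in the language of the prelude (unconditional)

Adapter from `Fermat.Agent.H3.Frob.frobeniusNF` to the P-FDT interfaces
`Fermat.Agent.H72.FrobPowFiniteStatement` and, through helper54's translation layer
`Fermat.Agent.H54.frobPow_of_finite`, `Fermat.Agent.H72.FrobPowStatement`.
-/

set_option autoImplicit false

namespace Fermat.Agent.H3.Frob

open NumberField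

/-- P-FDT finite-level statement, from `frobeniusNF`. -/
theorem frobPowFinite : Fermat.Agent.H72.FrobPowFiniteStatement := by
  intro L _ _ _ g S
  obtain ⟨ℓ, hℓ, hℓS, P, hP, hℓP, k, hk, hfrob⟩ := frobeniusNF.{0} L g S
  refine ⟨ℓ, hℓ, hℓS, P, hP, hℓP, g ^ k, ?_⟩
  -- `k` is invertible modulo the order of `g`
  obtain ⟨j, hj⟩ : ∃ j : ℕ, k * j ≡ 1 [MOD orderOf g] := by
    by_cases h1 : orderOf g = 1
    · exact ⟨0, by rw [h1]; exact Nat.modEq_one⟩
    · have hpos : 0 < orderOf g := orderOf_pos g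
      have hlt : 1 < orderOf g := by omega
      obtain ⟨j, -, hj⟩ := Nat.exists_mul_mod_eq_one_of_coprime hk hlt
      exact ⟨j, by rw [Nat.ModEq, hj, Nat.mod_eq_of_lt hlt]⟩
  refine ⟨j, k, hfrob, ?_, rfl⟩
  have h1 : g ^ (k * j) = g ^ 1 := (pow_eq_pow_iff_modEq).mpr hj
  rw [← pow_mul, h1, pow_one]

/-- **Frobenius' density theorem, prelude language**: every `g ∈ Gal(ℚ̄/ℚ)` agrees on a given
finite extension `F` of `ℚ` with a power of a Frobenius lift `σ` at a place over some `ℓ ∉ S`,
and `σ` agrees on `F` with a power of `g`. -/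
theorem frobPow : Fermat.Agent.H72.FrobPowStatement :=
  Fermat.Agent.H54.frobPow_of_finite frobPowFinite

end Fermat.Agent.H3.Frob
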