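import Fermat.Agent.H91.PurityMain

/-!
# P-ES / KL-KUM (helper3): the Kummer layer, basic tools

Setting of `Fermat.Agent.H91.PurityMain`: `R` an integrally closed domain, `K = Frac R`,
`E₀/K` a finite extension, `h : R` a prime element.

* `LocInt h y` : `y` lies in the localisation at `h` of the integral closure of `R`
  (`∃ s, ¬ h ∣ s ∧ IsIntegral R (s • y)`).
* `LocDvd h y` : `y` lies in `h` times that localisation.
* closure properties, behaviour under `algebraMap` and the trace, `¬ LocDvd h 1`.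
* Kummer traces: for `w ^ r = u`, `u` not an `r`-th power (`r` prime):
  `Tr (w ^ m) = 0` unless `r ∣ m`.
-/

set_option autoImplicit false
set_option linter.style.haveILetI false
set_option linter.unusedSectionVars false

noncomputable section

open Polynomial

namespace Fermat.Agent.H3.KLKum

section Loc

variable {R : Type*} [CommRing R]
variable {E : Type*} [CommRing E] [Algebra R E]

/-- `y` lies in the localisation at the prime element `h` of the integral closure of `R`. -/
def LocInt (h : R) (y : E) : Prop := ∃ s : R, ¬ h ∣ s ∧ IsIntegral R (s • y)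

/-- `y` lies in `h` times the localisation at `h` of the integral closure of `R`. -/
def LocDvd (h : R) (y : E) : Prop :=
  ∃ (s : R) (c : E), ¬ h ∣ s ∧ IsIntegral R c ∧ s • y = h • c

variable {h : R}

theorem LocInt.of_isIntegral (hh : Prime h) {y : E} (hy : IsIntegral R y) : LocInt h y :=
  ⟨1, hh.not_dvd_one, by rwa [one_smul]⟩

theorem LocInt.algebraMap_base (hh : Prime h) (a : R) : LocInt h (algebraMap R E a) :=
  LocInt.of_isIntegral hh isIntegral_algebraMap

theorem LocInt.one (hh : Prime h) : LocInt h (1 : E) :=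
  LocInt.of_isIntegral hh isIntegral_one

theorem LocInt.zero (hh : Prime h) : LocInt h (0 : E) :=
  LocInt.of_isIntegral hh isIntegral_zero

theorem LocInt.add (hh : Prime h) {y z : E} (hy : LocInt h y) (hz : LocInt h z) :
    LocInt h (y + z) := by
  obtain ⟨s, hs, hsy⟩ := hy
  obtain ⟨t, ht, htz⟩ := hz
  refine ⟨s * t, fun hd => (hh.dvd_or_dvd hd).elim hs ht, ?_⟩
  have : (s * t) • (y + z) = t • (s • y) + s • (t • z) := by
    rw [smul_add, mul_smul, mul_smul, smul_comm s t y]
  rw [this]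
  exact (hsy.smul t).add (htz.smul s)

theorem LocInt.mul (hh : Prime h) {y z : E} (hy : LocInt h y) (hz : LocInt h z) :
    LocInt h (y * z) := by
  obtain ⟨s, hs, hsy⟩ := hy
  obtain ⟨t, ht, htz⟩ := hz
  refine ⟨s * t, fun hd => (hh.dvd_or_dvd hd).elim hs ht, ?_⟩
  have : (s * t) • (y * z) = (s • y) * (t • z) := by
    rw [smul_mul_smul_comm]
  rw [this]
  exact hsy.mul htz

theorem LocInt.neg {y : E} (hy : LocInt h y) : LocInt h (-y) := by
  obtain ⟨s, hs, hsy⟩ := hy
  exact ⟨s, hs, by rw [smul_neg]; exact hsy.neg⟩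

theorem LocInt.sub (hh : Prime h) {y z : E} (hy : LocInt h y) (hz : LocInt h z) :
    LocInt h (y - z) := by
  rw [sub_eq_add_neg]
  exact hy.add hh hz.neg

theorem LocInt.pow (hh : Prime h) {y : E} (hy : LocInt h y) (n : ℕ) : LocInt h (y ^ n) := by
  induction n with
  | zero => rw [pow_zero]; exact LocInt.one hh
  | succ n ih => rw [pow_succ]; exact ih.mul hh hy

theorem LocInt.sum (hh : Prime h) {ι : Type*} (s : Finset ι) (f : ι → E)
    (hf : ∀ i ∈ s, LocInt h (f i)) : LocInt h (∑ i ∈ s, f i) := by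
  classical
  induction s using Finset.induction_on with
  | empty => rw [Finset.sum_empty]; exact LocInt.zero hh
  | insert a s ha ih =>
    rw [Finset.sum_insert ha]
    exact (hf a (Finset.mem_insert_self a s)).add hh
      (ih fun i hi => hf i (Finset.mem_insert_of_mem hi))

theorem LocInt.smul (hh : Prime h) (a : R) {y : E} (hy : LocInt h y) : LocInt h (a • y) := by
  rw [Algebra.smul_def]
  exact (LocInt.algebraMap_base hh a).mul hh hy

/-- an element with a locally integral power is locally integral -/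
theorem LocInt.of_pow {y : E} {n : ℕ} (hn : 0 < n) (hy : LocInt h (y ^ n)) : LocInt h y := by
  obtain ⟨s, hs, hsy⟩ := hy
  refine ⟨s, hs, IsIntegral.of_pow hn ?_⟩
  have : (s • y) ^ n = s ^ (n - 1) • (s • y ^ n) := by
    rw [_root_.smul_pow, smul_smul, ← pow_succ, Nat.sub_add_cancel hn]
  rw [this]
  exact hsy.smul _

theorem LocDvd.locInt {y : E} (hy : LocDvd h y) : LocInt h y := by
  obtain ⟨s, c, hs, hc, hsy⟩ := hy
  exact ⟨s, hs, by rw [hsy]; exact hc.smul h⟩

theorem LocDvd.zero (hh : Prime h) : LocDvd h (0 : E) :=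
  ⟨1, 0, hh.not_dvd_one, isIntegral_zero, by simp⟩

theorem LocDvd.add (hh : Prime h) {y z : E} (hy : LocDvd h y) (hz : LocDvd h z) :
    LocDvd h (y + z) := by
  obtain ⟨s, c, hs, hc, hsy⟩ := hy
  obtain ⟨t, d, ht, hd, htz⟩ := hz
  refine ⟨s * t, t • c + s • d, fun hd => (hh.dvd_or_dvd hd).elim hs ht,
    (hc.smul t).add (hd.smul s), ?_⟩
  rw [smul_add, mul_smul, smul_comm s t y, hsy, mul_smul, htz, smul_add, smul_comm t h c,
    smul_comm s h d]

theorem LocDvd.neg {y : E} (hy : LocDvd h y) : LocDvd h (-y) := by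
  obtain ⟨s, c, hs, hc, hsy⟩ := hy
  exact ⟨s, -c, hs, hc.neg, by rw [smul_neg, smul_neg, hsy]⟩

theorem LocDvd.sub (hh : Prime h) {y z : E} (hy : LocDvd h y) (hz : LocDvd h z) :
    LocDvd h (y - z) := by
  rw [sub_eq_add_neg]
  exact hy.add hh hz.neg

theorem LocDvd.mul_locInt (hh : Prime h) {y z : E} (hy : LocDvd h y) (hz : LocInt h z) :
    LocDvd h (y * z) := by
  obtain ⟨s, c, hs, hc, hsy⟩ := hy
  obtain ⟨t, ht, htz⟩ := hz
  refine ⟨s * t, c * (t • z), fun hd => (hh.dvd_or_dvd hd).elim hs ht, hc.mul htz, ?_⟩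
  rw [← smul_mul_smul_comm, hsy, smul_mul_assoc]

theorem LocDvd.locInt_mul (hh : Prime h) {y z : E} (hy : LocInt h y) (hz : LocDvd h z) :
    LocDvd h (y * z) := by
  rw [mul_comm]
  exact hz.mul_locInt hh hy

/-- `h • y` is divisible by `h` when `y` is locally integral -/
theorem LocDvd.smul_self {y : E} (hy : LocInt h y) : LocDvd h (h • y) := by
  obtain ⟨s, hs, hsy⟩ := hy
  exact ⟨s, s • y, hs, hsy, smul_comm s h y⟩

end Loc

section Maps

variable {R : Type*} [CommRing R]
variable {E₀ : Type*} [Field E₀] [Algebra R E₀]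
variable {E : Type*} [Field E] [Algebra R E] [Algebra E₀ E] [IsScalarTower R E₀ E]
variable {h : R}

theorem LocInt.map {y : E₀} (hy : LocInt h y) : LocInt h (algebraMap E₀ E y) := by
  obtain ⟨s, hs, hsy⟩ := hy
  refine ⟨s, hs, ?_⟩
  have : s • algebraMap E₀ E y = algebraMap E₀ E (s • y) := by
    rw [Algebra.smul_def, Algebra.smul_def, map_mul, ← IsScalarTower.algebraMap_apply]
  rw [this]
  exact hsy.algebraMap

theorem LocDvd.map {y : E₀} (hy : LocDvd h y) : LocDvd h (algebraMap E₀ E y) := by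
  obtain ⟨s, c, hs, hc, hsy⟩ := hy
  refine ⟨s, algebraMap E₀ E c, hs, hc.algebraMap, ?_⟩
  have h1 : ∀ (a : R) (z : E₀), a • algebraMap E₀ E z = algebraMap E₀ E (a • z) := by
    intro a z
    rw [Algebra.smul_def, Algebra.smul_def, map_mul, ← IsScalarTower.algebraMap_apply]
  rw [h1, h1, hsy]

variable [FiniteDimensional E₀ E]

theorem trace_smul_base (a : R) (y : E) :
    Algebra.trace E₀ E (a • y) = a • Algebra.trace E₀ E y := by
  rw [← algebraMap_smul E₀ a y, map_smul, algebraMap_smul]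

theorem LocInt.trace {y : E} (hy : LocInt h y) : LocInt h (Algebra.trace E₀ E y) := by
  obtain ⟨s, hs, hsy⟩ := hy
  refine ⟨s, hs, ?_⟩
  rw [← trace_smul_base]
  exact Algebra.isIntegral_trace hsy

theorem LocDvd.trace {y : E} (hy : LocDvd h y) : LocDvd h (Algebra.trace E₀ E y) := by
  obtain ⟨s, c, hs, hc, hsy⟩ := hy
  refine ⟨s, Algebra.trace E₀ E c, hs, Algebra.isIntegral_trace hc, ?_⟩
  rw [← trace_smul_base, ← trace_smul_base, hsy]

end Maps

section NotOne

variable {R : Type*} [CommRing R] [IsDomain R] [IsIntegrallyClosed R]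
variable (K : Type*) [Field K] [Algebra R K] [IsFractionRing R K]
variable {E₀ : Type*} [Field E₀] [Algebra K E₀] [Algebra R E₀] [IsScalarTower R K E₀]

include K in
/-- `1` is not divisible by `h` in the localisation of the integral closure -/
theorem not_locDvd_one {h : R} (hh : Prime h) : ¬ LocDvd h (1 : E₀) := by
  rintro ⟨s, c, hs, hc, hsc⟩
  have hhK : algebraMap R K h ≠ 0 :=
    (map_ne_zero_iff _ (IsFractionRing.injective R K)).mpr hh.ne_zero
  have h1 : c = algebraMap K E₀ (algebraMap R K s / algebraMap R K h) := by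
    have h2 : algebraMap K E₀ (algebraMap R K h) * c = algebraMap K E₀ (algebraMap R K s) := by
      rw [← IsScalarTower.algebraMap_apply, ← IsScalarTower.algebraMap_apply,
        ← Algebra.smul_def, ← hsc, Algebra.smul_def, mul_one]
    have h3 : algebraMap K E₀ (algebraMap R K h) ≠ 0 :=
      (map_ne_zero_iff _ (algebraMap K E₀).injective).mpr hhK
    rw [map_div₀, eq_div_iff h3, mul_comm, h2]
  rw [h1] at hc
  have h4 : IsIntegral R (algebraMap R K s / algebraMap R K h) :=
    (isIntegral_algebraMap_iff (algebraMap K E₀).injective).mp hc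
  obtain ⟨a, ha⟩ := IsIntegrallyClosed.isIntegral_iff.mp h4
  apply hs
  refine ⟨a, ?_⟩
  apply IsFractionRing.injective R K
  rw [map_mul, ha, mul_div_cancel₀ _ hhK]

end NotOne

section KummerTrace

variable {E₀ E : Type*} [Field E₀] [Field E] [Algebra E₀ E] [FiniteDimensional E₀ E]
variable {r : ℕ} {u : E₀} {w : E}

theorem kummer_u_ne_zero (hr : r.Prime) (hirr : ∀ v : E₀, v ^ r ≠ u) : u ≠ 0 := by
  intro h0
  exact hirr 0 (by rw [zero_pow hr.ne_zero, h0])

/-- if `u` is not an `r`-th power then neither is `u ^ m` for `r ∤ m` -/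
theorem kummer_pow_not_pow (hr : r.Prime) (hirr : ∀ v : E₀, v ^ r ≠ u) {m : ℕ}
    (hm : ¬ r ∣ m) : ∀ v : E₀, v ^ r ≠ u ^ m := by
  intro v hv
  have hu0 := kummer_u_ne_zero hr hirr
  have hcop : Nat.Coprime m r := ((Nat.Prime.coprime_iff_not_dvd hr).mpr hm).symm
  obtain ⟨a, ha⟩ := Nat.exists_mul_mod_eq_one_of_coprime hcop hr.one_lt
  -- `m * a = r * q + 1`
  have h1 : m * a = r * (m * a / r) + 1 := by
    have := Nat.div_add_mod (m * a) r
    omega
  set q := m * a / r
  apply hirr (v ^ a / u ^ q)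
  have h2 : u ^ (m * a) = u ^ (r * q) * u := by rw [h1, pow_succ]
  rw [div_pow, div_eq_iff (pow_ne_zero _ (pow_ne_zero _ hu0)), ← pow_mul, ← pow_mul,
    mul_comm a r, pow_mul, hv, ← pow_mul, h2, mul_comm q r, mul_comm]

theorem kummer_minpoly_pow (hr : r.Prime) (hw : w ^ r = algebraMap E₀ E u)
    (hirr : ∀ v : E₀, v ^ r ≠ u) {m : ℕ} (hm : ¬ r ∣ m) :
    minpoly E₀ (w ^ m) = X ^ r - C (u ^ m) := by
  symm
  refine minpoly.eq_of_irreducible_of_monic
    (X_pow_sub_C_irreducible_of_prime hr (kummer_pow_not_pow hr hirr hm)) ?_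
    (monic_X_pow_sub_C _ hr.ne_zero)
  rw [map_sub, map_pow, aeval_X, aeval_C, ← pow_mul, mul_comm, pow_mul, hw, map_pow, sub_self]

/-- **Kummer traces**: `Tr (w ^ m) = 0` unless `r ∣ m`. -/
theorem kummer_trace_pow_eq_zero (hr : r.Prime) (hw : w ^ r = algebraMap E₀ E u)
    (hirr : ∀ v : E₀, v ^ r ≠ u) {m : ℕ} (hm : ¬ r ∣ m) :
    Algebra.trace E₀ E (w ^ m) = 0 := by
  rw [trace_eq_finrank_mul_minpoly_nextCoeff, kummer_minpoly_pow hr hw hirr hm]
  have h1 : (X ^ r - C (u ^ m) : E₀[X]).nextCoeff = 0 := by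
    have hdeg : (X ^ r - C (u ^ m) : E₀[X]).natDegree = r := natDegree_X_pow_sub_C
    rw [nextCoeff_of_natDegree_pos (by rw [hdeg]; exact hr.pos), hdeg, coeff_sub, coeff_X_pow,
      coeff_C]
    have h2 : r - 1 ≠ r := by have := hr.two_le; omega
    have h3 : r - 1 ≠ 0 := by have := hr.two_le; omega
    rw [if_neg h2, if_neg h3, sub_zero]
  rw [h1, neg_zero, mul_zero]

theorem kummer_trace_mul_pow_eq_zero (hr : r.Prime) (hw : w ^ r = algebraMap E₀ E u)
    (hirr : ∀ v : E₀, v ^ r ≠ u) {m : ℕ} (hm : ¬ r ∣ m) (c : E₀) :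
    Algebra.trace E₀ E (algebraMap E₀ E c * w ^ m) = 0 := by
  rw [← Algebra.smul_def, map_smul, kummer_trace_pow_eq_zero hr hw hirr hm, smul_zero]

theorem kummer_trace_algebraMap (hdeg : Module.finrank E₀ E = r) (c : E₀) :
    Algebra.trace E₀ E (algebraMap E₀ E c) = (r : E₀) * c := by
  rw [Algebra.trace_algebraMap, hdeg, nsmul_eq_mul]

/-- `Tr (c * w ^ m)` for all `m`: it is `r * c * u ^ (m / r)` if `r ∣ m` and `0` otherwise. -/
theorem kummer_trace_mul_pow (hr : r.Prime) (hw : w ^ r = algebraMap E₀ E u)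
    (hdeg : Module.finrank E₀ E = r) (hirr : ∀ v : E₀, v ^ r ≠ u) (m : ℕ) (c : E₀) :
    Algebra.trace E₀ E (algebraMap E₀ E c * w ^ m) =
      if r ∣ m then (r : E₀) * (c * u ^ (m / r)) else 0 := by
  split_ifs with hm
  · obtain ⟨q, rfl⟩ := hm
    rw [Nat.mul_div_cancel_left _ hr.pos, pow_mul, hw, ← map_pow, ← map_mul,
      kummer_trace_algebraMap hdeg]
  · exact kummer_trace_mul_pow_eq_zero hr hw hirr hm c

end KummerTrace

end Fermat.Agent.H3.KLKum
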