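import Fermat.Agent.H3.KLAbhEis

/-!
# P-ES / KL tame step (helper3): Abhyankar's lemma in valuation-subring form

Setting of `Fermat.Agent.H22.ES.KLSetting` (v2).  `E₁ = E(s)`, `s ^ e = x - c`.

* `branch_discAt` : three abstract fields `E ⊆ E' ⊆ E₁`, `E' = E(σ)`, `σ ^ n = u = ε t ^ n`
  (`ε` a unit, `t` a uniformiser at the place below), `E₁ = E'(s)`, `s ^ m = σ`:
  the place of `E₁` is discrete with uniformiser `s`.
* `unramifiedNear_of_tameNear` : **Abhyankar**: `TameNear A E ϖ x c e` implies
  `UnramifiedNear A E₁ ϖ s X`.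
-/

set_option autoImplicit false
set_option maxSynthPendingDepth 3

noncomputable section

namespace Fermat.Agent.H3.KLAbh

open Fermat.Agent.H22.KL Fermat.Agent.H88.KLB Polynomial

section Branch

variable {A : Type} [CommRing A]
variable {E E' E1 : Type} [Field E] [Field E'] [Field E1]
  [Algebra A E] [Algebra E E'] [Algebra E' E1] [Algebra E E1] [IsScalarTower E E' E1]

theorem comap_comap_algebraMap (v1 : ValuationSubring E1) :
    (v1.comap (algebraMap E' E1)).comap (algebraMap E E') = v1.comap (algebraMap E E1) := by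
  rw [ValuationSubring.comap_comap, ← IsScalarTower.algebraMap_eq]

theorem discAt_of_val_eq {F : Type} [Field F] {Γ : Type*} [LinearOrderedCommGroupWithZero Γ]
    {val : Valuation F Γ} {t t' : F} (h : DiscAt val t) (ht' : val t' = val t) :
    DiscAt val t' := by
  refine ⟨?_, ht' ▸ h.2.1, fun z hz => ?_⟩
  · intro h0
    rw [h0, map_zero] at ht'
    exact h.pos.ne ht'
  · rw [ht']
    exact h.2.2 z hz

/-- transfer of discreteness between two valuations presenting the same valuation subring -/
theorem discAt_of_presents {F : Type} [Field F] {Γ Γ' : Type*}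
    [LinearOrderedCommGroupWithZero Γ] [LinearOrderedCommGroupWithZero Γ']
    {v : ValuationSubring F} {val : Valuation F Γ} {val' : Valuation F Γ'}
    (hv : Presents v val) (hv' : Presents v val') {t : F} (h : DiscAt val t) :
    DiscAt val' t := by
  obtain ⟨π, hπ⟩ := exists_discAt hv' (h.ne_top hv) (h.isPrincipalIdealRing hv)
  exact hπ.of_isUniformiser hv' (h.isUniformiser hv)

/-- **branch case**, abstract form -/
theorem branch_discAt [CharZero E] [Algebra.IsAlgebraic E E'] (v1 : ValuationSubring E1)
    (hv : IsPlace A E (v1.comap (algebraMap E E1)))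
    {t : E} (ht : IsUniformiser E (v1.comap (algebraMap E E1)) t)
    {u : E} (hu0 : u ≠ 0) {n m : ℕ} (hn : n ≠ 0) (hm : 0 < m)
    (hu1 : u / t ^ n ∈ v1.comap (algebraMap E E1))
    (hu2 : t ^ n / u ∈ v1.comap (algebraMap E E1))
    {σ : E'} (hσ : σ ^ n = algebraMap E E' u) (hσgen : Algebra.adjoin E ({σ} : Set E') = ⊤)
    {s : E1} (hs : s ^ m = algebraMap E' E1 σ)
    (hsgen : Algebra.adjoin E' ({s} : Set E1) = ⊤) :
    DiscAt v1.valuation s := by
  set v' : ValuationSubring E' := v1.comap (algebraMap E' E1) with hv'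
  have hcc : v'.comap (algebraMap E E') = v1.comap (algebraMap E E1) :=
    comap_comap_algebraMap v1
  rw [← hcc] at hv ht hu1 hu2
  have ht0 : t ≠ 0 := ht.1
  -- natural numbers are units
  have hrv : v'.valuation ((n : ℕ) : E') = 1 := by
    have hnE : ((n : ℕ) : E) ≠ 0 := Nat.cast_ne_zero.mpr hn
    have hnA : ((n : ℕ) : A) ≠ 0 := by
      intro h0
      apply hnE
      have := congrArg (algebraMap A E) h0
      rwa [map_natCast, map_zero] at this
    obtain ⟨h1, h2⟩ := hv.2.2 _ hnA
    rw [map_natCast] at h1 h2
    rw [ValuationSubring.mem_comap] at h1 h2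
    rw [map_inv₀, map_natCast] at h2
    rw [map_natCast] at h1
    have hnE' : ((n : ℕ) : E') ≠ 0 := by
      intro h0
      have : algebraMap E E' ((n : ℕ) : E) = 0 := by rw [map_natCast, h0]
      exact hnE ((_root_.map_eq_zero _).mp this)
    exact ((presents_valuation v').val_eq_one_iff hnE').mpr ⟨h1, h2⟩
  have hord : OrdDvd E (v'.comap (algebraMap E E')) n u := by
    refine ⟨t⁻¹, inv_ne_zero ht0, ?_, ?_⟩
    · rw [inv_pow, ← div_eq_mul_inv]
      exact hu1
    · rw [inv_pow, ← div_eq_mul_inv, inv_div]
      exact hu2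
  have hd : DiscAt v'.valuation (algebraMap E E' t) :=
    kummer_discAt (A := A) v' hv n hn hrv u hu0 σ hσ hσgen hord ht
  -- `σ` has the same value as `t`
  have hσ0 : σ ≠ 0 := by
    rintro rfl
    rw [zero_pow hn] at hσ
    exact hu0 ((_root_.map_eq_zero _).mp hσ.symm)
  have htE' : algebraMap E E' t ≠ 0 := (_root_.map_ne_zero _).mpr ht0
  have hunit : v'.valuation (algebraMap E E' (u / t ^ n)) = 1 := by
    have h0 : algebraMap E E' (u / t ^ n) ≠ 0 :=
      (_root_.map_ne_zero _).mpr (div_ne_zero hu0 (pow_ne_zero _ ht0))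
    refine ((presents_valuation v').val_eq_one_iff h0).mpr ⟨hu1, ?_⟩
    have : (algebraMap E E' (u / t ^ n))⁻¹ = algebraMap E E' (t ^ n / u) := by
      rw [← map_inv₀, inv_div]
    rw [this]
    exact hu2
  have hval : v'.valuation σ = v'.valuation (algebraMap E E' t) := by
    have h1 : (v'.valuation σ / v'.valuation (algebraMap E E' t)) ^ n = 1 := by
      rw [← map_div₀, ← map_pow, div_pow, hσ, ← map_pow, ← map_div₀]
      exact hunit
    have h2 := val_eq_one_of_pow hn h1
    have h3 : v'.valuation (algebraMap E E' t) ≠ 0 := (Valuation.ne_zero_iff _).mpr htE'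
    rwa [div_eq_one_iff_eq h3] at h2
  have hdσ : DiscAt v'.valuation σ := discAt_of_val_eq hd hval
  have hdσ' : DiscAt (v1.valuation.comap (algebraMap E' E1)) σ :=
    discAt_of_presents (presents_valuation v')
      ((presents_valuation v1).comap (algebraMap E' E1)) hdσ
  exact eisenstein_discAt v1.valuation hdσ' hm hs hsgen

end Branch



section Main

variable {A : Type} [CommRing A]
variable {E E1 : Type} [Field E] [Field E1] [Algebra A E] [Algebra A E1] [Algebra E E1]
  [IsScalarTower A E E1]

theorem algebraMap_x_eq (x : E) (c : A) {e : ℕ} {s : E1}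
    (hs : s ^ e = algebraMap E E1 (x - algebraMap A E c)) :
    algebraMap E E1 x = s ^ e + algebraMap A E1 c := by
  rw [hs, map_sub, ← IsScalarTower.algebraMap_apply]
  ring

/-- the centre condition restricts along `x = s ^ e + c` -/
theorem inDisc_restrict (ϖ : A) (x : E) (c : A) {e : ℕ} (he : 0 < e) {s : E1}
    (hs : s ^ e = algebraMap E E1 (x - algebraMap A E c)) (v1 : ValuationSubring E1)
    (h : InDisc A E1 ϖ s X v1) :
    InDisc A E ϖ x (X - C c) (v1.comap (algebraMap E E1)) := by
  intro p hp
  rw [mem_nonunits_comap] at hp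
  have h1 : aeval s (p.comp (X ^ e + C c)) = algebraMap E E1 (aeval x p) := by
    rw [aeval_comp, map_add, map_pow, aeval_X, aeval_C, ← algebraMap_x_eq x c hs,
      aeval_algebraMap_apply]
  obtain ⟨p1, q1, hpq⟩ := h (p.comp (X ^ e + C c)) (h1 ▸ hp)
  have h2 : p.eval c = ϖ * p1.eval 0 := by
    have := congrArg (eval 0) hpq
    rw [eval_comp, eval_add, eval_pow, eval_X, eval_C, zero_pow he.ne', zero_add, eval_add,
      eval_mul, eval_C, eval_mul, eval_X, zero_mul, add_zero] at this
    exact this
  refine ⟨C (p1.eval 0), p /ₘ (X - C c), ?_⟩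
  have h3 := modByMonic_add_div p (X - C c)
  rw [modByMonic_X_sub_C_eq_C_eval, h2, C_mul] at h3
  exact h3.symm

/-- `K₀(x) ⊆ K₀(s)` -/
theorem chartField_le (x : E) (c : A) {e : ℕ} {s : E1}
    (hs : s ^ e = algebraMap E E1 (x - algebraMap A E c)) :
    chartField A E1 (algebraMap E E1 x) ≤ chartField A E1 s := by
  unfold chartField
  apply Subfield.closure_mono
  have h1 : chartRing A E1 (algebraMap E E1 x) ≤ chartRing A E1 s := by
    unfold chartRing
    apply Algebra.adjoin_le
    rintro y rfl
    rw [algebraMap_x_eq x c hs]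
    exact Subalgebra.add_mem _ (Subalgebra.pow_mem _ (Algebra.self_mem_adjoin_singleton A s) e)
      (Subalgebra.algebraMap_mem _ c)
  exact h1

/-- **Abhyankar's lemma**, valuation-subring form: after adjoining `s` with `s ^ e = x - c`,
every place in the residue disc of `(ϖ, s)` is unramified over `K₀(s)`. -/
theorem unramifiedNear_of_tameNear [CharZero E] [Algebra.IsAlgebraic E E1]
    (ϖ : A) (x : E) (c : A) (hxc : x - algebraMap A E c ≠ 0)
    {e : ℕ} (he : 0 < e) {s : E1} (hs : s ^ e = algebraMap E E1 (x - algebraMap A E c))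
    (hgen : Algebra.adjoin E ({s} : Set E1) = ⊤)
    (hT : TameNear A E ϖ x c e) : UnramifiedNear A E1 ϖ s (X : A[X]) := by
  intro v1 hv1 hdisc
  have hcv : algebraMap A E c ∈ v1.comap (algebraMap E E1) := by
    by_cases hc : c = 0
    · rw [hc, map_zero]
      exact ValuationSubring.zero_mem _
    · rw [ValuationSubring.mem_comap, ← IsScalarTower.algebraMap_apply]
      exact (hv1.1.2.2 c hc).1
  have hxv : x ∈ v1.comap (algebraMap E E1) := by
    have h1 : algebraMap E E1 (x - algebraMap A E c) ∈ v1 := by
      rw [← hs]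
      exact pow_mem hv1.2 e
    have h2 : x = (x - algebraMap A E c) + algebraMap A E c := by ring
    rw [h2]
    exact ValuationSubring.add_mem _ _ _ (ValuationSubring.mem_comap.mpr h1) hcv
  have hv : IsFinitePlace A E x (v1.comap (algebraMap E E1)) :=
    ⟨isPlace_comap hv1.1, hxv⟩
  have hd := inDisc_restrict ϖ x c he hs v1 hdisc
  obtain ⟨h1, h2⟩ := hT _ hv hd
  by_cases hxcv : x - algebraMap A E c ∈ (v1.comap (algebraMap E E1)).nonunits
  · -- branch case: `s` is a uniformiser
    obtain ⟨t, ht, n, hn, hu1, hu2⟩ := h2 hxcv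
    have hn0 : n ≠ 0 := by
      rintro rfl
      rw [zero_dvd_iff] at hn
      omega
    obtain ⟨m, hm⟩ := hn
    have hm0 : 0 < m := by
      rcases Nat.eq_zero_or_pos m with h | h
      · subst h
        omega
      · exact h
    set σ : E1 := s ^ m with hσ
    have hσn : σ ^ n = algebraMap E E1 (x - algebraMap A E c) := by
      rw [hσ, ← pow_mul, mul_comm, ← hm, hs]
    have hσint : IsIntegral E σ := (Algebra.IsAlgebraic.isAlgebraic σ).isIntegral
    haveI : Algebra.IsAlgebraic E (IntermediateField.adjoin E ({σ} : Set E1)) :=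
      IntermediateField.isAlgebraic_adjoin_simple hσint
    have hσ'n : (IntermediateField.AdjoinSimple.gen E σ) ^ n =
        algebraMap E (IntermediateField.adjoin E ({σ} : Set E1))
          (x - algebraMap A E c) := by
      apply (algebraMap (IntermediateField.adjoin E ({σ} : Set E1)) E1).injective
      rw [map_pow, IntermediateField.AdjoinSimple.algebraMap_gen, hσn,
        ← IsScalarTower.algebraMap_apply]
    have hσ'gen : Algebra.adjoin E
        ({IntermediateField.AdjoinSimple.gen E σ} :
          Set (IntermediateField.adjoin E ({σ} : Set E1))) = ⊤ :=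
      (IntermediateField.adjoin.powerBasis hσint).adjoin_gen_eq_top
    have hs' : s ^ m = algebraMap (IntermediateField.adjoin E ({σ} : Set E1)) E1
        (IntermediateField.AdjoinSimple.gen E σ) := by
      rw [IntermediateField.AdjoinSimple.algebraMap_gen]
    have hsgen' : Algebra.adjoin (IntermediateField.adjoin E ({σ} : Set E1))
        ({s} : Set E1) = ⊤ := by
      rw [eq_top_iff]
      intro z _
      have hz : z ∈ Algebra.adjoin E ({s} : Set E1) := by
        rw [hgen]
        trivial
      have hle : Algebra.adjoin E ({s} : Set E1) ≤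
          (Algebra.adjoin (IntermediateField.adjoin E ({σ} : Set E1))
            ({s} : Set E1)).restrictScalars E := by
        apply Algebra.adjoin_le
        rintro y rfl
        exact Algebra.self_mem_adjoin_singleton _ _
      exact hle hz
    have hD : DiscAt v1.valuation s :=
      branch_discAt (A := A) (E' := IntermediateField.adjoin E ({σ} : Set E1)) v1 hv.1 ht hxc
        hn0 hm0 hu1 hu2 hσ'n hσ'gen hs' hsgen'
    exact ⟨s, Subfield.subset_closure (Algebra.self_mem_adjoin_singleton A s),
      hD.isUniformiser (presents_valuation v1)⟩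
  · -- unramified case: a uniformiser from `K₀(x)` stays a uniformiser
    obtain ⟨t, htK, htu⟩ := h1 hxcv
    have hp := (presents_valuation v1).comap (algebraMap E E1)
    have hu_mem : x - algebraMap A E c ∈ v1.comap (algebraMap E E1) := by
      rw [sub_eq_add_neg]
      exact ValuationSubring.add_mem _ _ _ hxv (ValuationSubring.neg_mem _ _ hcv)
    have hval : (v1.valuation.comap (algebraMap E E1)) (x - algebraMap A E c) = 1 := by
      apply le_antisymm ((hp _).mp hu_mem)
      rw [← not_lt]
      exact fun hlt => hxcv (hp.mem_nonunits.mpr hlt)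
    have hunit := (hp.val_eq_one_iff hxc).mp hval
    have hord : OrdDvd E (v1.comap (algebraMap E E1)) e (x - algebraMap A E c) := by
      refine ⟨1, one_ne_zero, ?_, ?_⟩
      · rw [one_pow, mul_one]
        exact hunit.1
      · rw [one_pow, mul_one]
        exact hunit.2
    have hrv : v1.valuation ((e : ℕ) : E1) = 1 :=
      val_natCast_eq_one (E₀ := E) hv1.1.2.2 e he.ne'
    have hD : DiscAt v1.valuation (algebraMap E E1 t) :=
      kummer_discAt (A := A) v1 hv.1 e he.ne' hrv _ hxc s hs hgen hord htu
    exact ⟨algebraMap E E1 t, chartField_le x c hs (map_mem_chartField x htK),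
      hD.isUniformiser (presents_valuation v1)⟩

end Main

end Fermat.Agent.H3.KLAbh
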