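import Fermat.Agent.H3.KLKumBasic

/-!
# P-ES / KL-KUM (helper3): good basis of a Kummer extension  (K1)

`R` integrally closed domain, `K = Frac R`, `E₀/K` finite with a good basis at the prime
element `h` (`Fermat.Agent.H91.HasGoodBasisAt R K E₀ (span {h})`), `E = E₀(w)`, `w ^ r = u`,
`[E : E₀] = r` prime, `r ∉ (h)`, `u` a unit of the localisation at `h` of the integral closure.
Then `E` has a good basis at `h`: `b_i w₁^j` with `w₁ = s w` integral.

Proof: the scaled dual family `δ_(k,l) = (det G₀ • z_k) w₁^(r-l)` lies in the `R`-span of the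
basis and `Tr (β_a δ_c) = s_c [a = c]` with `s_c ∉ (h)`; hence `G Mᵀ = diag s` and
`det G ∉ (h)`.
-/

set_option autoImplicit false
set_option linter.style.haveILetI false
set_option linter.unusedSectionVars false

noncomputable section

open Polynomial Matrix

namespace Fermat.Agent.H3.KLKum

section Abstract

variable {R : Type*} [CommRing R] [IsDomain R] [IsIntegrallyClosed R]
variable {K : Type*} [Field K] [Algebra R K] [IsFractionRing R K]
variable {E : Type*} [Field E] [Algebra K E] [Algebra R E] [IsScalarTower R K E]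
  [FiniteDimensional K E]

/-- a good basis may be indexed by any finite type of the right cardinality -/
theorem hasGoodBasisAt_of_family {ι : Type*} [Fintype ι] [DecidableEq ι] (I : Ideal R)
    (hcard : Fintype.card ι = Module.finrank K E) (β : ι → E) (hint : ∀ a, IsIntegral R (β a))
    (G : Matrix ι ι R) (hG : ∀ a c, algebraMap R K (G a c) = Algebra.trace K E (β a * β c))
    (hd : G.det ∉ I) : Fermat.Agent.H91.HasGoodBasisAt R K E I := by
  refine ⟨Fintype.card ι, β ∘ (Fintype.equivFin ι).symm,
    G.submatrix (Fintype.equivFin ι).symm (Fintype.equivFin ι).symm, hcard.symm,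
    fun i => hint _, fun i j => hG _ _, ?_⟩
  rwa [Matrix.det_submatrix_equiv_self]

theorem trace_mul_smul_sum {ι : Type*} [Fintype ι] (β : ι → E) (G : Matrix ι ι R)
    (hG : ∀ a c, algebraMap R K (G a c) = Algebra.trace K E (β a * β c)) (m : ι → R) (a : ι) :
    Algebra.trace K E (β a * ∑ d, m d • β d) = algebraMap R K (∑ d, G a d * m d) := by
  rw [Finset.mul_sum, map_sum, map_sum]
  refine Finset.sum_congr rfl fun d _ => ?_
  rw [mul_smul_comm, ← algebraMap_smul K (m d), map_smul, smul_eq_mul, ← hG, ← map_mul, mul_comm]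

/-- **unit discriminant from a scaled dual family in the lattice** -/
theorem not_dvd_det_of_dual {ι : Type*} [Fintype ι] [DecidableEq ι] {h : R} (hh : Prime h)
    (β : ι → E) (G : Matrix ι ι R)
    (hG : ∀ a c, algebraMap R K (G a c) = Algebra.trace K E (β a * β c))
    (δ : ι → E) (s : ι → R) (hs : ∀ c, ¬ h ∣ s c)
    (hδ : ∀ c, δ c ∈ Submodule.span R (Set.range β))
    (hdual : ∀ a c, Algebra.trace K E (β a * δ c) = if a = c then algebraMap R K (s c) else 0) :
    ¬ h ∣ G.det := by
  choose M hM using fun c => (Submodule.mem_span_range_iff_exists_fun R).mp (hδ c)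
  have key : G * (Matrix.of M)ᵀ = Matrix.diagonal s := by
    ext a c
    apply IsFractionRing.injective R K
    rw [Matrix.mul_apply]
    simp only [Matrix.transpose_apply, Matrix.of_apply]
    rw [← trace_mul_smul_sum β G hG (M c) a, hM c, hdual a c, Matrix.diagonal_apply]
    by_cases hac : a = c
    · rw [if_pos hac, if_pos hac, hac]
    · rw [if_neg hac, if_neg hac, map_zero]
  intro hd
  have h1 : h ∣ ∏ c, s c := by
    rw [← Matrix.det_diagonal, ← key, Matrix.det_mul]
    exact Dvd.dvd.mul_right hd _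
  obtain ⟨c, -, hc⟩ := (Prime.dvd_finsetProd_iff hh _).mp h1
  exact hs c hc

end Abstract

section Main

variable {R : Type*} [CommRing R] [IsDomain R] [IsIntegrallyClosed R]
variable {K : Type*} [Field K] [Algebra R K] [IsFractionRing R K]
variable {E₀ : Type*} [Field E₀] [Algebra K E₀] [Algebra R E₀] [IsScalarTower R K E₀]
  [FiniteDimensional K E₀]
variable {E : Type*} [Field E] [Algebra K E] [Algebra R E] [IsScalarTower R K E]
  [FiniteDimensional K E]
  [Algebra E₀ E] [IsScalarTower K E₀ E] [IsScalarTower R E₀ E]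

theorem algebraMap_smul_base (a : R) (z : E₀) :
    algebraMap E₀ E (a • z) = a • algebraMap E₀ E z := by
  rw [Algebra.smul_def, Algebra.smul_def, map_mul, ← IsScalarTower.algebraMap_apply]

/-- trace in the tower for Kummer monomials -/
theorem kummer_tower_trace {r : ℕ} (hr : r.Prime) {u : E₀} {w : E}
    (hw : w ^ r = algebraMap E₀ E u) (hdeg : Module.finrank E₀ E = r)
    (hirr : ∀ v : E₀, v ^ r ≠ u) (y : E₀) (m : ℕ) :
    Algebra.trace K E (algebraMap E₀ E y * w ^ m) =
      if r ∣ m then Algebra.trace K E₀ ((r : E₀) * (y * u ^ (m / r))) else 0 := by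
  haveI : FiniteDimensional E₀ E := FiniteDimensional.right K E₀ E
  rw [← Algebra.trace_trace (S := E₀), kummer_trace_mul_pow hr hw hdeg hirr]
  split_ifs
  · rfl
  · rw [map_zero]

theorem dvd_add_sub_iff {r j l : ℕ} (hj : j < r) (hl : l < r) :
    r ∣ j + (r - l) ↔ j = l := by
  constructor
  · rintro ⟨q, hq⟩
    rcases Nat.lt_or_ge q 2 with hq2 | hq2
    · interval_cases q
      · omega
      · omega
    · have := Nat.mul_le_mul_left r hq2
      omega
  · rintro rfl
    exact ⟨1, by omega⟩

/-- **(K1) Good basis of a Kummer extension.** -/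
theorem kummer_hasGoodBasisAt {h : R} (hh : Prime h) {r : ℕ} (hr : r.Prime)
    (hrh : ¬ h ∣ (r : R)) {u : E₀} {w : E} (hw : w ^ r = algebraMap E₀ E u)
    (hdeg : Module.finrank E₀ E = r) (hirr : ∀ v : E₀, v ^ r ≠ u)
    (hu : LocInt h u) (hu' : LocInt h u⁻¹)
    (hgb : Fermat.Agent.H91.HasGoodBasisAt R K E₀ (Ideal.span {h})) :
    Fermat.Agent.H91.HasGoodBasisAt R K E (Ideal.span {h}) := by
  classical
  haveI : FiniteDimensional E₀ E := FiniteDimensional.right K E₀ E
  obtain ⟨n, b, G0, hn, hint, hG0, hd0⟩ := hgb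
  obtain ⟨s, hs, hsu⟩ := hu
  obtain ⟨t, ht, htu⟩ := hu'
  have hdet : ¬ h ∣ G0.det := fun hd => hd0 (Ideal.mem_span_singleton.mpr hd)
  have hdet0 : G0.det ≠ 0 := fun h0 => hdet (h0 ▸ dvd_zero h)
  have hu0 : u ≠ 0 := kummer_u_ne_zero hr hirr
  have hs0 : s ≠ 0 := fun h0 => hs (h0 ▸ dvd_zero h)
  have hinj : Function.Injective (algebraMap R E₀) := by
    rw [IsScalarTower.algebraMap_eq R K E₀]
    exact (algebraMap K E₀).injective.comp (IsFractionRing.injective R K)
  have hsE₀ : algebraMap R E₀ s ≠ 0 := (map_ne_zero_iff _ hinj).mpr hs0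
  -- rescaled Kummer generator
  set u1 : E₀ := s ^ r • u with hu1
  set w1 : E := s • w with hw1
  have hw1r : w1 ^ r = algebraMap E₀ E u1 := by
    rw [hw1, _root_.smul_pow, hw, hu1, algebraMap_smul_base]
  have hu1int : IsIntegral R u1 := by
    have : u1 = s ^ (r - 1) • (s • u) := by
      rw [hu1, smul_smul, ← pow_succ, Nat.sub_add_cancel hr.pos]
    rw [this]
    exact hsu.smul _
  have hw1int : IsIntegral R w1 :=
    IsIntegral.of_pow hr.pos (by rw [hw1r]; exact hu1int.algebraMap)
  have hirr1 : ∀ v : E₀, v ^ r ≠ u1 := by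
    intro v hv
    apply hirr (v / algebraMap R E₀ s)
    rw [div_pow, hv, hu1, Algebra.smul_def, map_pow,
      mul_div_cancel_left₀ _ (pow_ne_zero r hsE₀)]
  -- the family
  let β : Fin n × Fin r → E := fun a => algebraMap E₀ E (b a.1) * w1 ^ (a.2 : ℕ)
  have hβint : ∀ a, IsIntegral R (β a) :=
    fun a => ((hint a.1).algebraMap).mul (hw1int.pow _)
  choose G hG using fun a c : Fin n × Fin r =>
    Fermat.Agent.H91.exists_trace_eq (R := R) (K := K) ((hβint a).mul (hβint c))
  refine hasGoodBasisAt_of_family _ ?_ β hβint (Matrix.of G) hG ?_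
  · rw [Fintype.card_prod, Fintype.card_fin, Fintype.card_fin,
      ← Module.finrank_mul_finrank K E₀ E, hn, hdeg]
  rw [Ideal.mem_span_singleton]
  -- the scaled dual basis of `b`
  let bo : Fin n → E₀ := fun k => ∑ i, G0.adjugate i k • b i
  have hbo_int : ∀ k, IsIntegral R (bo k) :=
    fun k => IsIntegral.sum _ fun i _ => (hint i).smul _
  have hbo_tr : ∀ i k, Algebra.trace K E₀ (b i * bo k) =
      if i = k then algebraMap R K G0.det else 0 := by
    intro i k
    rw [trace_mul_smul_sum (K := K) b G0 hG0 (fun i' => G0.adjugate i' k) i]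
    have h1 : ∑ d, G0 i d * G0.adjugate d k = (G0 * G0.adjugate) i k :=
      (Matrix.mul_apply ..).symm
    rw [h1, Matrix.mul_adjugate, Matrix.smul_apply, Matrix.one_apply, smul_eq_mul]
    split_ifs
    · rw [mul_one]
    · rw [mul_zero, map_zero]
  let z : Fin n → E₀ := fun k => (t • u⁻¹) * bo k
  have hz_int : ∀ k, IsIntegral R (z k) := fun k => htu.mul (hbo_int k)
  have hzu : ∀ k, z k * u1 = (t * s ^ r) • bo k := by
    intro k
    simp only [z, hu1, Algebra.smul_def, map_mul, map_pow]
    field_simp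
  -- the scaled dual family
  let δ : Fin n × Fin r → E :=
    fun c => algebraMap E₀ E (G0.det • z c.1) * w1 ^ (r - (c.2 : ℕ))
  let S : R := (r : R) * (G0.det * (t * s ^ r)) * G0.det
  have hS : ¬ h ∣ S := by
    intro hd
    rcases hh.dvd_or_dvd hd with h1 | h1
    · rcases hh.dvd_or_dvd h1 with h2 | h2
      · exact hrh h2
      · rcases hh.dvd_or_dvd h2 with h3 | h3
        · exact hdet h3
        · rcases hh.dvd_or_dvd h3 with h4 | h4
          · exact ht h4
          · exact hs (hh.dvd_of_dvd_pow h4)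
    · exact hdet h1
  refine not_dvd_det_of_dual (K := K) hh β (Matrix.of G) hG δ (fun _ => S) (fun _ => hS) ?_ ?_
  · -- membership in the lattice
    rintro ⟨k, l⟩
    by_cases hl : (l : ℕ) = 0
    · have h1 : δ (k, l) = ∑ i, (G0.det * (t * s ^ r) * G0.adjugate i k) •
          β (i, ⟨0, hr.pos⟩) := by
        simp only [δ, β, hl, Nat.sub_zero, pow_zero, mul_one]
        rw [hw1r, ← map_mul, smul_mul_assoc, hzu, smul_smul]
        simp only [bo]
        rw [Finset.smul_sum, map_sum]
        refine Finset.sum_congr rfl fun i _ => ?_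
        rw [smul_smul, algebraMap_smul_base]
      rw [h1]
      exact Submodule.sum_mem _ fun i _ =>
        Submodule.smul_mem _ _ (Submodule.subset_span ⟨_, rfl⟩)
    · obtain ⟨cc, hcc⟩ := Fermat.Agent.H91.exists_det_smul_eq hint hn hG0 hdet0 (hz_int k)
      have hlt : r - (l : ℕ) < r := by have := l.2; omega
      have h1 : δ (k, l) = ∑ i, cc i • β (i, ⟨r - (l : ℕ), hlt⟩) := by
        simp only [δ, β]
        rw [hcc, map_sum, Finset.sum_mul]
        refine Finset.sum_congr rfl fun i _ => ?_
        rw [algebraMap_smul_base, smul_mul_assoc]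
      rw [h1]
      exact Submodule.sum_mem _ fun i _ =>
        Submodule.smul_mem _ _ (Submodule.subset_span ⟨_, rfl⟩)
  · -- duality
    rintro ⟨i, j⟩ ⟨k, l⟩
    have h1 : β (i, j) * δ (k, l) =
        algebraMap E₀ E (b i * (G0.det • z k)) * w1 ^ ((j : ℕ) + (r - (l : ℕ))) := by
      simp only [δ, β]
      rw [map_mul, pow_add]
      ring
    rw [h1, kummer_tower_trace (K := K) hr hw1r hdeg hirr1]
    by_cases hjl : (j : ℕ) = (l : ℕ)
    · rw [if_pos ((dvd_add_sub_iff j.2 l.2).mpr hjl)]
      have h2 : ((j : ℕ) + (r - (l : ℕ))) / r = 1 := by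
        have : (j : ℕ) + (r - (l : ℕ)) = r := by have := l.2; omega
        rw [this, Nat.div_self hr.pos]
      have h3 : (r : E₀) * (b i * (G0.det • z k) * u1 ^ 1) =
          ((r : R) * (G0.det * (t * s ^ r))) • (b i * bo k) := by
        have hzu' := hzu k
        simp only [Algebra.smul_def, map_mul, map_natCast, pow_one] at hzu' ⊢
        linear_combination ((r : E₀) * b i * algebraMap R E₀ G0.det) * hzu'
      rw [h2, h3, trace_smul_base, hbo_tr]
      have hjl' : j = l := Fin.ext hjl
      by_cases hik : i = k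
      · rw [if_pos hik, if_pos (by rw [hik, hjl']), Algebra.smul_def, ← map_mul]
      · rw [if_neg hik, if_neg (fun hh' => hik (congrArg Prod.fst hh')), smul_zero]
    · rw [if_neg (fun hd => hjl ((dvd_add_sub_iff j.2 l.2).mp hd)),
        if_neg (fun hh' => hjl (congrArg (fun p => (p.2 : ℕ)) hh'))]

end Main

end Fermat.Agent.H3.KLKum
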