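import Fermat.Agent.H3.FrobInterfaces

/-!
# FROB-B: degree-one primes of a fixed field and fixed points of Frobenius

For a finite Galois extension `L/ℚ` with group `G`, a subgroup `H` with fixed field `F`, and
almost all prime numbers `ℓ`: if `σ` is an arithmetic Frobenius at a prime `P` of `L` over `ℓ`,
then the number of primes of `F` of norm `ℓ` equals the number of fixed points of `σ` on `G ⧸ H`.
-/

set_option autoImplicit false
set_option linter.unusedSectionVars false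
set_option linter.style.haveILetI false

noncomputable section

namespace Fermat.Agent.H3.Frob

open NumberField IsDedekindDomain Ideal

universe u

variable {L : Type u} [Field L] [NumberField L] [IsGalois ℚ L]

omit [IsGalois ℚ L] in
/-- coercion of the Galois action on the ring of integers -/
lemma coe_galSmul (σ : L ≃ₐ[ℚ] L) (x : 𝓞 L) : ((σ • x : 𝓞 L) : L) = σ (x : L) := rfl

variable (H : Subgroup (L ≃ₐ[ℚ] L))

omit [IsGalois ℚ L] in
/-- the inclusion of the integers of the fixed field into the integers of `L`, on elements -/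
lemma coe_algebraMap_fixed (x : 𝓞 (IntermediateField.fixedField H)) :
    ((algebraMap (𝓞 (IntermediateField.fixedField H)) (𝓞 L) x : 𝓞 L) : L) =
      ((x : IntermediateField.fixedField H) : L) := rfl

/-- elements of `H` fix the integers of the fixed field -/
lemma smul_algebraMap_fixed {c : L ≃ₐ[ℚ] L} (hc : c ∈ H)
    (x : 𝓞 (IntermediateField.fixedField H)) :
    c • (algebraMap (𝓞 (IntermediateField.fixedField H)) (𝓞 L) x) =
      algebraMap (𝓞 (IntermediateField.fixedField H)) (𝓞 L) x := by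
  apply RingOfIntegers.ext
  rw [coe_galSmul, coe_algebraMap_fixed]
  exact (IntermediateField.mem_fixedField_iff H _).mp (x : IntermediateField.fixedField H).2 c hc

/-- There is an integral element of the fixed field of `H` whose stabiliser is exactly `H`. -/
lemma exists_theta : ∃ θ : 𝓞 (IntermediateField.fixedField H), ∀ g : L ≃ₐ[ℚ] L,
    g • (algebraMap (𝓞 (IntermediateField.fixedField H)) (𝓞 L) θ) =
      algebraMap (𝓞 (IntermediateField.fixedField H)) (𝓞 L) θ → g ∈ H := by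
  classical
  obtain ⟨α, hα⟩ := Field.exists_primitive_element ℚ (IntermediateField.fixedField H)
  have halg : IsAlgebraic ℤ α := by
    have : IsAlgebraic ℚ α := Algebra.IsAlgebraic.isAlgebraic α
    exact (IsFractionRing.isAlgebraic_iff ℤ ℚ _).mpr this
  obtain ⟨m, hm, hint⟩ := halg.exists_integral_multiple
  refine ⟨⟨m • α, hint⟩, fun g hg => ?_⟩
  have hg' : g ((m • α : IntermediateField.fixedField H) : L) =
      ((m • α : IntermediateField.fixedField H) : L) := by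
    have := congrArg (fun y : 𝓞 L => (y : L)) hg
    simpa [coe_galSmul, coe_algebraMap_fixed] using this
  have hgα : g (α : L) = (α : L) := by
    have h1 : ((m • α : IntermediateField.fixedField H) : L) = (m : L) * (α : L) := by
      simp [zsmul_eq_mul]
    rw [h1, map_mul, map_intCast] at hg'
    have hm' : (m : L) ≠ 0 := by exact_mod_cast hm
    exact mul_left_cancel₀ hm' hg'
  rw [← IntermediateField.fixingSubgroup_fixedField H]
  rw [IntermediateField.mem_fixingSubgroup_iff]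
  intro x hx
  -- the two algebra maps `F → L` agree on `α`, hence everywhere
  let φ₁ : IntermediateField.fixedField H →ₐ[ℚ] L := (IntermediateField.fixedField H).val
  let φ₂ : IntermediateField.fixedField H →ₐ[ℚ] L :=
    (g : L →ₐ[ℚ] L).comp (IntermediateField.fixedField H).val
  have hadj : Algebra.adjoin ℚ ({α} : Set (IntermediateField.fixedField H)) = ⊤ :=
    IntermediateField.adjoin_eq_top_iff.mp hα
  have heq : φ₂ = φ₁ := by
    refine AlgHom.ext_of_adjoin_eq_top hadj ?_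
    intro y hy
    rw [Set.mem_singleton_iff] at hy
    subst hy
    exact hgα
  exact congrArg (fun φ : IntermediateField.fixedField H →ₐ[ℚ] L => φ ⟨x, hx⟩) heq

/-! ### The reduction homomorphisms `x ↦ h x mod P` -/

/-- The ring homomorphism `𝓞 F → 𝓞 L ⧸ P`, `x ↦ h x mod P`. -/
def redHom (P : Ideal (𝓞 L)) (h : L ≃ₐ[ℚ] L) :
    𝓞 (IntermediateField.fixedField H) →+* 𝓞 L ⧸ P :=
  (Ideal.Quotient.mk P).comp
    ((MulSemiringAction.toRingHom (L ≃ₐ[ℚ] L) (𝓞 L) h).comp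
      (algebraMap (𝓞 (IntermediateField.fixedField H)) (𝓞 L)))

lemma redHom_apply (P : Ideal (𝓞 L)) (h : L ≃ₐ[ℚ] L)
    (x : 𝓞 (IntermediateField.fixedField H)) :
    redHom H P h x =
      Ideal.Quotient.mk P (h • algebraMap (𝓞 (IntermediateField.fixedField H)) (𝓞 L) x) := rfl

lemma redHom_mul_of_mem (P : Ideal (𝓞 L)) (h : L ≃ₐ[ℚ] L) {c : L ≃ₐ[ℚ] L} (hc : c ∈ H) :
    redHom H P (h * c) = redHom H P h := by
  ext x
  rw [redHom_apply, redHom_apply, mul_smul, smul_algebraMap_fixed H hc]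

lemma redHom_eq_of_mem (P : Ideal (𝓞 L)) {a b : L ≃ₐ[ℚ] L} (hab : a⁻¹ * b ∈ H) :
    redHom H P a = redHom H P b := by
  have hb : b = a * (a⁻¹ * b) := by group
  rw [hb, redHom_mul_of_mem H P a hab]

/-- Frobenius equivariance: `Φ(σ h)(x) = Φ(h)(x) ^ ℓ`. -/
lemma redHom_frob (P : Ideal (𝓞 L)) {ℓ : ℕ} {σ : L ≃ₐ[ℚ] L}
    (hσ : ∀ x : 𝓞 L, σ • x - x ^ ℓ ∈ P) (h : L ≃ₐ[ℚ] L)
    (x : 𝓞 (IntermediateField.fixedField H)) :
    redHom H P (σ * h) x = (redHom H P h x) ^ ℓ := by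
  rw [redHom_apply, redHom_apply, mul_smul, ← map_pow]
  exact (Ideal.Quotient.eq).mpr (hσ _)

/-! ### Primes of `L` containing a rational prime and an element -/

omit [IsGalois ℚ L] in
/-- If a prime `P` of `𝓞 L` contains the prime number `ℓ`, then `ℓ` divides its norm. -/
lemma dvd_absNorm_of_mem {P : Ideal (𝓞 L)} (hP : P.IsPrime) {ℓ : ℕ} (hℓ : ℓ.Prime)
    (hℓP : (ℓ : 𝓞 L) ∈ P) : ℓ ∣ absNorm P := by
  have h1 : absNorm P ∣ absNorm (Ideal.span {(ℓ : 𝓞 L)}) :=
    absNorm_dvd_absNorm_of_le ((Ideal.span_singleton_le_iff_mem _).mpr hℓP)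
  have h2 : absNorm (Ideal.span {(ℓ : 𝓞 L)}) = ℓ ^ Module.finrank ℤ (𝓞 L) := by
    rw [absNorm_span_singleton]
    have : ((ℓ : 𝓞 L)) = algebraMap ℤ (𝓞 L) (ℓ : ℤ) := by simp
    rw [this, Algebra.norm_algebraMap]
    simp [Int.natAbs_pow]
  rw [h2] at h1
  obtain ⟨j, -, hj⟩ := (Nat.dvd_prime_pow hℓ).mp h1
  have hj0 : j ≠ 0 := by
    rintro rfl
    rw [pow_zero] at hj
    exact hP.ne_top (absNorm_eq_one_iff.mp hj)
  rw [hj]
  exact dvd_pow_self ℓ hj0

omit [IsGalois ℚ L] in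
/-- If a prime `P` of `𝓞 L` contains the prime number `ℓ` and an element `y`, then `ℓ` divides
the norm of `y`. -/
lemma dvd_natAbs_norm_of_mem {P : Ideal (𝓞 L)} (hP : P.IsPrime) {ℓ : ℕ} (hℓ : ℓ.Prime)
    (hℓP : (ℓ : 𝓞 L) ∈ P) {y : 𝓞 L} (hy : y ∈ P) : ℓ ∣ (Algebra.norm ℤ y).natAbs := by
  have h1 : absNorm P ∣ absNorm (Ideal.span {y}) :=
    absNorm_dvd_absNorm_of_le ((Ideal.span_singleton_le_iff_mem _).mpr hy)
  rw [absNorm_span_singleton] at h1
  exact (dvd_absNorm_of_mem hP hℓ hℓP).trans h1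

/-! ### Bad primes and injectivity of `h ↦ Φ(h)` on cosets -/

open Classical in
/-- The product of the norms of the differences of distinct conjugates of `θ`. -/
def badNat (θ : 𝓞 (IntermediateField.fixedField H)) : ℕ :=
  ∏ p ∈ (Finset.univ : Finset ((L ≃ₐ[ℚ] L) × (L ≃ₐ[ℚ] L))).filter
      (fun p => p.1⁻¹ * p.2 ∉ H),
    (Algebra.norm ℤ (p.1 • algebraMap (𝓞 (IntermediateField.fixedField H)) (𝓞 L) θ -
      p.2 • algebraMap (𝓞 (IntermediateField.fixedField H)) (𝓞 L) θ)).natAbs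

lemma badNat_ne_zero {θ : 𝓞 (IntermediateField.fixedField H)}
    (hθ : ∀ g : L ≃ₐ[ℚ] L,
      g • (algebraMap (𝓞 (IntermediateField.fixedField H)) (𝓞 L) θ) =
        algebraMap (𝓞 (IntermediateField.fixedField H)) (𝓞 L) θ → g ∈ H) :
    badNat H θ ≠ 0 := by
  classical
  unfold badNat
  rw [Finset.prod_ne_zero_iff]
  intro p hp
  rw [Finset.mem_filter] at hp
  intro h0
  rw [Int.natAbs_eq_zero, Algebra.norm_eq_zero_iff, sub_eq_zero] at h0
  apply hp.2
  apply hθ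
  rw [mul_smul, ← h0, inv_smul_smul]

lemma mem_of_redHom_eq {θ : 𝓞 (IntermediateField.fixedField H)}
    {P : Ideal (𝓞 L)} (hP : P.IsPrime) {ℓ : ℕ} (hℓ : ℓ.Prime)
    (hℓP : (ℓ : 𝓞 L) ∈ P) (hbad : ¬ ℓ ∣ badNat H θ) {a b : L ≃ₐ[ℚ] L}
    (hab : redHom H P a = redHom H P b) : a⁻¹ * b ∈ H := by
  classical
  by_contra hne
  apply hbad
  have hmem : a • algebraMap (𝓞 (IntermediateField.fixedField H)) (𝓞 L) θ -
      b • algebraMap (𝓞 (IntermediateField.fixedField H)) (𝓞 L) θ ∈ P := by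
    have := congrArg (fun φ : 𝓞 (IntermediateField.fixedField H) →+* 𝓞 L ⧸ P => φ θ) hab
    simp only [redHom_apply] at this
    exact (Ideal.Quotient.eq).mp this
  have h1 := dvd_natAbs_norm_of_mem hP hℓ hℓP hmem
  refine h1.trans ?_
  unfold badNat
  exact Finset.dvd_prod_of_mem
    (fun p : (L ≃ₐ[ℚ] L) × (L ≃ₐ[ℚ] L) =>
      (Algebra.norm ℤ (p.1 • algebraMap (𝓞 (IntermediateField.fixedField H)) (𝓞 L) θ -
        p.2 • algebraMap (𝓞 (IntermediateField.fixedField H)) (𝓞 L) θ)).natAbs)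
    (Finset.mem_filter.mpr ⟨Finset.mem_univ (a, b), hne⟩)

/-! ### Ideals of prime norm -/

section PrimeNorm

variable {R : Type*} [CommRing R] [IsDedekindDomain R] [Module.Free ℤ R]

/-- In a quotient of prime cardinality every element is the class of a natural number. -/
lemma exists_natCast_sub_mem {I : Ideal R} {ℓ : ℕ} (hℓ : ℓ.Prime) (hI : absNorm I = ℓ) (x : R) :
    ∃ m : ℕ, x - (m : R) ∈ I := by
  classical
  have hcard : Nat.card (R ⧸ I) = ℓ := by
    rw [← hI, absNorm_apply, Submodule.cardQuot_apply]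
  haveI : Finite (R ⧸ I) := Nat.finite_of_card_ne_zero (by rw [hcard]; exact hℓ.ne_zero)
  letI : Fintype (R ⧸ I) := Fintype.ofFinite _
  have hcard' : Fintype.card (R ⧸ I) = ℓ := by rw [← Nat.card_eq_fintype_card, hcard]
  let e := ZMod.ringEquivOfPrime (R ⧸ I) hℓ hcard'
  haveI : NeZero ℓ := ⟨hℓ.ne_zero⟩
  refine ⟨(e.symm (Ideal.Quotient.mk I x)).val, ?_⟩
  rw [← Ideal.Quotient.eq, map_natCast]
  have h1 : e (e.symm (Ideal.Quotient.mk I x)) = Ideal.Quotient.mk I x := e.apply_symm_apply _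
  rw [← h1]
  conv_lhs => rw [← ZMod.natCast_zmod_val (e.symm (Ideal.Quotient.mk I x))]
  rw [map_natCast]
  simp

/-- Fermat's little theorem in a quotient of prime cardinality. -/
lemma pow_sub_self_mem {I : Ideal R} {ℓ : ℕ} (hℓ : ℓ.Prime) (hI : absNorm I = ℓ) (x : R) :
    x ^ ℓ - x ∈ I := by
  classical
  have hcard : Nat.card (R ⧸ I) = ℓ := by
    rw [← hI, absNorm_apply, Submodule.cardQuot_apply]
  haveI : Finite (R ⧸ I) := Nat.finite_of_card_ne_zero (by rw [hcard]; exact hℓ.ne_zero)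
  letI : Fintype (R ⧸ I) := Fintype.ofFinite _
  have hcard' : Fintype.card (R ⧸ I) = ℓ := by rw [← Nat.card_eq_fintype_card, hcard]
  let e := ZMod.ringEquivOfPrime (R ⧸ I) hℓ hcard'
  haveI : Fact ℓ.Prime := ⟨hℓ⟩
  rw [← Ideal.Quotient.eq, map_pow]
  have h1 : e (e.symm (Ideal.Quotient.mk I x)) = Ideal.Quotient.mk I x := e.apply_symm_apply _
  rw [← h1, ← map_pow, ZMod.pow_card]

lemma natCast_mem_of_absNorm_eq {I : Ideal R} {ℓ : ℕ} (hI : absNorm I = ℓ) : (ℓ : R) ∈ I := by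
  rw [← hI]
  exact absNorm_mem I

end PrimeNorm

/-! ### Kernels of Frobenius-fixed homomorphisms -/

omit [IsGalois ℚ L] in
/-- A prime of `𝓞 L` containing a prime number is maximal. -/
lemma isMaximal_of_natCast_mem {P : Ideal (𝓞 L)} (hP : P.IsPrime) {ℓ : ℕ} (hℓ : ℓ.Prime)
    (hℓP : (ℓ : 𝓞 L) ∈ P) : P.IsMaximal := by
  refine hP.isMaximal ?_
  rintro rfl
  rw [Ideal.mem_bot] at hℓP
  exact hℓ.ne_zero (by exact_mod_cast hℓP)

omit [IsGalois ℚ L] in
lemma natCast_quot_eq_zero {P : Ideal (𝓞 L)} {ℓ : ℕ} (hℓP : (ℓ : 𝓞 L) ∈ P) :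
    ((ℓ : ℕ) : 𝓞 L ⧸ P) = 0 := by
  have : ((ℓ : ℕ) : 𝓞 L ⧸ P) = Ideal.Quotient.mk P (ℓ : 𝓞 L) := by simp
  rw [this]
  exact Ideal.Quotient.eq_zero_iff_mem.mpr hℓP

omit [IsGalois ℚ L] in
/-- The set of solutions of `y ^ ℓ = y` in the residue field is finite with at most `ℓ`
elements. -/
lemma ncard_frobFixed_le {P : Ideal (𝓞 L)} (hP : P.IsPrime) {ℓ : ℕ} (hℓ : ℓ.Prime) :
    {y : 𝓞 L ⧸ P | y ^ ℓ = y}.Finite ∧ {y : 𝓞 L ⧸ P | y ^ ℓ = y}.ncard ≤ ℓ := by
  classical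
  haveI := hP
  haveI : IsDomain (𝓞 L ⧸ P) := Ideal.Quotient.isDomain P
  set f : Polynomial (𝓞 L ⧸ P) := Polynomial.X ^ ℓ - Polynomial.X with hf
  have hdeg : f.natDegree = ℓ := by
    rw [hf]
    have h1 : (Polynomial.X ^ ℓ - Polynomial.X : Polynomial (𝓞 L ⧸ P)).natDegree =
        (Polynomial.X ^ ℓ : Polynomial (𝓞 L ⧸ P)).natDegree := by
      apply Polynomial.natDegree_sub_eq_left_of_natDegree_lt
      rw [Polynomial.natDegree_X_pow, Polynomial.natDegree_X]
      exact hℓ.one_lt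
    rw [h1, Polynomial.natDegree_X_pow]
  have hf0 : f ≠ 0 := by
    intro h0
    rw [h0, Polynomial.natDegree_zero] at hdeg
    exact hℓ.ne_zero hdeg.symm
  have hsub : {y : 𝓞 L ⧸ P | y ^ ℓ = y} ⊆ (f.roots.toFinset : Set (𝓞 L ⧸ P)) := by
    intro y hy
    change y ^ ℓ = y at hy
    rw [Finset.mem_coe, Multiset.mem_toFinset, Polynomial.mem_roots hf0, Polynomial.IsRoot,
      hf, Polynomial.eval_sub, Polynomial.eval_pow, Polynomial.eval_X, hy, sub_self]
  refine ⟨(Finset.finite_toSet _).subset hsub, ?_⟩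
  calc {y : 𝓞 L ⧸ P | y ^ ℓ = y}.ncard
      ≤ (f.roots.toFinset : Set (𝓞 L ⧸ P)).ncard :=
        Set.ncard_le_ncard hsub (Finset.finite_toSet _)
    _ = f.roots.toFinset.card := Set.ncard_coe_finset _
    _ ≤ Multiset.card f.roots := Multiset.toFinset_card_le _
    _ ≤ f.natDegree := Polynomial.card_roots' f
    _ = ℓ := hdeg

/-- The kernel of a ring homomorphism `𝓞 F → 𝓞 L ⧸ P` fixed by the `ℓ`-th power map has
norm `ℓ`. -/
lemma absNorm_ker_eq {P : Ideal (𝓞 L)} (hP : P.IsPrime) {ℓ : ℕ} (hℓ : ℓ.Prime)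
    (hℓP : (ℓ : 𝓞 L) ∈ P) (φ : 𝓞 (IntermediateField.fixedField H) →+* 𝓞 L ⧸ P)
    (hφ : ∀ x, φ x ^ ℓ = φ x) : absNorm (RingHom.ker φ) = ℓ := by
  classical
  haveI := hP
  haveI : IsDomain (𝓞 L ⧸ P) := Ideal.Quotient.isDomain P
  have hker_prime : (RingHom.ker φ).IsPrime := RingHom.ker_isPrime φ
  have hℓker : ((ℓ : ℕ) : 𝓞 (IntermediateField.fixedField H)) ∈ RingHom.ker φ := by
    rw [RingHom.mem_ker, map_natCast]
    exact natCast_quot_eq_zero hℓP
  have hdvd : ℓ ∣ absNorm (RingHom.ker φ) := dvd_absNorm_of_mem hker_prime hℓ hℓker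
  obtain ⟨hfin, hle⟩ := ncard_frobFixed_le hP hℓ
  -- the quotient by the kernel injects into the Frobenius-fixed elements
  haveI : Finite {y : 𝓞 L ⧸ P | y ^ ℓ = y} := hfin
  let ι : (𝓞 (IntermediateField.fixedField H) ⧸ RingHom.ker φ) →
      {y : 𝓞 L ⧸ P | y ^ ℓ = y} := fun z =>
    ⟨RingHom.kerLift φ z, by
      obtain ⟨x, rfl⟩ := Ideal.Quotient.mk_surjective z
      simpa using hφ x⟩
  have hι : Function.Injective ι := by
    intro a b hab
    apply RingHom.kerLift_injective φ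
    exact congrArg Subtype.val hab
  have hcard : Nat.card (𝓞 (IntermediateField.fixedField H) ⧸ RingHom.ker φ) ≤ ℓ := by
    refine (Nat.card_le_card_of_injective ι hι).trans ?_
    rw [Nat.card_coe_set_eq]
    exact hle
  haveI : Finite (𝓞 (IntermediateField.fixedField H) ⧸ RingHom.ker φ) :=
    Finite.of_injective ι hι
  have hpos : 0 < Nat.card (𝓞 (IntermediateField.fixedField H) ⧸ RingHom.ker φ) :=
    Nat.card_pos
  have habs : absNorm (RingHom.ker φ) =
      Nat.card (𝓞 (IntermediateField.fixedField H) ⧸ RingHom.ker φ) := by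
    rw [absNorm_apply, Submodule.cardQuot_apply]
  rw [habs] at hdvd ⊢
  exact le_antisymm hcard (Nat.le_of_dvd hpos hdvd)

/-! ### The rational prime under a prime of `L` -/

omit [IsGalois ℚ L] in
lemma under_int_eq_span {P : Ideal (𝓞 L)} (hP : P.IsPrime) {ℓ : ℕ} (hℓ : ℓ.Prime)
    (hℓP : (ℓ : 𝓞 L) ∈ P) : P.under ℤ = Ideal.span {(ℓ : ℤ)} := by
  have hmax : (Ideal.span {(ℓ : ℤ)}).IsMaximal := by
    apply PrincipalIdealRing.isMaximal_of_irreducible
    exact (Nat.prime_iff_prime_int.mp hℓ).irreducible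
  symm
  refine hmax.eq_of_le ?_ ?_
  · intro htop
    apply hP.ne_top
    rw [Ideal.eq_top_iff_one]
    have h1 : (1 : ℤ) ∈ P.under ℤ := by rw [htop]; trivial
    rw [Ideal.under_def, Ideal.mem_comap] at h1
    simpa using h1
  · rw [Ideal.span_singleton_le_iff_mem, Ideal.under_def, Ideal.mem_comap]
    simpa using hℓP

/-! ### The main count -/

/-- **FROB-B, core**: for a prime `ℓ` not dividing `badNat H θ`, the primes of the fixed field
of `H` of norm `ℓ` are in bijection with the fixed points of a Frobenius on `G ⧸ H`. -/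
theorem degOneCount_eq_of_good {θ : 𝓞 (IntermediateField.fixedField H)}
    {ℓ : ℕ} (hℓ : ℓ.Prime) (hbad : ¬ ℓ ∣ badNat H θ)
    {P : Ideal (𝓞 L)} (hP : P.IsPrime) (hℓP : (ℓ : 𝓞 L) ∈ P) {σ : L ≃ₐ[ℚ] L}
    (hσ : ∀ x : 𝓞 L, σ • x - x ^ ℓ ∈ P) :
    degOneCount (IntermediateField.fixedField H) ℓ =
      Nat.card {x : (L ≃ₐ[ℚ] L) ⧸ H // σ • x = x} := by
  classical
  haveI := hP
  haveI : IsDomain (𝓞 L ⧸ P) := Ideal.Quotient.isDomain P
  -- `Φ(σ h) = Φ(h)` for fixed cosets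
  have hfix : ∀ x : (L ≃ₐ[ℚ] L) ⧸ H, σ • x = x →
      redHom H P (σ * x.out) = redHom H P x.out := by
    intro x hx
    apply redHom_eq_of_mem
    rw [← QuotientGroup.eq]
    have h1 : (((σ * x.out : L ≃ₐ[ℚ] L)) : (L ≃ₐ[ℚ] L) ⧸ H) =
        σ • (((x.out : L ≃ₐ[ℚ] L)) : (L ≃ₐ[ℚ] L) ⧸ H) := rfl
    rw [h1, QuotientGroup.out_eq', hx]
  have hpow : ∀ x : (L ≃ₐ[ℚ] L) ⧸ H, σ • x = x →
      ∀ y, (redHom H P x.out y) ^ ℓ = redHom H P x.out y := by
    intro x hx y
    rw [← redHom_frob H P hσ, hfix x hx]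
  have hnorm : ∀ x : {x : (L ≃ₐ[ℚ] L) ⧸ H // σ • x = x},
      absNorm (RingHom.ker (redHom H P x.1.out)) = ℓ :=
    fun x => absNorm_ker_eq H hP hℓ hℓP _ (hpow x.1 x.2)
  let Ψ : {x : (L ≃ₐ[ℚ] L) ⧸ H // σ • x = x} →
      {v : HeightOneSpectrum (𝓞 (IntermediateField.fixedField H)) // absNorm v.asIdeal = ℓ} :=
    fun x => ⟨⟨RingHom.ker (redHom H P x.1.out), RingHom.ker_isPrime _, by
      intro h0
      have := hnorm x
      rw [h0, absNorm_bot] at this
      exact hℓ.ne_zero this.symm⟩, hnorm x⟩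
  have hΨ_inj : Function.Injective Ψ := by
    intro x y hxy
    have hker : RingHom.ker (redHom H P x.1.out) = RingHom.ker (redHom H P y.1.out) :=
      congrArg (fun v : {v : HeightOneSpectrum (𝓞 (IntermediateField.fixedField H)) //
        absNorm v.asIdeal = ℓ} => v.1.asIdeal) hxy
    have heq : redHom H P x.1.out = redHom H P y.1.out := by
      ext z
      obtain ⟨m, hm⟩ := exists_natCast_sub_mem hℓ (hnorm x) z
      have hm' : z - (m : 𝓞 (IntermediateField.fixedField H)) ∈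
          RingHom.ker (redHom H P y.1.out) := hker ▸ hm
      rw [RingHom.mem_ker, map_sub, sub_eq_zero, map_natCast] at hm hm'
      rw [hm, hm']
    have hmem := mem_of_redHom_eq H hP hℓ hℓP hbad heq
    apply Subtype.ext
    rw [← QuotientGroup.out_eq' x.1, ← QuotientGroup.out_eq' y.1]
    exact QuotientGroup.eq.mpr hmem
  have hΨ_surj : Function.Surjective Ψ := by
    rintro ⟨v, hv⟩
    haveI : v.asIdeal.IsPrime := v.isPrime
    obtain ⟨Q, -, hQprime, hQ⟩ := Ideal.exists_ideal_over_prime_of_isIntegral v.asIdeal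
      (⊥ : Ideal (𝓞 L)) (by
        intro z hz
        rw [Ideal.mem_comap, Ideal.mem_bot] at hz
        have hinj : Function.Injective
            (algebraMap (𝓞 (IntermediateField.fixedField H)) (𝓞 L)) :=
          FaithfulSMul.algebraMap_injective _ _
        have : z = 0 := hinj (by rw [hz, map_zero])
        rw [this]
        exact zero_mem _)
    have hℓv : ((ℓ : ℕ) : 𝓞 (IntermediateField.fixedField H)) ∈ v.asIdeal :=
      natCast_mem_of_absNorm_eq hv
    have hℓQ : ((ℓ : ℕ) : 𝓞 L) ∈ Q := by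
      have : ((ℓ : ℕ) : 𝓞 (IntermediateField.fixedField H)) ∈
          Q.comap (algebraMap (𝓞 (IntermediateField.fixedField H)) (𝓞 L)) := by
        rw [hQ]; exact hℓv
      rw [Ideal.mem_comap, map_natCast] at this
      exact this
    have hunder : P.under ℤ = Q.under ℤ := by
      rw [under_int_eq_span hP hℓ hℓP, under_int_eq_span hQprime hℓ hℓQ]
    obtain ⟨g, hg⟩ := Algebra.IsInvariant.exists_smul_of_under_eq ℤ (𝓞 L) (L ≃ₐ[ℚ] L) P Q hunder
    -- `v ≤ ker Φ(g⁻¹)`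
    have hle : v.asIdeal ≤ RingHom.ker (redHom H P g⁻¹) := by
      intro z hz
      rw [RingHom.mem_ker, redHom_apply, Ideal.Quotient.eq_zero_iff_mem]
      have hzQ : algebraMap (𝓞 (IntermediateField.fixedField H)) (𝓞 L) z ∈ Q := by
        have : z ∈ Q.comap (algebraMap (𝓞 (IntermediateField.fixedField H)) (𝓞 L)) := by
          rw [hQ]; exact hz
        exact this
      rw [hg, Ideal.mem_pointwise_smul_iff_inv_smul_mem] at hzQ
      exact hzQ
    have hkerne : RingHom.ker (redHom H P g⁻¹) ≠ ⊤ := (RingHom.ker_isPrime _).ne_top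
    have hveq : v.asIdeal = RingHom.ker (redHom H P g⁻¹) :=
      v.isMaximal.eq_of_le hkerne hle
    -- the coset of `g⁻¹` is fixed by `σ`
    have hfrobeq : redHom H P (σ * g⁻¹) = redHom H P g⁻¹ := by
      ext z
      rw [redHom_frob H P hσ, ← map_pow, ← sub_eq_zero, ← map_sub, ← RingHom.mem_ker, ← hveq]
      exact pow_sub_self_mem hℓ hv z
    have hfixed : σ • (((g⁻¹ : L ≃ₐ[ℚ] L)) : (L ≃ₐ[ℚ] L) ⧸ H) =
        (((g⁻¹ : L ≃ₐ[ℚ] L)) : (L ≃ₐ[ℚ] L) ⧸ H) := by
      have h1 : σ • (((g⁻¹ : L ≃ₐ[ℚ] L)) : (L ≃ₐ[ℚ] L) ⧸ H) =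
          (((σ * g⁻¹ : L ≃ₐ[ℚ] L)) : (L ≃ₐ[ℚ] L) ⧸ H) := rfl
      rw [h1]
      exact QuotientGroup.eq.mpr (mem_of_redHom_eq H hP hℓ hℓP hbad hfrobeq)
    refine ⟨⟨(((g⁻¹ : L ≃ₐ[ℚ] L)) : (L ≃ₐ[ℚ] L) ⧸ H), hfixed⟩, ?_⟩
    apply Subtype.ext
    apply HeightOneSpectrum.ext
    change RingHom.ker (redHom H P
      ((((g⁻¹ : L ≃ₐ[ℚ] L)) : (L ≃ₐ[ℚ] L) ⧸ H)).out) = v.asIdeal
    rw [hveq]
    congr 1
    apply redHom_eq_of_mem
    rw [← QuotientGroup.eq, QuotientGroup.out_eq']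
  unfold degOneCount
  exact (Nat.card_congr (Equiv.ofBijective Ψ ⟨hΨ_inj, hΨ_surj⟩)).symm

/-- **FROB-B**: `DegOneCountStatement`. -/
theorem degOneCount_statement : DegOneCountStatement.{u} := by
  intro L _ _ _ H
  obtain ⟨θ, hθ⟩ := exists_theta H
  refine ⟨(badNat H θ).primeFactors, ?_⟩
  intro ℓ hℓ hℓT P hP hℓP σ hσ
  refine degOneCount_eq_of_good H (θ := θ) hℓ ?_ hP hℓP hσ
  intro hdvd
  exact hℓT (Nat.mem_primeFactors.mpr ⟨hℓ, hdvd, badNat_ne_zero H hθ⟩)

end Fermat.Agent.H3.Frob
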