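import Mathlib

/-!
# Frobenius density theorem (existence form): interfaces

P-CHEB fallback route (helper3).  Everything here is Mathlib-only.

* `FrobeniusNFStatement`: for a finite Galois extension `L/ℚ`, an element `g` of the Galois group
  and a finite set `S` of primes, some generator `g ^ k` of the cyclic group generated by `g`
  is an arithmetic Frobenius at a prime of `L` over a prime number `ℓ ∉ S`.
* `DegOneSumStatement` (FROB-A): the Dirichlet series `∑ c_F(ℓ) ℓ ^ (-s)` over the good primes,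
  `c_F(ℓ)` the number of primes of `F` of norm `ℓ`, is `log (1 / (s - 1)) + O(1)` as `s → 1⁺`.
* `DegOneCountStatement` (FROB-B): for almost all `ℓ`, the number of primes of norm `ℓ` of the
  fixed field of `H` is the number of fixed points of a Frobenius at `ℓ` on `G ⧸ H`.
* `MoebiusFixedPointsStatement` (FROB-C): Möbius inversion over the subgroups of a cyclic group.
-/

set_option autoImplicit false

noncomputable section

namespace Fermat.Agent.H3.Frob

open NumberField IsDedekindDomain Ideal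

universe u

/-- The number of primes of the number field `F` of norm `ℓ` (for a prime number `ℓ`: the number
of degree-one primes of `F` over `ℓ`). -/
def degOneCount (F : Type u) [Field F] [NumberField F] (ℓ : ℕ) : ℕ :=
  Nat.card {v : HeightOneSpectrum (𝓞 F) // absNorm v.asIdeal = ℓ}

/-- The general term of the degree-one prime zeta sum of `F` away from `T`. -/
def degOneTerm (F : Type u) [Field F] [NumberField F] (T : Finset ℕ) (s : ℝ) (ℓ : ℕ) : ℝ :=
  if ℓ.Prime ∧ ℓ ∉ T then (degOneCount F ℓ : ℝ) * (ℓ : ℝ) ^ (-s) else 0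

/-- **Frobenius' theorem, existence form, number field level.** -/
def FrobeniusNFStatement : Prop :=
  ∀ (L : Type u) [Field L] [NumberField L] [IsGalois ℚ L] (g : L ≃ₐ[ℚ] L) (S : Finset ℕ),
    ∃ ℓ : ℕ, ℓ.Prime ∧ ℓ ∉ S ∧ ∃ P : Ideal (𝓞 L), P.IsPrime ∧ (ℓ : 𝓞 L) ∈ P ∧
      ∃ k : ℕ, k.Coprime (orderOf g) ∧ ∀ x : 𝓞 L, (g ^ k) • x - x ^ ℓ ∈ P

/-- FROB-A: the degree-one prime zeta sum has a logarithmic singularity at `s = 1`. -/
def DegOneSumStatement : Prop :=
  ∀ (F : Type u) [Field F] [NumberField F] (T : Finset ℕ),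
    ∃ B : ℝ, ∃ ε : ℝ, 0 < ε ∧ ∀ s : ℝ, 1 < s → s < 1 + ε →
      Summable (degOneTerm F T s) ∧
        |(∑' ℓ : ℕ, degOneTerm F T s ℓ) - Real.log (1 / (s - 1))| ≤ B

/-- FROB-B: degree-one primes of a fixed field are counted by fixed points of Frobenius. -/
def DegOneCountStatement : Prop :=
  ∀ (L : Type u) [Field L] [NumberField L] [IsGalois ℚ L] (H : Subgroup (L ≃ₐ[ℚ] L)),
    ∃ T : Finset ℕ, ∀ ℓ : ℕ, ℓ.Prime → ℓ ∉ T →
      ∀ P : Ideal (𝓞 L), P.IsPrime → (ℓ : 𝓞 L) ∈ P →
        ∀ σ : L ≃ₐ[ℚ] L, (∀ x : 𝓞 L, σ • x - x ^ ℓ ∈ P) →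
          degOneCount (IntermediateField.fixedField H) ℓ =
            Nat.card {x : (L ≃ₐ[ℚ] L) ⧸ H // σ • x = x}

/-- FROB-C: Möbius inversion over the subgroups of the cyclic group generated by `g`. -/
def MoebiusFixedPointsStatement : Prop :=
  ∀ (G : Type u) [Group G] [Finite G] (g τ : G),
    ∑ d ∈ (orderOf g).divisors, (ArithmeticFunction.moebius d : ℤ) * ((orderOf g / d : ℕ) : ℤ) *
        (Nat.card {x : G ⧸ Subgroup.zpowers (g ^ d) // τ • x = x} : ℤ) =
      (Nat.card {h : G // ∃ k : ℕ, k.Coprime (orderOf g) ∧ h⁻¹ * τ * h = g ^ k} : ℤ)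

end Fermat.Agent.H3.Frob
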