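import Fermat.Agent.H3.FrobAssembly
import Fermat.Agent.H45.FrobA
import Fermat.Agent.H48.FrobMoebius

/-!
# Frobenius' density theorem (existence form), unconditional

For every finite Galois extension `L/ℚ`, every `g ∈ Gal(L/ℚ)` and every finite set `S` of primes
there are a prime number `ℓ ∉ S`, a prime `P` of `L` over `ℓ` and `k` prime to the order of `g`
such that `g ^ k` is an arithmetic Frobenius at `P`.

Ingredients: `Fermat.Agent.H45.degOneSum` (FROB-A, helper45), `degOneCount_statement` (FROB-B),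
`Fermat.Agent.H48.moebiusFixedPoints` (FROB-C, helper48), `frobeniusNF_of_parts` (FROB-D).
-/

set_option autoImplicit false

namespace Fermat.Agent.H3.Frob

open NumberField

universe u

/-- **Frobenius' density theorem, existence form.** -/
theorem frobeniusNF : FrobeniusNFStatement.{u} :=
  frobeniusNF_of_parts Fermat.Agent.H45.degOneSum Fermat.Agent.H48.moebiusFixedPoints
    Fermat.Agent.H48.sum_moebius_mul_div

/-- Unfolded form of `frobeniusNF`. -/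
theorem exists_frobenius_generator (L : Type u) [Field L] [NumberField L] [IsGalois ℚ L]
    (g : L ≃ₐ[ℚ] L) (S : Finset ℕ) :
    ∃ ℓ : ℕ, ℓ.Prime ∧ ℓ ∉ S ∧ ∃ P : Ideal (𝓞 L), P.IsPrime ∧ (ℓ : 𝓞 L) ∈ P ∧
      ∃ k : ℕ, k.Coprime (orderOf g) ∧ ∀ x : 𝓞 L, (g ^ k) • x - x ^ ℓ ∈ P :=
  frobeniusNF L g S

/-- Variant: every element `g` is a POWER of a Frobenius element (at a prime over some
`ℓ ∉ S`); this is the form used for power-closed sets. -/
theorem exists_frobenius_pow_eq (L : Type u) [Field L] [NumberField L] [IsGalois ℚ L]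
    (g : L ≃ₐ[ℚ] L) (S : Finset ℕ) :
    ∃ ℓ : ℕ, ℓ.Prime ∧ ℓ ∉ S ∧ ∃ P : Ideal (𝓞 L), P.IsPrime ∧ (ℓ : 𝓞 L) ∈ P ∧
      ∃ φ : L ≃ₐ[ℚ] L, (∀ x : 𝓞 L, φ • x - x ^ ℓ ∈ P) ∧ ∃ j : ℕ, 0 < j ∧ φ ^ j = g := by
  obtain ⟨ℓ, hℓ, hℓS, P, hP, hℓP, k, hk, hfrob⟩ := frobeniusNF L g S
  refine ⟨ℓ, hℓ, hℓS, P, hP, hℓP, g ^ k, hfrob, ?_⟩
  -- `k` is invertible modulo the order of `g`
  have hpos : 0 < orderOf g := orderOf_pos g
  obtain ⟨j, hj⟩ : ∃ j : ℕ, k * j ≡ 1 [MOD orderOf g] := by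
    by_cases h1 : orderOf g = 1
    · exact ⟨0, by rw [h1]; exact Nat.modEq_one⟩
    · have hlt : 1 < orderOf g := by omega
      obtain ⟨j, -, hj⟩ := Nat.exists_mul_mod_eq_one_of_coprime hk hlt
      exact ⟨j, by rw [Nat.ModEq, hj, Nat.mod_eq_of_lt hlt]⟩
  refine ⟨j + orderOf g, by omega, ?_⟩
  have h1 : g ^ (k * j) = g ^ 1 := (pow_eq_pow_iff_modEq).mpr hj
  calc (g ^ k) ^ (j + orderOf g) = g ^ (k * j) * (g ^ orderOf g) ^ k := by
        rw [← pow_mul, ← pow_mul, ← pow_add, mul_add, mul_comm (orderOf g) k]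
    _ = g := by rw [h1, pow_orderOf_eq_one, one_pow, mul_one, pow_one]

end Fermat.Agent.H3.Frob
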