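import Fermat.Agent.H88.KL.KummerBranch

/-!
# P-ES / KL tame step (helper3): the Eisenstein step

`E₁ = E'(s)`, `s ^ m = σ`, `σ` a uniformiser of the discrete valuation `val ∘ (E' → E₁)`.
Then `val` is discrete with uniformiser `s` (values of `a_i s^i`, `i < m`, are pairwise
distinct).
-/

set_option autoImplicit false
set_option maxSynthPendingDepth 3

noncomputable section

namespace Fermat.Agent.H3.KLAbh

open Fermat.Agent.H22.KL Fermat.Agent.H88.KLB Polynomial

section Eisenstein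

variable {E' E1 : Type} [Field E'] [Field E1] [Algebra E' E1]
variable {Γ : Type*} [LinearOrderedCommGroupWithZero Γ]

theorem int_eq_of_mul_add_eq {m : ℕ} {i j : ℕ} (hi : i < m) (hj : j < m) {a b : ℤ}
    (h : (m : ℤ) * a + i = (m : ℤ) * b + j) : i = j := by
  have h1 : (m : ℤ) ∣ (i : ℤ) - j := ⟨b - a, by linarith⟩
  have h2 : |(i : ℤ) - j| < m := by
    rw [abs_lt]
    constructor <;> omega
  have h3 := Int.eq_zero_of_abs_lt_dvd h1 h2
  omega

/-- **Eisenstein step.** -/
theorem eisenstein_discAt (val : Valuation E1 Γ) {σ : E'}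
    (hσ : DiscAt (val.comap (algebraMap E' E1)) σ)
    {s : E1} {m : ℕ} (hm : 0 < m) (hs : s ^ m = algebraMap E' E1 σ)
    (hgen : Algebra.adjoin E' ({s} : Set E1) = ⊤) : DiscAt val s := by
  classical
  have hσ0 : algebraMap E' E1 σ ≠ 0 := (_root_.map_ne_zero _).mpr hσ.1
  have hs0 : s ≠ 0 := by
    rintro rfl
    rw [zero_pow hm.ne'] at hs
    exact hσ0 hs.symm
  have hvσ : val (algebraMap E' E1 σ) < 1 := hσ.2.1
  have hvs_pow : val s ^ m = val (algebraMap E' E1 σ) := by rw [← map_pow, hs]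
  have hvs : val s < 1 := by
    by_contra h
    rw [not_lt] at h
    have h1 : 1 ≤ val s ^ m := one_le_pow₀ h
    rw [hvs_pow] at h1
    exact absurd hvσ (not_lt.mpr h1)
  have hvs0 : 0 < val s := zero_lt_iff.mpr ((Valuation.ne_zero_iff _).mpr hs0)
  refine ⟨hs0, hvs, ?_⟩
  intro z hz
  have hzmem : z ∈ Algebra.adjoin E' ({s} : Set E1) := by
    rw [hgen]
    trivial
  rw [Algebra.adjoin_singleton_eq_range_aeval] at hzmem
  obtain ⟨P, rfl⟩ := hzmem
  set q : E'[X] := X ^ m - C σ with hq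
  have hqm : q.Monic := monic_X_pow_sub_C σ hm.ne'
  have hqs : aeval s q = 0 := by
    rw [hq, map_sub, map_pow, aeval_X, aeval_C, hs, sub_self]
  have hq1 : q ≠ 1 := by
    intro h1
    rw [h1, map_one] at hqs
    exact one_ne_zero hqs
  have hPR : aeval s P = aeval s (P %ₘ q) := (aeval_modByMonic_eq_self_of_root hqs).symm
  have hRdeg : (P %ₘ q).natDegree < m := by
    have := natDegree_modByMonic_lt P hqm hq1
    rwa [hq, natDegree_X_pow_sub_C] at this
  set Rr := P %ₘ q with hR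
  have hsum : aeval s P = ∑ j ∈ Finset.range m, Rr.coeff j • s ^ j := by
    rw [hPR, aeval_eq_sum_range' hRdeg]
  set T := (Finset.range m).filter (fun j => Rr.coeff j ≠ 0) with hT
  have hsumT : aeval s P = ∑ j ∈ T, Rr.coeff j • s ^ j := by
    rw [hsum, hT, Finset.sum_filter]
    refine Finset.sum_congr rfl fun j _ => ?_
    by_cases hj : Rr.coeff j = 0
    · simp [hj]
    · simp [hj]
  have hTne : T.Nonempty := by
    by_contra hemp
    rw [Finset.not_nonempty_iff_eq_empty] at hemp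
    apply hz
    change (aeval s) P = 0
    rw [hsumT, hemp, Finset.sum_empty]
  -- exponents
  have hex : ∀ j ∈ T, ∃ k : ℤ, val (Rr.coeff j • s ^ j) = val s ^ ((m : ℤ) * k + j) := by
    intro j hj
    have hc : Rr.coeff j ≠ 0 := (Finset.mem_filter.mp hj).2
    obtain ⟨k, hk⟩ := hσ.2.2 _ hc
    refine ⟨k, ?_⟩
    have hk' : val (algebraMap E' E1 (Rr.coeff j)) = val (algebraMap E' E1 σ) ^ k := hk
    rw [Algebra.smul_def, map_mul, map_pow, hk', ← hvs_pow, ← zpow_natCast (val s) m,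
      ← zpow_mul, ← zpow_natCast (val s) j, ← zpow_add₀ hvs0.ne']
  obtain ⟨j0, hj0, hmax⟩ := Finset.exists_max_image T (fun j => val (Rr.coeff j • s ^ j)) hTne
  obtain ⟨k0, hk0⟩ := hex j0 hj0
  refine ⟨(m : ℤ) * k0 + j0, ?_⟩
  change val ((aeval s) P) = _
  rw [hsumT, ← hk0]
  refine Valuation.map_sum_eq_of_lt val hj0 ?_
  intro i hi
  rw [Finset.mem_sdiff, Finset.mem_singleton] at hi
  refine lt_of_le_of_ne (hmax i hi.1) ?_
  intro heq
  obtain ⟨k, hk⟩ := hex i hi.1
  rw [hk, hk0, zpow_right_inj₀ hvs0 hvs.ne] at heq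
  have hi_lt : i < m := Finset.mem_range.mp (Finset.mem_filter.mp hi.1).1
  have hj_lt : j0 < m := Finset.mem_range.mp (Finset.mem_filter.mp hj0).1
  exact hi.2 (int_eq_of_mul_add_eq hi_lt hj_lt heq)

end Eisenstein

end Fermat.Agent.H3.KLAbh
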