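import Fermat.Agent.H3.KLAvgNorm
import Fermat.Agent.H87.KL.KumGauss

/-!
# P-ES / KL tame step (helper3): descent along the tame Kummer cover `s ^ e = x - c`

`E₁ = E(s)`, `s ^ e = x - c`, `[E₁ : E] = e`, `e` a unit of `A`, `ζ ∈ A` a primitive `e`-th
root of unity.  Polynomial forms (`IntX`, `GC` of `Fermat.Agent.H87.KL.KumGauss`):

* `IntX.up`, `GC.up` : integrality over `A[x]` gives integrality over `A[s]`.
* `IntX.trans_chart` : integral over `A[s]` ⟹ integral over `A[x]`.
* `pr = (1/e) Tr_{E₁/E}` and its values on `A[s]`.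
* `avg_descent` : the conclusion of purity upstairs descends to `E`.
-/

set_option autoImplicit false
set_option linter.unusedSectionVars false
set_option linter.style.haveILetI false

noncomputable section

open Polynomial

namespace Fermat.Agent.H3.KLAvg

open Fermat.Agent.H22.KL Fermat.Agent.H87.KL
open Fermat.Agent.H67.KLConn (PiDvd)

section Up

variable {A : Type} [CommRing A]
variable {E E1 : Type} [Field E] [Field E1] [Algebra A E] [Algebra A E1] [Algebra E E1]
  [IsScalarTower A E E1]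

theorem algebraMap_x_eq' {x : E} {c : A} {e : ℕ} {s : E1}
    (hs : s ^ e = algebraMap E E1 (x - algebraMap A E c)) :
    algebraMap E E1 x = s ^ e + algebraMap A E1 c := by
  rw [hs, map_sub, ← IsScalarTower.algebraMap_apply]
  ring

/-- evaluation at `s` of the substituted polynomial `P(X^e + c)` -/
theorem aeval_comp_shift {x : E} {c : A} {e : ℕ} {s : E1}
    (hs : s ^ e = algebraMap E E1 (x - algebraMap A E c)) (P : A[X]) :
    aeval s (P.comp (X ^ e + C c)) = algebraMap E E1 (aeval x P) := by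
  rw [aeval_comp, map_add, map_pow, aeval_X, aeval_C, ← algebraMap_x_eq' hs,
    aeval_algebraMap_apply]

/-- the ring homomorphism `P ↦ P(X^e + c)` -/
def shiftHom (c : A) (e : ℕ) : A[X] →+* A[X] := compRingHom (X ^ e + C c)

theorem shiftHom_apply (c : A) (e : ℕ) (P : A[X]) : shiftHom c e P = P.comp (X ^ e + C c) :=
  rfl

theorem evX_comp_shift {x : E} {c : A} {e : ℕ} {s : E1}
    (hs : s ^ e = algebraMap E E1 (x - algebraMap A E c)) :
    (evX (A := A) s).comp (shiftHom c e) = (algebraMap E E1).comp (evX (A := A) x) := by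
  apply RingHom.ext
  intro P
  exact aeval_comp_shift hs P

theorem evX_map (x : E) :
    evX (A := A) (algebraMap E E1 x) = (algebraMap E E1).comp (evX (A := A) x) := by
  apply RingHom.ext
  intro P
  exact aeval_algebraMap_apply E1 x P

/-- integrality over `A[x]` gives integrality over `A[s]` -/
theorem IntX.up {x : E} {c : A} {e : ℕ} {s : E1}
    (hs : s ^ e = algebraMap E E1 (x - algebraMap A E c)) {z : E}
    (hz : IntX (A := A) x z) : IntX (A := A) s (algebraMap E E1 z) := by
  obtain ⟨p, hp, hpz⟩ := hz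
  refine ⟨p.map (shiftHom c e), hp.map _, ?_⟩
  rw [eval₂_map, evX_comp_shift hs, ← hom_eval₂, hpz, map_zero]

/-- integrality over `A[x]` in `E` and in `E₁` -/
theorem IntX.map_iff {x : E} {z : E} :
    IntX (A := A) (algebraMap E E1 x) (algebraMap E E1 z) ↔ IntX (A := A) x z := by
  constructor
  · rintro ⟨p, hp, hpz⟩
    refine ⟨p, hp, ?_⟩
    rw [evX_map, ← hom_eval₂] at hpz
    exact (map_eq_zero_iff _ (algebraMap E E1).injective).mp hpz
  · rintro ⟨p, hp, hpz⟩
    refine ⟨p, hp, ?_⟩
    rw [evX_map, ← hom_eval₂, hpz, map_zero]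

theorem IntX.const (x : E) (a : A) : IntX (A := A) x (algebraMap A E a) := by
  rw [← aeval_C (R := A) x a]
  exact IntX.map x (C a)

theorem IntX.pow {x y : E} (hy : IntX (A := A) x y) (n : ℕ) : IntX (A := A) x (y ^ n) := by
  induction n with
  | zero =>
    rw [pow_zero, ← map_one (algebraMap A E)]
    exact IntX.const x 1
  | succ n ih =>
    rw [pow_succ]
    exact ih.mul hy

theorem IntX.neg {x y : E} (hy : IntX (A := A) x y) : IntX (A := A) x (-y) := by
  have : -y = algebraMap A E (-1) * y := by rw [map_neg, map_one]; ring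
  rw [this]
  exact (IntX.const x (-1)).mul hy

theorem IntX.sub {x y z : E} (hy : IntX (A := A) x y) (hz : IntX (A := A) x z) :
    IntX (A := A) x (y - z) := by
  rw [sub_eq_add_neg]
  exact hy.add hz.neg

/-- polynomials in an integral element are integral -/
theorem IntX.aeval_of_intX {x' s : E1} (hsx : IntX (A := A) x' s) (Q : A[X]) :
    IntX (A := A) x' (aeval s Q) := by
  induction Q using Polynomial.induction_on' with
  | add p q hp hq =>
    rw [map_add]
    exact hp.add hq
  | monomial n a =>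
    rw [aeval_monomial]
    exact (IntX.const x' a).mul (IntX.pow hsx n)

/-- **transitivity**: integral over `A[s]` with `s` integral over `A[x']` ⟹ integral over
`A[x']` -/
theorem IntX.trans {x' s : E1} (hsx : IntX (A := A) x' s) {z : E1}
    (hz : IntX (A := A) s z) : IntX (A := A) x' z := by
  letI : Algebra A[X] E1 := (evX (A := A) x').toAlgebra
  have hmem : ∀ Q : A[X], evX (A := A) s Q ∈ (integralClosure A[X] E1).toSubring :=
    fun Q => IntX.aeval_of_intX hsx Q
  let ψ : A[X] →+* (integralClosure A[X] E1).toSubring :=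
    (evX (A := A) s).codRestrict (integralClosure A[X] E1).toSubring hmem
  obtain ⟨p, hp, hpz⟩ := hz
  have hzI : IsIntegral (integralClosure A[X] E1) z := by
    refine ⟨p.map ψ, hp.map ψ, ?_⟩
    rw [eval₂_map]
    exact hpz
  exact isIntegral_trans z hzI

/-- `s` is integral over `A[x]` -/
theorem intX_root {x : E} {c : A} {e : ℕ} (he : 0 < e) {s : E1}
    (hs : s ^ e = algebraMap E E1 (x - algebraMap A E c)) :
    IntX (A := A) (algebraMap E E1 x) s := by
  apply IntX.of_pow he
  have : s ^ e = aeval (algebraMap E E1 x) (X - C c : A[X]) := by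
    rw [hs, aeval_sub, aeval_X, aeval_C, map_sub, ← IsScalarTower.algebraMap_apply]
  rw [this]
  exact IntX.map _ _

/-- integral over `A[s]` ⟹ integral over `A[x]` -/
theorem IntX.trans_chart {x : E} {c : A} {e : ℕ} (he : 0 < e) {s : E1}
    (hs : s ^ e = algebraMap E E1 (x - algebraMap A E c)) {z : E1}
    (hz : IntX (A := A) s z) : IntX (A := A) (algebraMap E E1 x) z :=
  IntX.trans (intX_root he hs) hz

/-- the trace of an element integral over `A[x]` is integral over `A[x]` -/
theorem IntX.trace [FiniteDimensional E E1] {x : E} {z : E1}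
    (hz : IntX (A := A) (algebraMap E E1 x) z) : IntX (A := A) x (Algebra.trace E E1 z) := by
  letI : Algebra A[X] E := (evX (A := A) x).toAlgebra
  letI : Algebra A[X] E1 := ((algebraMap E E1).comp (evX (A := A) x)).toAlgebra
  haveI : IsScalarTower A[X] E E1 := IsScalarTower.of_algebraMap_eq (fun _ => rfl)
  have h1 : IsIntegral A[X] z := by
    obtain ⟨p, hp, hpz⟩ := hz
    refine ⟨p, hp, ?_⟩
    rw [evX_map] at hpz
    exact hpz
  exact Algebra.isIntegral_trace h1

end Up

section GCup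

variable {A : Type} [CommRing A] [IsDomain A]
variable {E E1 : Type} [Field E] [Field E1] [Algebra A E] [Algebra A E1] [Algebra E E1]
  [IsScalarTower A E E1]

theorem C_dvd_iff_map_eq_zero (ϖ : A) (P : A[X]) :
    C ϖ ∣ P ↔ P.map (Ideal.Quotient.mk (Ideal.span {ϖ})) = 0 := by
  rw [C_dvd_iff_dvd_coeff]
  constructor
  · intro h
    ext n
    rw [coeff_map, coeff_zero, Ideal.Quotient.eq_zero_iff_mem, Ideal.mem_span_singleton]
    exact h n
  · intro h n
    have h1 := congrArg (fun Q => Q.coeff n) h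
    simp only [coeff_map, coeff_zero] at h1
    rwa [Ideal.Quotient.eq_zero_iff_mem, Ideal.mem_span_singleton] at h1

theorem not_dvd_comp_shift {ϖ : A} (hϖ : Prime ϖ) (c : A) {e : ℕ} (he : 0 < e) {H : A[X]}
    (hH : ¬ C ϖ ∣ H) : ¬ C ϖ ∣ H.comp (X ^ e + C c) := by
  haveI : (Ideal.span {ϖ}).IsPrime := (Ideal.span_singleton_prime hϖ.ne_zero).mpr hϖ
  rw [C_dvd_iff_map_eq_zero] at hH ⊢
  rw [map_comp, comp_eq_zero_iff]
  rintro (h | ⟨-, h⟩)
  · exact hH h
  · have h1 := congrArg natDegree h
    rw [natDegree_C, Polynomial.map_add, Polynomial.map_pow, map_X, map_C,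
      natDegree_X_pow_add_C] at h1
    omega

theorem dvd_of_dvd_comp_sub {ϖ : A} (c : A) {G : A[X]} (h : C ϖ ∣ G.comp (X - C c)) :
    C ϖ ∣ G := by
  obtain ⟨Q, hQ⟩ := h
  have h1 : G = (G.comp (X - C c)).comp (X + C c) := by
    rw [comp_assoc, sub_comp, X_comp, C_comp, add_sub_cancel_right, comp_X]
  rw [h1, hQ, mul_comp, C_comp]
  exact dvd_mul_right _ _

/-- the Gauss closure of the chart `x` maps into the Gauss closure of the chart `s` -/
theorem GC.up {ϖ : A} (hϖ : Prime ϖ) {x : E} {c : A} {e : ℕ} (he : 0 < e) {s : E1}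
    (hs : s ^ e = algebraMap E E1 (x - algebraMap A E c)) {z : E} (hz : GC ϖ x z) :
    GC ϖ s (algebraMap E E1 z) := by
  obtain ⟨H, hH, hint⟩ := hz
  refine ⟨H.comp (X ^ e + C c), not_dvd_comp_shift hϖ c he hH, ?_⟩
  rw [aeval_comp_shift hs, ← map_mul]
  exact IntX.up hs hint

end GCup

section Trace

variable {E E1 : Type} [Field E] [Field E1] [Algebra E E1]

theorem minpoly_gen_eq (pb : PowerBasis E E1) {e : ℕ} (he : 0 < e) (hdim : pb.dim = e)
    {u : E} (hs : pb.gen ^ e = algebraMap E E1 u) : minpoly E pb.gen = X ^ e - C u := by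
  have hroot : aeval pb.gen (X ^ e - C u : E[X]) = 0 := by
    rw [map_sub, map_pow, aeval_X, aeval_C, hs, sub_self]
  have hdvd := minpoly.dvd E pb.gen hroot
  have hmon : (X ^ e - C u : E[X]).Monic := monic_X_pow_sub_C u he.ne'
  exact (eq_of_monic_of_dvd_of_natDegree_le (minpoly.monic pb.isIntegral_gen) hmon hdvd
    (by rw [natDegree_X_pow_sub_C, pb.natDegree_minpoly, hdim])).symm

theorem exists_rot_aut (pb : PowerBasis E E1) {e : ℕ} (he : 0 < e) (hdim : pb.dim = e)
    {u : E} (hs : pb.gen ^ e = algebraMap E E1 u) {ζ : E} (hζ : ζ ^ e = 1) :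
    ∃ σ : E1 ≃ₐ[E] E1, σ pb.gen = algebraMap E E1 ζ * pb.gen := by
  haveI : FiniteDimensional E E1 := pb.finite
  have hy : aeval (algebraMap E E1 ζ * pb.gen) (minpoly E pb.gen) = 0 := by
    rw [minpoly_gen_eq pb he hdim hs, map_sub, map_pow, aeval_X, aeval_C, mul_pow, ← map_pow,
      hζ, map_one, one_mul, hs, sub_self]
  refine ⟨AlgEquiv.ofBijective (pb.lift _ hy) (AlgHom.bijective _), ?_⟩
  rw [AlgEquiv.coe_ofBijective, PowerBasis.lift_gen]

theorem trace_gen_pow (pb : PowerBasis E E1) {e : ℕ} (he : 0 < e) (hdim : pb.dim = e)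
    {u : E} (hs : pb.gen ^ e = algebraMap E E1 u) {ζ : E} (hζ : IsPrimitiveRoot ζ e) (j : ℕ) :
    Algebra.trace E E1 (pb.gen ^ j) = if e ∣ j then (e : E) * u ^ (j / e) else 0 := by
  haveI : FiniteDimensional E E1 := pb.finite
  split_ifs with h
  · obtain ⟨k, rfl⟩ := h
    rw [pow_mul, hs, ← map_pow, Algebra.trace_algebraMap, PowerBasis.finrank pb, hdim,
      nsmul_eq_mul, Nat.mul_div_cancel_left _ he]
  · obtain ⟨σ, hσ⟩ := exists_rot_aut pb he hdim hs hζ.pow_eq_one
    have h1 : Algebra.trace E E1 (σ (pb.gen ^ j)) = Algebra.trace E E1 (pb.gen ^ j) :=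
      Algebra.trace_eq_of_algEquiv σ _
    rw [map_pow, hσ, mul_pow, ← map_pow, ← Algebra.smul_def, map_smul, smul_eq_mul] at h1
    have h2 : (ζ ^ j - 1) * Algebra.trace E E1 (pb.gen ^ j) = 0 := by
      rw [sub_mul, one_mul, h1, sub_self]
    rcases mul_eq_zero.mp h2 with h3 | h3
    · exact absurd ((hζ.pow_eq_one_iff_dvd j).mp (sub_eq_zero.mp h3)) h
    · exact h3

/-- the projection `(1/e) Tr` -/
def pr (e : ℕ) (z : E1) : E := (e : E)⁻¹ * Algebra.trace E E1 z

theorem pr_add (e : ℕ) (z w : E1) : pr (E := E) e (z + w) = pr e z + pr e w := by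
  unfold pr
  rw [map_add, mul_add]

theorem pr_sub (e : ℕ) (z w : E1) : pr (E := E) e (z - w) = pr e z - pr e w := by
  unfold pr
  rw [map_sub, mul_sub]

theorem pr_algebraMap_mul (e : ℕ) (a : E) (z : E1) :
    pr (E := E) e (algebraMap E E1 a * z) = a * pr e z := by
  unfold pr
  rw [← Algebra.smul_def, map_smul, smul_eq_mul]
  ring

theorem pr_gen_pow (pb : PowerBasis E E1) {e : ℕ} (he : 0 < e) (hdim : pb.dim = e)
    (he0 : (e : E) ≠ 0) {u : E} (hs : pb.gen ^ e = algebraMap E E1 u) {ζ : E}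
    (hζ : IsPrimitiveRoot ζ e) (j : ℕ) :
    pr (E := E) e (pb.gen ^ j) = if e ∣ j then u ^ (j / e) else 0 := by
  unfold pr
  rw [trace_gen_pow pb he hdim hs hζ]
  split_ifs
  · rw [← mul_assoc, inv_mul_cancel₀ he0, one_mul]
  · rw [mul_zero]

end Trace

section Descent

variable {A : Type} [CommRing A] [IsDomain A]
variable {E E1 : Type} [Field E] [Field E1] [Algebra A E] [Algebra A E1] [Algebra E E1]
  [IsScalarTower A E E1]

/-- `s` is transcendental over `A` if `x = s ^ e + c` is -/
theorem transcendental_root {x : E} {c : A} {e : ℕ} {s : E1}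
    (hs : s ^ e = algebraMap E E1 (x - algebraMap A E c)) (hx : Transcendental A x) :
    Transcendental A s := by
  intro hsa
  apply hx
  rw [← isAlgebraic_algebraMap_iff (R := A) (algebraMap E E1).injective, algebraMap_x_eq' hs]
  exact (hsa.pow e).add (isAlgebraic_algebraMap c)

theorem algebraMap_injective_of_transcendental {x : E} (hx : Transcendental A x) :
    Function.Injective (algebraMap A E) := by
  intro a b hab
  have h := transcendental_iff_injective.1 hx
  apply C_injective
  apply h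
  rw [aeval_C, aeval_C, hab]

theorem inv_natCast_eq {e : ℕ} (heu : IsUnit ((e : ℕ) : A)) :
    ((e : E))⁻¹ = algebraMap A E (↑heu.unit⁻¹ : A) := by
  apply inv_eq_of_mul_eq_one_right
  rw [← map_natCast (algebraMap A E) e, ← map_mul, heu.mul_val_inv, map_one]

/-- the projection of `Q(s)` is a polynomial in `x` with the same value at the centre -/
theorem exists_pr_aeval (pb : PowerBasis E E1) {e : ℕ} (he : 0 < e) (hdim : pb.dim = e)
    (he0 : (e : E) ≠ 0) {x : E} {c : A}
    (hs : pb.gen ^ e = algebraMap E E1 (x - algebraMap A E c)) {ζ : E}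
    (hζ : IsPrimitiveRoot ζ e) (Q : A[X]) :
    ∃ Q0 : A[X], aeval x Q0 = pr (E := E) e (aeval pb.gen Q) ∧ Q0.eval c = Q.coeff 0 := by
  induction Q using Polynomial.induction_on' with
  | add p q hp hq =>
    obtain ⟨p0, hp1, hp2⟩ := hp
    obtain ⟨q0, hq1, hq2⟩ := hq
    refine ⟨p0 + q0, ?_, ?_⟩
    · rw [map_add, map_add, pr_add, hp1, hq1]
    · rw [eval_add, coeff_add, hp2, hq2]
  | monomial n a =>
    have h1 : aeval pb.gen (monomial n a : A[X]) =
        algebraMap E E1 (algebraMap A E a) * pb.gen ^ n := by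
      rw [aeval_monomial, ← IsScalarTower.algebraMap_apply]
    rw [h1, pr_algebraMap_mul, pr_gen_pow pb he hdim he0 hs hζ]
    by_cases hn : e ∣ n
    · rw [if_pos hn]
      refine ⟨C a * (X - C c) ^ (n / e), ?_, ?_⟩
      · rw [map_mul, aeval_C, map_pow, map_sub, aeval_X, aeval_C]
      · rw [eval_mul, eval_C, eval_pow, eval_sub, eval_X, eval_C, sub_self, coeff_monomial]
        obtain ⟨k, rfl⟩ := hn
        rw [Nat.mul_div_cancel_left _ he]
        rcases Nat.eq_zero_or_pos k with rfl | hk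
        · simp
        · rw [zero_pow hk.ne', mul_zero, if_neg]
          exact (Nat.mul_pos he hk).ne'
    · rw [if_neg hn]
      refine ⟨0, by rw [map_zero, mul_zero], ?_⟩
      rw [eval_zero, coeff_monomial, if_neg]
      rintro rfl
      exact hn (dvd_zero e)

/-- the projection maps `B(s)` into `B(x)` -/
theorem IntX.down (pb : PowerBasis E E1) {e : ℕ} (he : 0 < e)
    (heu : IsUnit ((e : ℕ) : A)) {x : E} {c : A}
    (hs : pb.gen ^ e = algebraMap E E1 (x - algebraMap A E c)) {z : E1}
    (hz : IntX (A := A) pb.gen z) : IntX (A := A) x (pr (E := E) e z) := by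
  haveI : FiniteDimensional E E1 := pb.finite
  have h2 := IntX.trace (IntX.trans_chart he hs hz)
  unfold pr
  rw [inv_natCast_eq heu]
  exact (IntX.const x _).mul h2

/-- the projection maps `C(s)` into `C(x)` -/
theorem GC.down {ϖ : A} (hϖ : Prime ϖ) (pb : PowerBasis E E1) {e : ℕ} (he : 0 < e)
    (heu : IsUnit ((e : ℕ) : A)) {x : E} {c : A}
    (hs : pb.gen ^ e = algebraMap E E1 (x - algebraMap A E c)) {ζ : A}
    (hζ : IsPrimitiveRoot ζ e) {z : E1}
    (hz : GC ϖ pb.gen z) : GC ϖ x (pr (E := E) e z) := by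
  haveI : FiniteDimensional E E1 := pb.finite
  obtain ⟨H1, hH1, hint⟩ := hz
  have hexp : expand A e (contract e (normPoly ζ e H1)) = normPoly ζ e H1 :=
    expand_contract_normPoly he hζ H1
  have hNs : aeval pb.gen (normPoly ζ e H1) =
      algebraMap E E1 (aeval x ((contract e (normPoly ζ e H1)).comp (X - C c))) := by
    conv_lhs => rw [← hexp]
    rw [expand_aeval, hs, aeval_algebraMap_apply, aeval_comp, map_sub, aeval_X, aeval_C]
  refine ⟨(contract e (normPoly ζ e H1)).comp (X - C c), ?_, ?_⟩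
  · intro hd
    obtain ⟨Q, hQ⟩ := dvd_of_dvd_comp_sub c hd
    apply not_dvd_normPoly hϖ he hζ.pow_eq_one hH1
    rw [← hexp, hQ, map_mul, expand_C]
    exact dvd_mul_right _ _
  · have h2 : IntX (A := A) pb.gen (aeval pb.gen (normPoly ζ e H1) * z) := by
      rw [normPoly_eq_mul ζ he H1, map_mul, mul_right_comm]
      exact hint.mul (IntX.map _ _)
    have h3 := IntX.trace (IntX.trans_chart he hs h2)
    rw [hNs, ← Algebra.smul_def, map_smul, smul_eq_mul] at h3
    unfold pr
    rw [inv_natCast_eq heu, mul_left_comm]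
    exact (IntX.const x _).mul h3

end Descent

/-! ## The statements in the language of `Fermat.Agent.H22.KL` -/

section Main

variable {A : Type} [CommRing A] [IsDomain A]
variable {E E1 : Type} [Field E] [Field E1] [Algebra A E] [Algebra A E1] [Algebra E E1]
  [IsScalarTower A E E1]

/-- `B(x) ⊆ B(s)` -/
theorem chartClosure_up {x : E} {c : A} {e : ℕ} {s : E1}
    (hs : s ^ e = algebraMap E E1 (x - algebraMap A E c)) {z : E}
    (hz : z ∈ chartClosure A E x) : algebraMap E E1 z ∈ chartClosure A E1 s :=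
  (mem_chartClosure_iff s _).2 (IntX.up hs ((mem_chartClosure_iff x z).1 hz))

/-- `C(x) ⊆ C(s)` -/
theorem gaussClosure_up {ϖ : A} (hϖ : Prime ϖ) {x : E} (hx : Transcendental A x) {c : A}
    {e : ℕ} (he : 0 < e) {s : E1}
    (hs : s ^ e = algebraMap E E1 (x - algebraMap A E c)) {z : E}
    (hz : z ∈ gaussClosure A E ϖ x) : algebraMap E E1 z ∈ gaussClosure A E1 ϖ s :=
  (mem_gaussClosure_iff (transcendental_root hs hx) ϖ _).2
    (GC.up hϖ he hs ((mem_gaussClosure_iff hx ϖ z).1 hz))

/-- `ϖ C(x) ⊆ ϖ C(s)` -/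
theorem piDvdSet_up {ϖ : A} (hϖ : Prime ϖ) {x : E} (hx : Transcendental A x) {c : A}
    {e : ℕ} (he : 0 < e) {s : E1}
    (hs : s ^ e = algebraMap E E1 (x - algebraMap A E c)) {z : E}
    (hz : PiDvdSet A E ϖ (gaussClosure A E ϖ x) z) :
    PiDvdSet A E1 ϖ (gaussClosure A E1 ϖ s) (algebraMap E E1 z) := by
  obtain ⟨c1, hc1, rfl⟩ := hz
  refine ⟨algebraMap E E1 c1, gaussClosure_up hϖ hx he hs hc1, ?_⟩
  rw [map_mul, ← IsScalarTower.algebraMap_apply]

/-- the projection maps `B(s)` into `B(x)` -/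
theorem pr_mem_chartClosure (pb : PowerBasis E E1) {e : ℕ} (he : 0 < e)
    (heu : IsUnit ((e : ℕ) : A)) {x : E} {c : A}
    (hs : pb.gen ^ e = algebraMap E E1 (x - algebraMap A E c)) {z : E1}
    (hz : z ∈ chartClosure A E1 pb.gen) : pr (E := E) e z ∈ chartClosure A E x :=
  (mem_chartClosure_iff x _).2 (IntX.down pb he heu hs ((mem_chartClosure_iff _ z).1 hz))

/-- the projection maps `C(s)` into `C(x)` -/
theorem pr_mem_gaussClosure {ϖ : A} (hϖ : Prime ϖ) (pb : PowerBasis E E1) {e : ℕ}
    (he : 0 < e) (heu : IsUnit ((e : ℕ) : A)) {x : E} (hx : Transcendental A x) {c : A}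
    (hs : pb.gen ^ e = algebraMap E E1 (x - algebraMap A E c)) {ζ : A}
    (hζ : IsPrimitiveRoot ζ e) {z : E1}
    (hz : z ∈ gaussClosure A E1 ϖ pb.gen) : pr (E := E) e z ∈ gaussClosure A E ϖ x :=
  (mem_gaussClosure_iff hx ϖ _).2
    (GC.down hϖ pb he heu hs hζ ((mem_gaussClosure_iff (transcendental_root hs hx) ϖ z).1 hz))

/-- the projection is the identity on `E` -/
theorem pr_algebraMap (pb : PowerBasis E E1) {e : ℕ} (hdim : pb.dim = e) (he0 : (e : E) ≠ 0)
    (a : E) : pr (E := E) e (algebraMap E E1 a) = a := by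
  haveI : FiniteDimensional E E1 := pb.finite
  unfold pr
  rw [Algebra.trace_algebraMap, PowerBasis.finrank pb, hdim, nsmul_eq_mul, ← mul_assoc,
    inv_mul_cancel₀ he0, one_mul]

/-- **the averaging lemma** (descent of the conclusion of purity along the tame cover) -/
theorem avg_descent {ϖ : A} (hϖ : Prime ϖ) {x : E} (hx : Transcendental A x) {c : A} {e : ℕ}
    (he : 0 < e) (heu : IsUnit ((e : ℕ) : A)) {ζ : A} (hζ : IsPrimitiveRoot ζ e)
    (pb : PowerBasis E E1) (hdim : pb.dim = e)
    (hs : pb.gen ^ e = algebraMap E E1 (x - algebraMap A E c))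
    (y : E) (s1 : A[X]) (hout : OutsideMax A ϖ X s1) (b1 : E1)
    (hb1 : b1 ∈ chartClosure A E1 pb.gen)
    (h : PiDvdSet A E1 ϖ (gaussClosure A E1 ϖ pb.gen)
      (aeval pb.gen s1 * algebraMap E E1 y - b1)) :
    ∃ s0 : A[X], OutsideMax A ϖ (X - C c) s0 ∧ ∃ b ∈ chartClosure A E x,
      PiDvdSet A E ϖ (gaussClosure A E ϖ x) (aeval x s0 * y - b) := by
  have hinj := algebraMap_injective_of_transcendental hx
  have he0 : (e : E) ≠ 0 := by
    have := (heu.map (algebraMap A E)).ne_zero
    rwa [map_natCast] at this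
  have hζE : IsPrimitiveRoot (algebraMap A E ζ) e := hζ.map_of_injective hinj
  obtain ⟨c1, hc1, heq⟩ := h
  obtain ⟨s0, hs01, hs02⟩ := exists_pr_aeval pb he hdim he0 hs hζE s1
  refine ⟨s0, ?_, pr (E := E) e b1, pr_mem_chartClosure pb he heu hs hb1, pr (E := E) e c1,
    pr_mem_gaussClosure hϖ pb he heu hx hs hζ hc1, ?_⟩
  · rintro ⟨p, q, hpq⟩
    apply hout
    refine ⟨C (p.eval c), divX s1, ?_⟩
    have h1 : s1.coeff 0 = ϖ * p.eval c := by
      rw [← hs02, hpq, eval_add, eval_mul, eval_mul, eval_C, eval_sub, eval_X, eval_C,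
        sub_self, zero_mul, add_zero]
    conv_lhs => rw [← divX_mul_X_add s1]
    rw [h1, C_mul, add_comm, mul_comm X]
  · have h2 := congrArg (pr (E := E) e) heq
    rw [pr_sub, mul_comm, pr_algebraMap_mul, ← hs01, IsScalarTower.algebraMap_apply A E E1,
      pr_algebraMap_mul] at h2
    rw [mul_comm]
    exact h2

end Main

end Fermat.Agent.H3.KLAvg
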