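import Mathlib

/-!
# P-ES / KL tame step (helper3): the norm polynomial `∏_{i<e} H(ζ^i X)`

`A` a domain, `ζ ∈ A` a primitive `e`-th root of unity.  For `H ∈ A[X]` the polynomial
`normPoly ζ e H = ∏_{i<e} H(ζ^i X)` is a polynomial in `X^e`, is divisible by `H`, and is not
divisible by the prime constant `ϖ` if `H` is not.
-/

set_option autoImplicit false
set_option linter.unusedSectionVars false

noncomputable section

open Polynomial

namespace Fermat.Agent.H3.KLAvg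

section NormPoly

variable {A : Type*} [CommRing A]

/-- `H(ζ^i X)` -/
def rot (ζ : A) (i : ℕ) (H : A[X]) : A[X] := H.comp (C (ζ ^ i) * X)

/-- `∏_{i<e} H(ζ^i X)` -/
def normPoly (ζ : A) (e : ℕ) (H : A[X]) : A[X] := ∏ i ∈ Finset.range e, rot ζ i H

theorem coeff_rot (ζ : A) (i : ℕ) (H : A[X]) (n : ℕ) :
    (rot ζ i H).coeff n = H.coeff n * (ζ ^ i) ^ n :=
  comp_C_mul_X_coeff

theorem rot_zero (ζ : A) (H : A[X]) : rot ζ 0 H = H := by
  ext n
  rw [coeff_rot, pow_zero, one_pow, mul_one]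

theorem rot_comp (ζ : A) (i : ℕ) (H : A[X]) : (rot ζ i H).comp (C ζ * X) = rot ζ (i + 1) H := by
  ext n
  rw [comp_C_mul_X_coeff, coeff_rot, coeff_rot, mul_assoc, ← mul_pow, ← pow_succ]

theorem rot_period {ζ : A} {e : ℕ} (hζ : ζ ^ e = 1) (H : A[X]) : rot ζ e H = H := by
  ext n
  rw [coeff_rot, hζ, one_pow, mul_one]

theorem prod_comp {ι : Type*} (s : Finset ι) (f : ι → A[X]) (q : A[X]) :
    (∏ i ∈ s, f i).comp q = ∏ i ∈ s, (f i).comp q := by
  classical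
  induction s using Finset.induction_on with
  | empty => simp
  | insert a s ha ih => rw [Finset.prod_insert ha, Finset.prod_insert ha, mul_comp, ih]

theorem dvd_normPoly (ζ : A) {e : ℕ} (he : 0 < e) (H : A[X]) : H ∣ normPoly ζ e H := by
  have h1 : rot ζ 0 H ∣ normPoly ζ e H :=
    Finset.dvd_prod_of_mem _ (Finset.mem_range.mpr he)
  rwa [rot_zero] at h1

/-- cofactor form: `normPoly = H * ∏_{0<i<e} H(ζ^i X)` -/
theorem normPoly_eq_mul (ζ : A) {e : ℕ} (he : 0 < e) (H : A[X]) :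
    normPoly ζ e H = H * ∏ i ∈ Finset.range (e - 1), rot ζ (i + 1) H := by
  obtain ⟨e', rfl⟩ : ∃ e', e = e' + 1 := ⟨e - 1, by omega⟩
  unfold normPoly
  rw [Finset.prod_range_succ', rot_zero, mul_comm, Nat.add_sub_cancel]

variable [IsDomain A]

theorem normPoly_comp {ζ : A} {e : ℕ} (hζ : ζ ^ e = 1) {H : A[X]} (hH : H ≠ 0) :
    (normPoly ζ e H).comp (C ζ * X) = normPoly ζ e H := by
  unfold normPoly
  rw [prod_comp]
  simp only [rot_comp]
  have h1 : (∏ i ∈ Finset.range e, rot ζ (i + 1) H) * rot ζ 0 H =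
      (∏ i ∈ Finset.range e, rot ζ i H) * rot ζ e H := by
    rw [← Finset.prod_range_succ' (fun i => rot ζ i H) e,
      ← Finset.prod_range_succ (fun i => rot ζ i H) e]
  rw [rot_period hζ, rot_zero] at h1
  exact mul_right_cancel₀ hH h1

theorem coeff_normPoly_eq_zero {ζ : A} {e : ℕ} (he : 0 < e) (hζ : IsPrimitiveRoot ζ e)
    {H : A[X]} {j : ℕ} (hj : ¬ e ∣ j) : (normPoly ζ e H).coeff j = 0 := by
  by_cases hH : H = 0
  · obtain ⟨q, hq⟩ := dvd_normPoly ζ he H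
    rw [hq, hH, zero_mul, coeff_zero]
  have h1 := congrArg (fun P => P.coeff j) (normPoly_comp hζ.pow_eq_one hH)
  simp only [comp_C_mul_X_coeff] at h1
  have h2 : (normPoly ζ e H).coeff j * (ζ ^ j - 1) = 0 := by
    rw [mul_sub, mul_one, h1, sub_self]
  rcases mul_eq_zero.mp h2 with h3 | h3
  · exact h3
  · exact absurd ((hζ.pow_eq_one_iff_dvd j).mp (sub_eq_zero.mp h3)) hj

/-- the norm polynomial is a polynomial in `X ^ e` -/
theorem expand_contract_normPoly {ζ : A} {e : ℕ} (he : 0 < e) (hζ : IsPrimitiveRoot ζ e)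
    (H : A[X]) : expand A e (contract e (normPoly ζ e H)) = normPoly ζ e H := by
  ext n
  rw [coeff_expand he, coeff_contract he.ne']
  split_ifs with h
  · rw [Nat.div_mul_cancel h]
  · exact (coeff_normPoly_eq_zero he hζ h).symm

theorem isUnit_of_pow_eq_one {ζ : A} {e : ℕ} (he : 0 < e) (hζ : ζ ^ e = 1) : IsUnit ζ := by
  obtain ⟨e', rfl⟩ : ∃ e', e = e' + 1 := ⟨e - 1, by omega⟩
  rw [pow_succ] at hζ
  exact IsUnit.of_mul_eq_one _ (by rw [mul_comm]; exact hζ)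

theorem not_dvd_rot {ϖ ζ : A} (hϖ : Prime ϖ) {e : ℕ} (he : 0 < e) (hζ : ζ ^ e = 1)
    {H : A[X]} (hH : ¬ C ϖ ∣ H) (i : ℕ) : ¬ C ϖ ∣ rot ζ i H := by
  intro hd
  apply hH
  rw [C_dvd_iff_dvd_coeff] at hd ⊢
  intro n
  have h1 := hd n
  rw [coeff_rot] at h1
  rcases hϖ.dvd_or_dvd h1 with h2 | h2
  · exact h2
  · exact absurd (isUnit_of_dvd_unit h2 (((isUnit_of_pow_eq_one he hζ).pow i).pow n))
      hϖ.not_isUnit

theorem not_dvd_normPoly {ϖ ζ : A} (hϖ : Prime ϖ) {e : ℕ} (he : 0 < e) (hζ : ζ ^ e = 1)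
    {H : A[X]} (hH : ¬ C ϖ ∣ H) : ¬ C ϖ ∣ normPoly ζ e H := by
  intro hd
  have hp : Prime (C ϖ : A[X]) := prime_C_iff.mpr hϖ
  obtain ⟨i, -, hi⟩ := (Prime.dvd_finsetProd_iff hp _).mp hd
  exact not_dvd_rot hϖ he hζ hH i hi

end NormPoly





end Fermat.Agent.H3.KLAvg
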