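import Fermat.Agent.H70.KL.NormalityAt
import Fermat.Agent.H91.KLNorm.TameFull
import Fermat.Agent.H91.KLNorm.GlueFull
import Fermat.Agent.H9.E6.TwoChartFinal

/-!
# P-ES / KL-N-TAME, full form (helper3): the tame cover package

`tameCover : Fermat.Agent.H91.KLNorm.TameCoverStatement`, assembled from helper70's tame layer
(`TameSetup`, averaging, norm), helper67's irreducibility, the Abhyankar step and helper73's good
basis of the tame layer.  Consequences: `normalityAtFull`, `normalityFull`, `twoChart`.
-/

set_option autoImplicit false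
set_option linter.style.haveILetI false
set_option linter.unusedSectionVars false

noncomputable section

namespace Fermat.Agent.H3.KLCover

open Polynomial Fermat.Agent.H22.KL Fermat.Agent.H70.KL

/-- **the tame cover package** (unconditional) -/
theorem tameCover : Fermat.Agent.H91.KLNorm.TameCoverStatement := by
  intro A _ _ _ E _ _ _ hinj ϖ hϖ x hx hGB c e he heU hζ' hT hO
  obtain ⟨ζ, hζ⟩ := hζ'
  have hxc : x - algebraMap A E c ≠ 0 := by
    intro h0
    apply hx
    rw [sub_eq_zero] at h0
    rw [h0]
    exact isAlgebraic_algebraMap c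
  have hirr : Irreducible (tamePoly x c e) := by
    refine kummerIrrStatement E e he (algebraMap A E ζ) (hζ.map_of_injective hinj) _ ?_
    intro d hd hde b hb
    obtain ⟨v, -, hnv⟩ := hO d hd hde
    apply hnv
    have hb0 : b ≠ 0 := by
      rintro rfl
      rw [zero_pow hd.ne_zero] at hb
      exact hxc hb.symm
    have h1 : (x - algebraMap A E c) * b⁻¹ ^ d = 1 := by
      rw [← hb, inv_pow]
      exact mul_inv_cancel₀ (pow_ne_zero _ hb0)
    refine ⟨b⁻¹, inv_ne_zero hb0, ?_, ?_⟩
    · rw [h1]; exact v.one_mem
    · rw [h1, inv_one]; exact v.one_mem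
  haveI : Fact (Irreducible (tamePoly x c e)) := ⟨hirr⟩
  obtain ⟨σ, T⟩ := exists_tameSetup hinj x c e ζ he hζ heU hxc
  have hGB₁ := tameGoodBasisStatement A E _ x c e ζ _ σ T hx ϖ hϖ hGB
  have hU₁ := tameUnramStatement A E _ x c e ζ _ σ T ϖ hϖ hx hT
  refine ⟨AdjoinRoot (tamePoly x c e), inferInstance, inferInstance, inferInstance,
    inferInstance, charZero_of_injective_algebraMap (algebraMap E _).injective,
    AdjoinRoot.root (tamePoly x c e), T.hinj₁, T.transcendental_s hx, T.hs, hGB₁, hU₁,
    fun z hz => T.gaussClosure_lift hz, ?_⟩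
  intro y s₁ hs₁ b₁ hb₁ hc₁
  refine ⟨prPoly c e s₁, outsideMax_prPoly T.he hs₁, T.pr b₁, T.chartClosure_pr hb₁, ?_⟩
  have h1 := T.piDvdSet_pr hx hϖ hc₁
  rwa [T.pr_sub, T.pr_mul_algebraMap, T.pr_aeval] at h1

/-- **KL-N-TAME, full form** (unconditional) -/
theorem normalityAtFull : Fermat.Agent.H91.KLNorm.NormalityAtFullStatement :=
  Fermat.Agent.H91.KLNorm.normalityAtFull_of_cover tameCover

/-- full normality in the chart `x` (unconditional) -/
theorem normalityFull : Fermat.Agent.H91.KLNorm.NormalityFullStatement :=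
  Fermat.Agent.H91.KLNorm.normalityFull_of_normalityAtFull normalityAtFull

/-- normality in both charts (unconditional) -/
theorem twoChart : Fermat.Agent.H91.KLNorm.TwoChartStatement :=
  Fermat.Agent.H91.KLNorm.twoChart_of_normalityAtFull normalityAtFull

/-- **E6a**: the two-chart lift (unconditional) -/
theorem twoChartLift : Fermat.Agent.H9.E6.TwoChartLiftStatement :=
  Fermat.Agent.H9.E6.twoChartLift normalityAtFull

end Fermat.Agent.H3.KLCover
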