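import Fermat.Agent.H88.KL.KummerBranch

/-!
# P-ES / KL tame step (helper3): irreducibility of `X ^ e - u` from the place criterion

If for every prime `d ∣ e` some discrete valuation subring `v` of `E` has `d ∤ ord_v u`
(`¬ OrdDvd E v d u`), then `X ^ e - C u` is irreducible over `E` (norm argument; no roots of
unity, no Vahlen-Capelli).
-/

set_option autoImplicit false
set_option maxSynthPendingDepth 3
set_option linter.style.haveILetI false

noncomputable section

namespace Fermat.Agent.H3.KLAbh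

open Fermat.Agent.H22.KL Fermat.Agent.H88.KLB Polynomial

section Irred

variable {E : Type} [Field E]

theorem pow_eq_zero_iff_of_pos_aux {u : E} {k : ℕ} (h : u ^ k = 0) : u = 0 := by
  rcases Nat.eq_zero_or_pos k with hk | hk
  · subst hk
    rw [pow_zero] at h
    exact absurd h one_ne_zero
  · exact (pow_eq_zero_iff hk.ne').mp h

/-- valuation step: `u ^ k = N ^ e`, `d ^ a ∣ e`, `d ∤ ord_v u` ⟹ `d ^ a ∣ k` -/
theorem pow_dvd_of_place (v : ValuationSubring E) (htop : v ≠ ⊤)
    (hpir : IsPrincipalIdealRing v) {u N : E} (hu : u ≠ 0) {k e d a : ℕ} (he : 0 < e)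
    (hd : d.Prime) (hda : d ^ a ∣ e) (hN : u ^ k = N ^ e) (hord : ¬ OrdDvd E v d u) :
    d ^ a ∣ k := by
  obtain ⟨π, hπ⟩ := exists_discAt (presents_valuation v) htop hpir
  have hN0 : N ≠ 0 := by
    rintro rfl
    rw [zero_pow he.ne'] at hN
    exact hu (pow_eq_zero_iff_of_pos_aux hN)
  obtain ⟨j, hj⟩ := hπ.2.2 u hu
  obtain ⟨i, hi⟩ := hπ.2.2 N hN0
  have h1 : j * k = i * e := by
    have h2 := congrArg v.valuation hN
    rw [map_pow, map_pow, hj, hi, ← zpow_natCast, ← zpow_natCast, ← zpow_mul, ← zpow_mul] at h2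
    exact hπ.zpow_inj.mp h2
  have hdj : ¬ (d : ℤ) ∣ j := by
    rintro ⟨j', hj'⟩
    apply hord
    have hπ0 : π ≠ 0 := hπ.1
    have ht0 : π ^ (-j') ≠ 0 := zpow_ne_zero _ hπ0
    refine ⟨π ^ (-j'), ht0, ?_⟩
    have hval : v.valuation (u * (π ^ (-j')) ^ d) = 1 := by
      rw [map_mul, map_pow, map_zpow₀, hj, ← zpow_natCast, ← zpow_mul, ← zpow_add₀ hπ.pos.ne',
        hπ.zpow_eq_one_iff, hj']
      ring
    exact ((presents_valuation v).val_eq_one_iff
      (mul_ne_zero hu (pow_ne_zero _ ht0))).mp hval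
  have hcop : IsCoprime ((d : ℤ) ^ a) j := by
    apply IsCoprime.pow_left
    exact (Prime.coprime_iff_not_dvd (Nat.prime_iff_prime_int.mp hd)).mpr hdj
  have h3 : ((d : ℤ) ^ a) ∣ (k : ℤ) * j := by
    rw [mul_comm, h1]
    exact Dvd.dvd.mul_left (by exact_mod_cast hda) i
  have h4 := hcop.dvd_of_dvd_mul_right h3
  exact_mod_cast h4

/-- **Irreducibility from the place criterion.** -/
theorem irreducible_X_pow_sub_C_of_places {A : Type} [CommRing A] [Algebra A E]
    (u : E) {e : ℕ} (he : 0 < e)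
    (h : ∀ d : ℕ, d.Prime → d ∣ e →
      ∃ v : ValuationSubring E, IsPlace A E v ∧ ¬ OrdDvd E v d u) :
    Irreducible (X ^ e - C u : E[X]) := by
  classical
  set f : E[X] := X ^ e - C u with hf
  have hdeg : f.natDegree = e := natDegree_X_pow_sub_C
  have hf0 : f ≠ 0 := (monic_X_pow_sub_C u he.ne').ne_zero
  obtain ⟨g, hg, hgdvd⟩ := exists_irreducible_of_natDegree_pos (f := f) (by rw [hdeg]; exact he)
  have hg0 : g ≠ 0 := hg.ne_zero
  haveI : Fact (Irreducible g) := ⟨hg⟩
  set k := g.natDegree with hk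
  have hkpos : 0 < k := hg.natDegree_pos
  have hkle : k ≤ e := hdeg ▸ natDegree_le_of_dvd hgdvd hf0
  -- the root and its norm
  set s : AdjoinRoot g := AdjoinRoot.root g with hs
  have hse : s ^ e = algebraMap E (AdjoinRoot g) u := by
    obtain ⟨q, hq⟩ := hgdvd
    have h1 : aeval s f = 0 := by
      rw [hq, map_mul, AdjoinRoot.aeval_eq, AdjoinRoot.mk_self, zero_mul]
    rw [hf, map_sub, map_pow, aeval_X, aeval_C] at h1
    exact sub_eq_zero.mp h1
  haveI : FiniteDimensional E (AdjoinRoot g) := (AdjoinRoot.powerBasis hg0).finite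
  have hfin : Module.finrank E (AdjoinRoot g) = k := by
    rw [(AdjoinRoot.powerBasis hg0).finrank, AdjoinRoot.powerBasis_dim]
  have hN : u ^ k = (Algebra.norm E s) ^ e := by
    rw [← map_pow, hse, Algebra.norm_algebraMap, hfin]
  -- `e ∣ k`
  have hek : e ∣ k := by
    rw [Nat.dvd_iff_prime_pow_dvd_dvd]
    intro d a hd hda
    rcases Nat.eq_zero_or_pos a with ha | ha
    · subst ha
      rw [pow_zero]
      exact one_dvd _
    obtain ⟨v, hv, hord⟩ := h d hd ((dvd_pow_self d ha.ne').trans hda)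
    have hu0 : u ≠ 0 := by
      rintro rfl
      apply hord
      refine ⟨1, one_ne_zero, ?_, ?_⟩
      · rw [zero_mul]
        exact v.zero_mem
      · rw [zero_mul, inv_zero]
        exact v.zero_mem
    exact pow_dvd_of_place v hv.1 hv.2.1 hu0 he hd hda hN hord
  have hke : k = e := Nat.le_antisymm hkle (Nat.le_of_dvd hkpos hek)
  -- `f` is associated to `g`
  obtain ⟨q, hq⟩ := hgdvd
  have hq0 : q ≠ 0 := by
    rintro rfl
    rw [mul_zero] at hq
    exact hf0 hq
  have hqdeg : q.natDegree = 0 := by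
    have h1 := congrArg natDegree hq
    rw [natDegree_mul hg0 hq0, hdeg, ← hk, hke] at h1
    omega
  have hqu : IsUnit q := by
    rw [eq_C_of_natDegree_eq_zero hqdeg] at hq0 ⊢
    have hc : q.coeff 0 ≠ 0 := fun h0 => hq0 (by rw [h0, C_0])
    exact isUnit_C.mpr (isUnit_iff_ne_zero.mpr hc)
  rw [hq]
  exact (irreducible_mul_isUnit hqu).mpr hg

end Irred

end Fermat.Agent.H3.KLAbh
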