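import Fermat.Agent.H3.KLKumBasic

/-!
# P-ES / KL-KUM (helper3): elements `≡ 1 mod h` are local units

`LocDvd h (u - 1) → LocInt h u⁻¹`: if `u ≡ 1` modulo `h` in the localisation at `h` of the
integral closure, then `u⁻¹` lies in that localisation too.
-/

set_option autoImplicit false
set_option linter.style.haveILetI false
set_option linter.unusedSectionVars false

noncomputable section

open Polynomial

namespace Fermat.Agent.H3.KLKum

section Unit

variable {R : Type*} [CommRing R]

/-- a monic polynomial with roots scaled by `h` takes at `-s` a value `≡ (-s)^d mod h` -/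
theorem not_dvd_eval_scaleRoots {h : R} (hh : Prime h) (Q : R[X]) (hQ : Q.Monic) {s : R}
    (hs : ¬ h ∣ s) : ¬ h ∣ (Q.scaleRoots h).eval (-s) := by
  intro hd
  rw [eval_eq_sum_range, natDegree_scaleRoots, Finset.sum_range_succ] at hd
  have h1 : h ∣ ∑ i ∈ Finset.range Q.natDegree, (Q.scaleRoots h).coeff i * (-s) ^ i := by
    refine Finset.dvd_sum fun i hi => ?_
    rw [coeff_scaleRoots]
    have : 0 < Q.natDegree - i := Nat.sub_pos_of_lt (Finset.mem_range.mp hi)
    exact Dvd.dvd.mul_right (Dvd.dvd.mul_left (dvd_pow_self h this.ne') _) _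
  have h2 : h ∣ (Q.scaleRoots h).coeff Q.natDegree * (-s) ^ Q.natDegree :=
    (dvd_add_right h1).mp hd
  rw [coeff_scaleRoots_natDegree, hQ.leadingCoeff, one_mul] at h2
  exact hs (dvd_neg.mp (hh.dvd_of_dvd_pow h2))

variable {E₀ : Type*} [Field E₀] [Algebra R E₀]

/-- **elements `≡ 1 mod h` are units of the localised integral closure** -/
theorem LocInt.inv_of_locDvd_sub_one (hinj : Function.Injective (algebraMap R E₀)) {h : R}
    (hh : Prime h) {u : E₀} (hu : LocDvd h (u - 1)) : LocInt h u⁻¹ := by
  obtain ⟨s, c, hs, hc, hsc⟩ := hu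
  have hc' := hc
  obtain ⟨Q, hQm, hQ⟩ := hc'
  have hy : s • u = algebraMap R E₀ s + h • c := by
    rw [← hsc, smul_sub, Algebra.smul_def s 1, mul_one]
    ring
  set P := (Q.scaleRoots h).comp (X - C s) with hP
  have hPy : aeval (s • u) P = 0 := by
    rw [hP, aeval_comp, map_sub, aeval_X, aeval_C]
    have : s • u - algebraMap R E₀ s = algebraMap R E₀ h * c := by
      rw [hy, Algebra.smul_def]
      ring
    rw [this]
    exact scaleRoots_aeval_eq_zero (by rwa [aeval_def])
  set a := P.coeff 0 with ha
  have ha_eval : a = (Q.scaleRoots h).eval (-s) := by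
    rw [ha, coeff_zero_eq_eval_zero, hP, eval_comp, eval_sub, eval_X, eval_C, zero_sub]
  have hah : ¬ h ∣ a := by
    rw [ha_eval]
    exact not_dvd_eval_scaleRoots hh Q hQm hs
  have ha0 : algebraMap R E₀ a ≠ 0 :=
    (map_ne_zero_iff _ hinj).mpr (fun h0 => hah (h0 ▸ dvd_zero h))
  have hdiv : aeval (s • u) P.divX * (s • u) + algebraMap R E₀ a = 0 := by
    have := congrArg (aeval (s • u)) (divX_mul_X_add P)
    rw [map_add, map_mul, aeval_X, aeval_C, hPy] at this
    exact this
  have hu0 : u ≠ 0 := by
    rintro rfl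
    rw [smul_zero, mul_zero, zero_add] at hdiv
    exact ha0 hdiv
  have hyint : IsIntegral R (s • u) := by
    rw [hy]
    exact isIntegral_algebraMap.add (hc.smul h)
  have hTint : IsIntegral R (aeval (s • u) P.divX) :=
    (Algebra.adjoin_le (S := integralClosure R E₀) (Set.singleton_subset_iff.mpr hyint))
      (aeval_mem_adjoin_singleton R (s • u))
  refine ⟨a, hah, ?_⟩
  have h1 : a • u⁻¹ = -(s • aeval (s • u) P.divX) := by
    have h2 : algebraMap R E₀ a = -(aeval (s • u) P.divX * (s • u)) :=
      eq_neg_of_add_eq_zero_right hdiv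
    rw [Algebra.smul_def, h2, Algebra.smul_def, Algebra.smul_def]
    field_simp
  rw [h1]
  exact (hTint.smul s).neg

end Unit

end Fermat.Agent.H3.KLKum
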