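import Fermat.Agent.H3.KLKumIdem
import Fermat.Agent.H3.KLKumBasis
import Fermat.Agent.H3.KLKumUnit

/-!
# P-ES / KL-KUM (helper3): the Kummer layer, entry point

Abstract forms (language of `Fermat.Agent.H91.PurityMain`) of

* (K1) `kummer_hasGoodBasisAt`, `kummer_hasGoodBasisAt_of_locDvd` : good basis of `E₀(w)`;
* (K2) `kummer_idempotent` : nontrivial idempotent modulo `h`;
* `kummer_not_pow_of_adjoin_eq_top` : `u` is not an `r`-th power when `[E₀(w) : E₀] = r`.
-/

set_option autoImplicit false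
set_option linter.style.haveILetI false
set_option linter.unusedSectionVars false

noncomputable section

open Polynomial

namespace Fermat.Agent.H3.KLKum

section NotPow

variable {E₀ E : Type*} [Field E₀] [Field E] [Algebra E₀ E] [FiniteDimensional E₀ E]

/-- if `E = E₀(w)` has degree `r ≥ 2` and `w ^ r = u`, then `u` is not an `r`-th power in
`E₀` -/
theorem kummer_not_pow_of_adjoin_eq_top {r : ℕ} (hr : 2 ≤ r) {u : E₀} {w : E}
    (hw : w ^ r = algebraMap E₀ E u) (hadj : Algebra.adjoin E₀ ({w} : Set E) = ⊤)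
    (hdeg : Module.finrank E₀ E = r) : ∀ v : E₀, v ^ r ≠ u := by
  intro v hv
  have htop : IntermediateField.adjoin E₀ ({w} : Set E) = ⊤ :=
    IntermediateField.adjoin_eq_top_of_algebra E₀ _ hadj
  have hnat : (minpoly E₀ w).natDegree = r := by
    rw [← hdeg]
    exact (Field.primitive_element_iff_minpoly_natDegree_eq E₀ w).mp htop
  have hr0 : r ≠ 0 := by omega
  have hroot : aeval w (X ^ r - C u : E₀[X]) = 0 := by
    rw [map_sub, map_pow, aeval_X, aeval_C, hw, sub_self]
  have hdvd : minpoly E₀ w ∣ X ^ r - C u := minpoly.dvd E₀ w hroot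
  have hmon : (X ^ r - C u : E₀[X]).Monic := monic_X_pow_sub_C u hr0
  have heq : X ^ r - C u = minpoly E₀ w := by
    refine eq_of_monic_of_dvd_of_natDegree_le (minpoly.monic (IsIntegral.of_finite E₀ w)) hmon
      hdvd ?_
    rw [natDegree_X_pow_sub_C, hnat]
  have hirr : Irreducible (X ^ r - C u : E₀[X]) := by
    rw [heq]
    exact minpoly.irreducible (IsIntegral.of_finite E₀ w)
  have hrt : IsRoot (X ^ r - C u : E₀[X]) v := by
    rw [IsRoot.def, eval_sub, eval_pow, eval_X, eval_C, hv, sub_self]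
  have h1 := degree_eq_one_of_irreducible_of_root hirr hrt
  have h2 : (X ^ r - C u : E₀[X]).degree = r := degree_X_pow_sub_C (by omega) u
  rw [h2] at h1
  have : r = 1 := by exact_mod_cast h1
  omega

end NotPow

section Main

variable {R : Type*} [CommRing R] [IsDomain R] [IsIntegrallyClosed R]
variable {K : Type*} [Field K] [Algebra R K] [IsFractionRing R K]
variable {E₀ : Type*} [Field E₀] [Algebra K E₀] [Algebra R E₀] [IsScalarTower R K E₀]
  [FiniteDimensional K E₀]
variable {E : Type*} [Field E] [Algebra K E] [Algebra R E] [IsScalarTower R K E]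
  [FiniteDimensional K E]
  [Algebra E₀ E] [IsScalarTower K E₀ E] [IsScalarTower R E₀ E]

/-- **(K1), form with `u ≡ 1 mod h`.** -/
theorem kummer_hasGoodBasisAt_of_locDvd {h : R} (hh : Prime h) {r : ℕ} (hr : r.Prime)
    (hrh : ¬ h ∣ (r : R)) {u : E₀} {w : E} (hw : w ^ r = algebraMap E₀ E u)
    (hdeg : Module.finrank E₀ E = r) (hirr : ∀ v : E₀, v ^ r ≠ u)
    (hu : LocDvd h (u - 1))
    (hgb : Fermat.Agent.H91.HasGoodBasisAt R K E₀ (Ideal.span {h})) :
    Fermat.Agent.H91.HasGoodBasisAt R K E (Ideal.span {h}) := by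
  have hinj : Function.Injective (algebraMap R E₀) := by
    rw [IsScalarTower.algebraMap_eq R K E₀]
    exact (algebraMap K E₀).injective.comp (IsFractionRing.injective R K)
  have hu1 : LocInt h u := by
    have : u = (u - 1) + 1 := by ring
    rw [this]
    exact hu.locInt.add hh (LocInt.one hh)
  exact kummer_hasGoodBasisAt hh hr hrh hw hdeg hirr hu1
    (LocInt.inv_of_locDvd_sub_one hinj hh hu) hgb

/-- **(K3'), twisted form**: if `g ^ r * u` is a local unit at `h` for some `g ≠ 0`
(`r ∣ ord_q u` at all primes `q` over `h`), the Kummer extension has a good basis at `h`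
(i.e. is unramified over `h` when `E₀` is). -/
theorem kummer_hasGoodBasisAt_of_twist {h : R} (hh : Prime h) {r : ℕ} (hr : r.Prime)
    (hrh : ¬ h ∣ (r : R)) {u : E₀} {w : E} (hw : w ^ r = algebraMap E₀ E u)
    (hdeg : Module.finrank E₀ E = r) (hirr : ∀ v : E₀, v ^ r ≠ u)
    {g : E₀} (hg : g ≠ 0) (hu : LocInt h (g ^ r * u)) (hu' : LocInt h (g ^ r * u)⁻¹)
    (hgb : Fermat.Agent.H91.HasGoodBasisAt R K E₀ (Ideal.span {h})) :
    Fermat.Agent.H91.HasGoodBasisAt R K E (Ideal.span {h}) := by
  have hw' : (algebraMap E₀ E g * w) ^ r = algebraMap E₀ E (g ^ r * u) := by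
    rw [mul_pow, hw, map_mul, map_pow]
  have hirr' : ∀ v : E₀, v ^ r ≠ g ^ r * u := by
    intro v hv
    apply hirr (v / g)
    rw [div_pow, hv, mul_div_cancel_left₀ _ (pow_ne_zero r hg)]
  exact kummer_hasGoodBasisAt hh hr hrh hw' hdeg hirr' hu hu' hgb

end Main

end Fermat.Agent.H3.KLKum
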