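import Fermat.Agent.H3.KLKumBasic

/-!
# P-ES / KL-KUM (helper3): the Kummer idempotent  (K2)

`E = E₀(w)`, `w ^ r = u`, `[E : E₀] = r` prime, `r` invertible at the prime element `h`,
`u ≡ 1` modulo `h` (locally).  Then `e = r⁻¹ (1 + w + … + w^(r-1))` is a NONTRIVIAL idempotent
modulo `h` of the localisation at `h` of the integral closure of `R` in `E`:
`e` is locally integral, `e² - e ∈ h C`, `e ∉ h C`, `1 - e ∉ h C`.
-/

set_option autoImplicit false
set_option linter.style.haveILetI false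
set_option linter.unusedSectionVars false

noncomputable section

open Polynomial

namespace Fermat.Agent.H3.KLKum

/-- the Kummer idempotent `r⁻¹ (1 + w + … + w^(r-1))` -/
def kummerIdem {E : Type*} [Field E] (r : ℕ) (w : E) : E :=
  (r : E)⁻¹ * ∑ j ∈ Finset.range r, w ^ j

section Identity

variable {E : Type*} [Field E]

/-- `S - r = T (w - 1)` -/
theorem geom_sum_sub_card (r : ℕ) (w : E) :
    (∑ j ∈ Finset.range r, w ^ j) - (r : E) =
      (∑ j ∈ Finset.range r, ∑ i ∈ Finset.range j, w ^ i) * (w - 1) := by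
  rw [Finset.sum_mul]
  have : ∀ j ∈ Finset.range r, (∑ i ∈ Finset.range j, w ^ i) * (w - 1) = w ^ j - 1 :=
    fun j _ => geom_sum_mul w j
  rw [Finset.sum_congr rfl this, Finset.sum_sub_distrib]
  simp

theorem idem_identity_aux {S T w rr P : E} (h2 : S * (w - 1) = P)
    (h1 : S - rr = T * (w - 1)) :
    (rr⁻¹ * S) ^ 2 - rr⁻¹ * S = P * (rr⁻¹ ^ 2 * T) := by
  by_cases hr0 : rr = 0
  · simp [hr0]
  have h3 : S * (S - rr) = P * T := by rw [h1, ← h2]; ring
  have h4 : (rr⁻¹ * S) ^ 2 - rr⁻¹ * S = rr⁻¹ ^ 2 * (S * (S - rr)) := by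
    field_simp
  rw [h4, h3]
  ring

/-- `e² - e = (w ^ r - 1) * (r⁻² T)` -/
theorem kummerIdem_sq_sub (r : ℕ) (w : E) :
    kummerIdem r w ^ 2 - kummerIdem r w =
      (w ^ r - 1) * (((r : E)⁻¹) ^ 2 * ∑ j ∈ Finset.range r, ∑ i ∈ Finset.range j, w ^ i) :=
  idem_identity_aux (geom_sum_mul w r) (geom_sum_sub_card r w)

end Identity

section Idempotent

variable {R : Type*} [CommRing R] [IsDomain R] [IsIntegrallyClosed R]
variable (K : Type*) [Field K] [Algebra R K] [IsFractionRing R K]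
variable {E₀ : Type*} [Field E₀] [Algebra K E₀] [Algebra R E₀] [IsScalarTower R K E₀]
variable {E : Type*} [Field E] [Algebra R E] [Algebra E₀ E] [IsScalarTower R E₀ E]
  [FiniteDimensional E₀ E]
variable {h : R} {r : ℕ} {u : E₀} {w : E}

include K in
theorem natCast_ne_zero_of_not_dvd (hrh : ¬ h ∣ (r : R)) : (r : E₀) ≠ 0 := by
  have h1 : (r : R) ≠ 0 := fun h0 => hrh (h0 ▸ dvd_zero h)
  have h2 : algebraMap R E₀ (r : R) ≠ 0 := by
    rw [IsScalarTower.algebraMap_apply R K E₀]
    exact (map_ne_zero_iff _ (algebraMap K E₀).injective).mpr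
      ((map_ne_zero_iff _ (IsFractionRing.injective R K)).mpr h1)
  rwa [map_natCast] at h2

include K in
theorem locInt_natCast_inv (hrh : ¬ h ∣ (r : R)) : LocInt h ((r : E₀)⁻¹) := by
  refine ⟨(r : R), hrh, ?_⟩
  have h1 : (r : R) • ((r : E₀)⁻¹) = 1 := by
    rw [Algebra.smul_def, map_natCast, mul_inv_cancel₀ (natCast_ne_zero_of_not_dvd K hrh)]
  rw [h1]
  exact isIntegral_one

theorem kummer_locInt_w (hr : r.Prime) (hw : w ^ r = algebraMap E₀ E u) (hu : LocInt h u) :
    LocInt h w :=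
  LocInt.of_pow hr.pos (hw ▸ hu.map)

variable (E₀) in
theorem kummerIdem_eq (r : ℕ) (w : E) :
    kummerIdem r w = ∑ j ∈ Finset.range r, algebraMap E₀ E ((r : E₀)⁻¹) * w ^ j := by
  unfold kummerIdem
  rw [Finset.mul_sum, map_inv₀, map_natCast]

include K in
theorem kummer_trace_idem (hr : r.Prime) (hrh : ¬ h ∣ (r : R))
    (hw : w ^ r = algebraMap E₀ E u) (hdeg : Module.finrank E₀ E = r)
    (hirr : ∀ v : E₀, v ^ r ≠ u) : Algebra.trace E₀ E (kummerIdem r w) = 1 := by
  have hr0 := natCast_ne_zero_of_not_dvd (E₀ := E₀) K hrh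
  rw [kummerIdem_eq E₀, map_sum]
  simp only [kummer_trace_mul_pow hr hw hdeg hirr]
  rw [Finset.sum_eq_single 0]
  · rw [if_pos (dvd_zero r), Nat.zero_div, pow_zero, mul_one, mul_inv_cancel₀ hr0]
  · intro j hj hj0
    rw [if_neg]
    intro hd
    exact hj0 (Nat.eq_zero_of_dvd_of_lt hd (Finset.mem_range.mp hj))
  · intro h0
    exact absurd (Finset.mem_range.mpr hr.pos) h0

include K in
theorem kummer_trace_idem_mul (hr : r.Prime) (hrh : ¬ h ∣ (r : R))
    (hw : w ^ r = algebraMap E₀ E u) (hdeg : Module.finrank E₀ E = r)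
    (hirr : ∀ v : E₀, v ^ r ≠ u) :
    Algebra.trace E₀ E ((1 - kummerIdem r w) * w ^ (r - 1)) = -u := by
  have hr0 := natCast_ne_zero_of_not_dvd (E₀ := E₀) K hrh
  have h2 := hr.two_le
  rw [sub_mul, one_mul, map_sub,
    kummer_trace_pow_eq_zero hr hw hirr (fun hd => by
      have := Nat.le_of_dvd (by omega) hd; omega),
    kummerIdem_eq E₀, Finset.sum_mul, map_sum, zero_sub]
  congr 1
  have h3 : ∀ j ∈ Finset.range r,
      Algebra.trace E₀ E (algebraMap E₀ E ((r : E₀)⁻¹) * w ^ j * w ^ (r - 1)) =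
        if r ∣ j + (r - 1) then (r : E₀) * ((r : E₀)⁻¹ * u ^ ((j + (r - 1)) / r)) else 0 := by
    intro j _
    rw [mul_assoc, ← pow_add]
    exact kummer_trace_mul_pow hr hw hdeg hirr _ _
  rw [Finset.sum_congr rfl h3, Finset.sum_eq_single 1]
  · have h4 : 1 + (r - 1) = r := by omega
    rw [h4, if_pos dvd_rfl, Nat.div_self hr.pos, pow_one, ← mul_assoc, mul_inv_cancel₀ hr0,
      one_mul]
  · intro j hj hj1
    rw [if_neg]
    intro hd
    have hjr := Finset.mem_range.mp hj
    obtain ⟨q, hq⟩ := hd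
    have hq1 : q = 1 := by
      have h5 : r * q < r * 2 := by omega
      have h6 : q < 2 := Nat.lt_of_mul_lt_mul_left h5
      have h7 : q ≠ 0 := by
        rintro rfl
        omega
      omega
    subst hq1
    omega
  · intro h0
    exact absurd (Finset.mem_range.mpr (by omega)) h0

include K in
/-- **(K2) The Kummer idempotent is a nontrivial idempotent modulo `h`.** -/
theorem kummer_idempotent (hh : Prime h) (hr : r.Prime) (hrh : ¬ h ∣ (r : R))
    (hw : w ^ r = algebraMap E₀ E u) (hdeg : Module.finrank E₀ E = r)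
    (hirr : ∀ v : E₀, v ^ r ≠ u) (hu : LocDvd h (u - 1)) :
    LocInt h (kummerIdem r w) ∧ LocDvd h (kummerIdem r w ^ 2 - kummerIdem r w) ∧
      ¬ LocDvd h (kummerIdem r w) ∧ ¬ LocDvd h (1 - kummerIdem r w) := by
  have hu' : LocInt h u := by
    have : u = (u - 1) + 1 := by ring
    rw [this]
    exact hu.locInt.add hh (LocInt.one hh)
  have hwI : LocInt h w := kummer_locInt_w hr hw hu'
  have hrinv : LocInt h ((r : E)⁻¹) := by
    have := (locInt_natCast_inv (E₀ := E₀) K hrh).map (E := E)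
    rwa [map_inv₀, map_natCast] at this
  refine ⟨?_, ?_, ?_, ?_⟩
  · exact hrinv.mul hh (LocInt.sum hh _ _ fun j _ => hwI.pow hh j)
  · rw [kummerIdem_sq_sub, hw]
    have h1 : (algebraMap E₀ E u - 1 : E) = algebraMap E₀ E (u - 1) := by
      rw [map_sub, map_one]
    rw [h1]
    refine (hu.map (E := E)).mul_locInt hh ((hrinv.pow hh 2).mul hh ?_)
    exact LocInt.sum hh _ _ fun j _ => LocInt.sum hh _ _ fun i _ => hwI.pow hh i
  · intro hd
    have := hd.trace (E₀ := E₀)
    rw [kummer_trace_idem K hr hrh hw hdeg hirr] at this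
    exact not_locDvd_one K hh this
  · intro hd
    have h1 := (hd.mul_locInt hh (hwI.pow hh (r - 1))).trace (E₀ := E₀)
    rw [kummer_trace_idem_mul K hr hrh hw hdeg hirr] at h1
    have h2 : LocDvd h (1 : E₀) := by
      have : (1 : E₀) = -(u - 1) - (-u) := by ring
      rw [this]
      exact hu.neg.sub hh h1
    exact not_locDvd_one K hh h2

end Idempotent

end Fermat.Agent.H3.KLKum
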