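import Mathlib

/-!
# Kummer's lemma, part 1: the `π`-adic level calculus (helper3)

`K = ℚ(ζ_p)`, `π = ζ - 1`.  For a unit (or any element) `x` of `𝓞 K` we write
`Lev hζ d x c` if `x ≡ n * (1 + c * π ^ d) mod π ^ (d + 1)` for some integer `n`.
-/

set_option autoImplicit false
set_option linter.unusedSectionVars false
set_option linter.unusedVariables false

namespace Fermat.Agent.H3

open NumberField

section Lev

variable {p : ℕ} [hp : Fact p.Prime] {K : Type*} [Field K] [NumberField K]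
  [hK : IsCyclotomicExtension {p} ℚ K] {ζ : K} (hζ : IsPrimitiveRoot ζ p)

/-- `x` is congruent to a rational integer modulo `π ^ d`. -/
def IntMod (d : ℕ) (x : 𝓞 K) : Prop :=
  ∃ n : ℤ, (hζ.toInteger - 1) ^ d ∣ x - (n : 𝓞 K)

/-- `x ≡ n * (1 + c * π ^ d) mod π ^ (d + 1)` for some integer `n`. -/
def Lev (d : ℕ) (x : 𝓞 K) (c : ℤ) : Prop :=
  ∃ n : ℤ, (hζ.toInteger - 1) ^ (d + 1) ∣
    x - (n : 𝓞 K) * (1 + (c : 𝓞 K) * (hζ.toInteger - 1) ^ d)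

lemma IntMod.mono {d e : ℕ} (hde : d ≤ e) {x : 𝓞 K} (h : IntMod hζ e x) : IntMod hζ d x := by
  obtain ⟨n, hn⟩ := h
  exact ⟨n, (pow_dvd_pow _ hde).trans hn⟩

lemma Lev.intMod {d : ℕ} {x : 𝓞 K} {c : ℤ} (h : Lev hζ d x c) : IntMod hζ d x := by
  obtain ⟨n, s, hs⟩ := h
  refine ⟨n, ⟨(hζ.toInteger - 1) * s + n * c, ?_⟩⟩
  linear_combination hs

lemma Lev.of_intMod {d : ℕ} {x : 𝓞 K} (h : IntMod hζ (d + 1) x) : Lev hζ d x 0 := by
  obtain ⟨n, hn⟩ := h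
  refine ⟨n, ?_⟩
  simpa using hn

lemma Lev.one (d : ℕ) : Lev hζ d (1 : 𝓞 K) 0 :=
  ⟨1, by simp⟩

lemma Lev.mul {d : ℕ} (hd : 1 ≤ d) {x y : 𝓞 K} {c c' : ℤ}
    (hx : Lev hζ d x c) (hy : Lev hζ d y c') : Lev hζ d (x * y) (c + c') := by
  obtain ⟨n, s, hs⟩ := hx
  obtain ⟨m, t, ht⟩ := hy
  obtain ⟨e, rfl⟩ : ∃ e, d = e + 1 := ⟨d - 1, by omega⟩
  refine ⟨n * m, ⟨s * y + n * (1 + c * (hζ.toInteger - 1) ^ (e + 1)) * t +
    n * m * c * c' * (hζ.toInteger - 1) ^ e, ?_⟩⟩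
  push_cast
  linear_combination y * hs + n * (1 + c * (hζ.toInteger - 1) ^ (e + 1)) * ht

lemma Lev.pow {d : ℕ} (hd : 1 ≤ d) {x : 𝓞 K} {c : ℤ} (hx : Lev hζ d x c) (k : ℕ) :
    Lev hζ d (x ^ k) (k * c) := by
  induction k with
  | zero => simpa using Lev.one hζ d
  | succ k ih =>
    have := Lev.mul hζ hd ih hx
    rw [pow_succ]
    convert this using 1
    push_cast; ring

lemma Lev.prod {d : ℕ} (hd : 1 ≤ d) {ι : Type*} (s : Finset ι) (f : ι → 𝓞 K) (c : ι → ℤ)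
    (h : ∀ i ∈ s, Lev hζ d (f i) (c i)) : Lev hζ d (∏ i ∈ s, f i) (∑ i ∈ s, c i) := by
  classical
  induction s using Finset.induction_on with
  | empty => simpa using Lev.one hζ d
  | insert a s ha ih =>
    rw [Finset.prod_insert ha, Finset.sum_insert ha]
    exact Lev.mul hζ hd (h a (Finset.mem_insert_self a s))
      (ih fun i hi => h i (Finset.mem_insert_of_mem hi))

/-- `π ^ (p - 1)` divides `p`. -/
lemma pi_pow_dvd_p : (hζ.toInteger - 1) ^ (p - 1) ∣ (p : 𝓞 K) :=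
  (IsCyclotomicExtension.Rat.associated_zeta_sub_one_pow_prime p hζ).dvd

/-- `p` divides `π ^ (p - 1)`. -/
lemma p_dvd_pi_pow : (p : 𝓞 K) ∣ (hζ.toInteger - 1) ^ (p - 1) :=
  (IsCyclotomicExtension.Rat.associated_zeta_sub_one_pow_prime p hζ).symm.dvd

lemma intMod_iff_p_dvd {x : 𝓞 K} :
    IntMod hζ (p - 1) x ↔ ∃ n : ℤ, (p : 𝓞 K) ∣ x - (n : 𝓞 K) := by
  constructor
  · rintro ⟨n, hn⟩
    exact ⟨n, (p_dvd_pi_pow hζ).trans hn⟩
  · rintro ⟨n, hn⟩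
    exact ⟨n, (pi_pow_dvd_p hζ).trans hn⟩

/-- If `x ≡ n mod π` with `x` not divisible by `π`, then `p ∤ n`. -/
lemma not_dvd_of_lev {d : ℕ} {x : 𝓞 K} (hx : ¬ (hζ.toInteger - 1) ∣ x) {n : ℤ}
    (h : (hζ.toInteger - 1) ∣ x - (n : 𝓞 K)) : ¬ (p : ℤ) ∣ n := by
  intro hpn
  have h1 : (hζ.toInteger - 1) ∣ (n : 𝓞 K) :=
    (IsCyclotomicExtension.Rat.zeta_sub_one_dvd_intCast_iff' p hζ).2 hpn
  apply hx
  have := dvd_add h h1
  simpa using this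

/-- Uniqueness of the level-`d` coefficient modulo `p`. -/
lemma Lev.unique {d : ℕ} (hd : 1 ≤ d) (hd' : d + 1 ≤ p - 1) {x : 𝓞 K}
    (hx : ¬ (hζ.toInteger - 1) ∣ x) {c c' : ℤ}
    (h : Lev hζ d x c) (h' : Lev hζ d x c') : (p : ℤ) ∣ c - c' := by
  obtain ⟨n, s, hs⟩ := h
  obtain ⟨m, t, ht⟩ := h'
  obtain ⟨e, rfl⟩ : ∃ e, d = e + 1 := ⟨d - 1, by omega⟩
  set π := hζ.toInteger - 1 with hπ
  have hπprime : Prime π := hζ.zeta_sub_one_prime'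
  have hπ0 : π ≠ 0 := hπprime.ne_zero
  -- `π ∣ x - n`
  have hxn : π ∣ x - (n : 𝓞 K) :=
    ⟨π ^ (e + 1) * s + n * c * π ^ e, by linear_combination hs⟩
  have hpn : ¬ (p : ℤ) ∣ n := not_dvd_of_lev (d := 0) hζ hx hxn
  -- `π ∣ n - m`
  have hnm : π ∣ ((n - m : ℤ) : 𝓞 K) := by
    refine ⟨π ^ (e + 1) * (t - s) + m * c' * π ^ e - n * c * π ^ e, ?_⟩
    push_cast
    linear_combination ht - hs
  have hpnm : (p : ℤ) ∣ n - m :=
    (IsCyclotomicExtension.Rat.zeta_sub_one_dvd_intCast_iff' p hζ).1 hnm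
  -- hence `π ^ (e + 2) ∣ n - m`
  have hbig : π ^ (e + 1 + 1) ∣ ((n - m : ℤ) : 𝓞 K) := by
    have h1 : (p : 𝓞 K) ∣ ((n - m : ℤ) : 𝓞 K) := by
      obtain ⟨k, hk⟩ := hpnm
      exact ⟨(k : 𝓞 K), by rw [hk]; push_cast; ring⟩
    exact ((pow_dvd_pow π hd').trans (pi_pow_dvd_p hζ)).trans h1
  obtain ⟨w, hw⟩ := hbig
  -- `π ^ (e+2) ∣ (n * c - m * c') * π ^ (e + 1)`
  have key : π ^ (e + 1) * (π * (t - s - w)) = π ^ (e + 1) * ((n * c - m * c' : ℤ) : 𝓞 K) := by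
    push_cast at hw ⊢
    linear_combination hs - ht + hw
  have key' : π * (t - s - w) = ((n * c - m * c' : ℤ) : 𝓞 K) :=
    mul_left_cancel₀ (pow_ne_zero _ hπ0) key
  have h2 : (p : ℤ) ∣ n * c - m * c' :=
    (IsCyclotomicExtension.Rat.zeta_sub_one_dvd_intCast_iff' p hζ).1 ⟨_, key'.symm⟩
  have h3 : (p : ℤ) ∣ n * (c - c') := by
    have : n * (c - c') = (n * c - m * c') - (n - m) * c' := by ring
    rw [this]
    exact dvd_sub h2 (Dvd.dvd.mul_right hpnm _)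
  have hpp : Prime (p : ℤ) := Nat.prime_iff_prime_int.mp hp.out
  exact (hpp.dvd_or_dvd h3).resolve_left hpn

end Lev

end Fermat.Agent.H3
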