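import Mathlib
import Fermat.Agent.H3.KummerLev

/-!
# Kummer's lemma, part 2: independence of a chain of certificates, Dirichlet count,
and the counting argument (helper3)
-/

set_option autoImplicit false
set_option linter.unusedSectionVars false
set_option linter.unusedVariables false

namespace Fermat.Agent.H3

open NumberField

section Count

variable {p : ℕ} [hp : Fact p.Prime] {K : Type*} [Field K] [NumberField K]
  [hK : IsCyclotomicExtension {p} ℚ K] {ζ : K} (hζ : IsPrimitiveRoot ζ p)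

/-- The set `H` of elements congruent to a rational integer modulo `p`. -/
def IntModP (x : 𝓞 K) : Prop := ∃ n : ℤ, (p : 𝓞 K) ∣ x - (n : 𝓞 K)

lemma IntModP.mul {x y : 𝓞 K} (hx : IntModP (p := p) x) (hy : IntModP (p := p) y) :
    IntModP (p := p) (x * y) := by
  obtain ⟨n, s, hs⟩ := hx
  obtain ⟨m, t, ht⟩ := hy
  refine ⟨n * m, ⟨s * y + n * t, ?_⟩⟩
  push_cast
  linear_combination y * hs + n * ht

lemma IntModP.one : IntModP (p := p) (1 : 𝓞 K) := ⟨1, by simp⟩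

include hζ in
/-- `p`-th powers are congruent to rational integers modulo `p`. -/
lemma intModP_pow (x : 𝓞 K) : IntModP (p := p) (x ^ p) := by
  have hx : x ∈ Algebra.adjoin ℤ {hζ.toInteger} := by
    rw [IsCyclotomicExtension.Rat.adjoin_singleton_eq_top hζ]; trivial
  induction hx using Algebra.adjoin_induction with
  | mem y hy =>
    rw [Set.mem_singleton_iff] at hy
    subst hy
    refine ⟨1, ?_⟩
    have : hζ.toInteger ^ p = 1 := hζ.toInteger_isPrimitiveRoot.pow_eq_one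
    rw [this]; simp
  | algebraMap r =>
    refine ⟨r ^ p, ?_⟩
    simp
  | add y z _ _ hy hz =>
    obtain ⟨n, s, hs⟩ := hy
    obtain ⟨m, t, ht⟩ := hz
    obtain ⟨r, hr⟩ := exists_add_pow_prime_eq hp.out y z
    refine ⟨n + m, ⟨s + t + y * z * r, ?_⟩⟩
    push_cast
    linear_combination hr + hs + ht
  | mul y z _ _ hy hz =>
    rw [mul_pow]
    exact hy.mul hz

lemma IntModP.intMod {x : 𝓞 K} (hx : IntModP (p := p) x) {d : ℕ} (hd : d ≤ p - 1) :
    IntMod hζ d x :=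
  ((intMod_iff_p_dvd hζ).2 hx).mono hζ hd

/-- Units are not divisible by `π`. -/
lemma not_pi_dvd_unit (u : (𝓞 K)ˣ) : ¬ (hζ.toInteger - 1) ∣ (u : 𝓞 K) := fun h =>
  hζ.zeta_sub_one_prime'.not_isUnit (isUnit_of_dvd_unit h u.isUnit)

/-- **Independence of a chain of certificates.** -/
theorem chain_indep (m : ℕ) : ∀ (h : Fin m → (𝓞 K)ˣ) (d : Fin m → ℕ) (c : Fin m → ℤ)
    (_hd : StrictMono d) (_hd1 : ∀ i, 1 ≤ d i) (_hdp : ∀ i, d i + 1 ≤ p - 1)
    (_hlev : ∀ i, Lev hζ (d i) (h i : 𝓞 K) (c i)) (_hc : ∀ i, ¬ (p : ℤ) ∣ c i)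
    (a a' : Fin m → Fin p) (w : (𝓞 K)ˣ) (_hw : IntModP (p := p) (w : 𝓞 K))
    (_heq : ∏ i, h i ^ (a i : ℕ) = (∏ i, h i ^ (a' i : ℕ)) * w), a = a' := by
  induction m with
  | zero => intro h d c _ _ _ _ _ a a' w _ _; exact Subsingleton.elim _ _
  | succ m ih =>
    intro h d c hd hd1 hdp hlev hc a a' w hw heq
    rw [Fin.prod_univ_succ, Fin.prod_univ_succ] at heq
    -- the tails
    set A : (𝓞 K)ˣ := ∏ i : Fin m, h i.succ ^ (a i.succ : ℕ) with hA
    set A' : (𝓞 K)ˣ := ∏ i : Fin m, h i.succ ^ (a' i.succ : ℕ) with hA'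
    have hd0 : 1 ≤ d 0 := hd1 0
    -- every element of the tail is an integer mod `π ^ (d 0 + 1)`
    have htail : ∀ (b : Fin m → Fin p),
        Lev hζ (d 0) ((∏ i : Fin m, h i.succ ^ (b i : ℕ) : (𝓞 K)ˣ) : 𝓞 K) 0 := by
      intro b
      have h1 : ∀ i ∈ (Finset.univ : Finset (Fin m)),
          Lev hζ (d 0) (((h i.succ : 𝓞 K)) ^ (b i : ℕ)) (((b i : ℕ) : ℤ) * 0) := by
        intro i _
        refine Lev.pow hζ hd0 ?_ _
        refine Lev.of_intMod hζ ?_
        have hlt : d 0 < d i.succ := hd (Fin.succ_pos i)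
        exact ((hlev i.succ).intMod hζ).mono hζ hlt
      have h2 := Lev.prod hζ hd0 Finset.univ _ _ h1
      simp only [mul_zero, Finset.sum_const_zero] at h2
      simpa [Units.coe_prod] using h2
    have hw0 : Lev hζ (d 0) (w : 𝓞 K) 0 :=
      Lev.of_intMod hζ (hw.intMod hζ (hdp 0))
    have hL : Lev hζ (d 0) ((h 0 ^ (a 0 : ℕ) * A : (𝓞 K)ˣ) : 𝓞 K) (((a 0 : ℕ) : ℤ) * c 0 + 0) := by
      have := Lev.mul hζ hd0 (Lev.pow hζ hd0 (hlev 0) (a 0 : ℕ)) (htail fun i => a i.succ)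
      rw [Units.val_mul, Units.val_pow_eq_pow_val]
      exact this
    have hR : Lev hζ (d 0) ((h 0 ^ (a' 0 : ℕ) * A' * w : (𝓞 K)ˣ) : 𝓞 K)
        (((a' 0 : ℕ) : ℤ) * c 0 + 0 + 0) := by
      have := Lev.mul hζ hd0 (Lev.mul hζ hd0 (Lev.pow hζ hd0 (hlev 0) (a' 0 : ℕ))
        (htail fun i => a' i.succ)) hw0
      rw [Units.val_mul, Units.val_mul, Units.val_pow_eq_pow_val]
      exact this
    rw [heq] at hL
    have hdvd := Lev.unique hζ hd0 (hdp 0) (not_pi_dvd_unit hζ _) hL hR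
    have hdvd' : (p : ℤ) ∣ (((a 0 : ℕ) : ℤ) - ((a' 0 : ℕ) : ℤ)) * c 0 := by
      convert hdvd using 1; ring
    have hpp : Prime (p : ℤ) := Nat.prime_iff_prime_int.mp hp.out
    have h0 : (p : ℤ) ∣ ((a 0 : ℕ) : ℤ) - ((a' 0 : ℕ) : ℤ) :=
      (hpp.dvd_or_dvd hdvd').resolve_right (hc 0)
    have ha0 : a 0 = a' 0 := by
      have h1 := (a 0).isLt
      have h2 := (a' 0).isLt
      apply Fin.ext
      obtain ⟨k, hk⟩ := h0
      have : k = 0 := by
        by_contra hk0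
        rcases lt_or_gt_of_ne hk0 with hneg | hpos
        · have : (p : ℤ) * k ≤ -(p : ℤ) := by nlinarith
          omega
        · have : (p : ℤ) ≤ (p : ℤ) * k := by nlinarith
          omega
      subst this
      omega
    -- cancel the head
    rw [ha0, mul_assoc] at heq
    have heq' : A = A' * w := mul_left_cancel heq
    have htl := ih (fun i => h i.succ) (fun i => d i.succ) (fun i => c i.succ)
      (fun i j hij => hd (Fin.succ_lt_succ_iff.mpr hij)) (fun i => hd1 _) (fun i => hdp _)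
      (fun i => hlev _) (fun i => hc _) (fun i => a i.succ) (fun i => a' i.succ) w hw heq'
    funext i
    refine Fin.cases ha0 (fun j => ?_) i
    exact congrFun htl j

/-- **Dirichlet's unit theorem**, in the form: modulo `p`-th powers the unit group is covered
by `p ^ (rank K + 1)` elements. -/
theorem exists_cover_mod_pow (q : ℕ) (hq : 0 < q) :
    ∃ f : (Fin (Units.rank K + 1) → Fin q) → (𝓞 K)ˣ,
      ∀ u : (𝓞 K)ˣ, ∃ b v, u = f b * v ^ q := by
  obtain ⟨t, ht⟩ := IsCyclic.exists_zpow_surjective (G := Units.torsion K)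
  refine ⟨fun b => (t : (𝓞 K)ˣ) ^ (b 0 : ℕ) *
    ∏ i : Fin (Units.rank K), Units.fundSystem K i ^ (b i.succ : ℕ), fun u => ?_⟩
  obtain ⟨⟨ζ', e⟩, hu, -⟩ := Units.exist_unique_eq_mul_prod K u
  obtain ⟨k, hk⟩ := ht ζ'
  have hq' : (q : ℤ) ≠ 0 := by exact_mod_cast hq.ne'
  have hmod : ∀ z : ℤ, (z % q).toNat < q := fun z => by
    have h1 := Int.emod_nonneg z hq'
    have h2 := Int.emod_lt_of_pos z (by exact_mod_cast hq : (0 : ℤ) < q)
    omega
  have hsplit : ∀ (x : (𝓞 K)ˣ) (z : ℤ), x ^ z = x ^ ((z % q).toNat) * (x ^ (z / q)) ^ q := by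
    intro x z
    have h1 := Int.emod_nonneg z hq'
    rw [← zpow_natCast x ((z % q).toNat), Int.toNat_of_nonneg h1, ← zpow_natCast (x ^ (z / q)) q,
      ← zpow_mul, ← zpow_add, mul_comm ((z / q)) (q : ℤ)]
    congr 1
    exact (Int.emod_add_mul_ediv z q).symm
  refine ⟨Fin.cons ⟨(k % q).toNat, hmod k⟩ (fun i => ⟨(e i % q).toNat, hmod (e i)⟩),
    (t : (𝓞 K)ˣ) ^ (k / q) * ∏ i : Fin (Units.rank K), Units.fundSystem K i ^ (e i / q), ?_⟩
  simp only [Fin.cons_zero, Fin.cons_succ] at *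
  rw [hu]
  have hζ' : (ζ' : (𝓞 K)ˣ) = (t : (𝓞 K)ˣ) ^ k := by
    rw [← hk]; simp
  have : ∏ i, Units.fundSystem K i ^ e i =
      (∏ i, Units.fundSystem K i ^ ((e i % q).toNat)) *
        ∏ i, (Units.fundSystem K i ^ (e i / q)) ^ q := by
    rw [← Finset.prod_mul_distrib]
    exact Finset.prod_congr rfl fun i _ => hsplit _ _
  rw [hζ', hsplit (t : (𝓞 K)ˣ) k, this, mul_pow, ← Finset.prod_pow]
  exact mul_mul_mul_comm _ _ _ _

lemma aux_cancel_comm {G : Type*} [CommGroup G] (f x x' : G) :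
    f * x' * (x * x'⁻¹) = f * x := by
  rw [mul_assoc, mul_left_comm x' x, mul_inv_cancel, mul_one]

include hζ in
/-- **The counting argument.**  If `g : S → E` is injective modulo `H` and `f : S → E` covers
`E` modulo `p`-th powers, then every element of `H` is a `p`-th power. -/
theorem pow_of_intModP_of_count {S : Type*} [Finite S] (g f : S → (𝓞 K)ˣ) (a₀ : S)
    (hg₀ : g a₀ = 1)
    (hg : ∀ a a' (w : (𝓞 K)ˣ), IntModP (p := p) (w : 𝓞 K) → g a = g a' * w → a = a')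
    (hf : ∀ u : (𝓞 K)ˣ, ∃ b v, u = f b * v ^ p)
    (u : (𝓞 K)ˣ) (hu : IntModP (p := p) (u : 𝓞 K)) : ∃ v : (𝓞 K)ˣ, u = v ^ p := by
  have hpowH : ∀ v : (𝓞 K)ˣ, IntModP (p := p) ((v ^ p : (𝓞 K)ˣ) : 𝓞 K) := fun v => by
    rw [Units.val_pow_eq_pow_val]
    exact intModP_pow hζ (v : 𝓞 K)
  choose b v hbv using fun a => hf (g a)
  have hinj : Function.Injective b := by
    intro a a' hab
    refine hg a a' ((v a * (v a')⁻¹) ^ p) (hpowH _) ?_
    rw [hbv a, hbv a', hab, mul_pow, inv_pow, aux_cancel_comm]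
  have hsurj : Function.Surjective b := Finite.surjective_of_injective hinj
  obtain ⟨b₀, v₀, hu₀⟩ := hf u
  obtain ⟨a, ha⟩ := hsurj b₀
  -- `g a = u * (v a / v₀) ^ p`
  have h1 : g a = g a₀ * (u * (v a * v₀⁻¹) ^ p) := by
    rw [hg₀, one_mul, hbv a, ha, hu₀, mul_pow, inv_pow, aux_cancel_comm]
  have h2 : IntModP (p := p) ((u * (v a * v₀⁻¹) ^ p : (𝓞 K)ˣ) : 𝓞 K) := by
    rw [Units.val_mul]
    exact hu.mul (hpowH _)
  have h3 := hg a a₀ _ h2 h1
  subst h3
  rw [hg₀, one_mul] at h1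
  refine ⟨v₀ * (v a)⁻¹, ?_⟩
  have h5 : u = ((v a * v₀⁻¹) ^ p)⁻¹ := eq_inv_of_mul_eq_one_left h1.symm
  rw [h5, ← inv_pow, mul_inv_rev, inv_inv]

end Count

end Fermat.Agent.H3
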