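import Mathlib
import Fermat.Agent.H3.KummerCount

/-!
# Kummer's lemma from a chain of certificates (helper3)

If `K = ℚ(ζ_p)`, `p` an odd prime, and there are `(p - 1) / 2` units `h i` with
`h i ≡ n i * (1 + c i * π ^ (d i)) mod π ^ (d i + 1)`, `p ∤ c i`, at strictly increasing levels
`1 ≤ d i ≤ p - 2`, then every unit congruent to a rational integer modulo `p` is a `p`-th
power.
-/

set_option autoImplicit false
set_option linter.unusedSectionVars false
set_option linter.unusedVariables false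

namespace Fermat.Agent.H3

open NumberField

section Main

variable {p : ℕ} [hp : Fact p.Prime] {K : Type*} [Field K] [NumberField K]
  [hK : IsCyclotomicExtension {p} ℚ K] {ζ : K} (hζ : IsPrimitiveRoot ζ p)

include hK in
/-- The unit rank of `ℚ(ζ_p)` plus one is `(p - 1) / 2`. -/
lemma rank_add_one_eq (hp3 : 3 ≤ p) : Units.rank K + 1 = (p - 1) / 2 := by
  have h2 : 2 < p := hp3
  have h1 : Fintype.card (InfinitePlace K) = (p - 1) / 2 := by
    rw [InfinitePlace.card_eq_nrRealPlaces_add_nrComplexPlaces,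
      IsCyclotomicExtension.Rat.nrRealPlaces_eq_zero (n := p) K h2,
      IsCyclotomicExtension.Rat.nrComplexPlaces_eq_totient_div_two p K,
      Nat.totient_prime hp.out, zero_add]
  rw [Units.rank, h1]
  have : 1 ≤ (p - 1) / 2 := by omega
  omega

/-- **Kummer's lemma from a chain of certificates.** -/
theorem kummer_of_chain (hp3 : 3 ≤ p) {m : ℕ} (hm : m = (p - 1) / 2)
    (h : Fin m → (𝓞 K)ˣ) (d : Fin m → ℕ) (c : Fin m → ℤ)
    (hd : StrictMono d) (hd1 : ∀ i, 1 ≤ d i) (hdp : ∀ i, d i + 1 ≤ p - 1)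
    (hlev : ∀ i, Lev hζ (d i) (h i : 𝓞 K) (c i)) (hc : ∀ i, ¬ (p : ℤ) ∣ c i)
    (u : (𝓞 K)ˣ) (n : ℤ) (hu : (p : 𝓞 K) ∣ (u : 𝓞 K) - n) :
    ∃ v : (𝓞 K)ˣ, u = v ^ p := by
  have hpos : 0 < p := hp.out.pos
  obtain ⟨f, hf⟩ := exists_cover_mod_pow (K := K) p hpos
  have hrank : Units.rank K + 1 = m := by rw [hm]; exact rank_add_one_eq (K := K) hp3
  subst hrank
  refine pow_of_intModP_of_count hζ (S := Fin (Units.rank K + 1) → Fin p)
    (fun a => ∏ i, h i ^ (a i : ℕ)) f (fun _ => ⟨0, hpos⟩) (by simp) ?_ hf u ⟨n, hu⟩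
  intro a a' w hw heq
  exact chain_indep hζ _ h d c hd hd1 hdp hlev hc a a' w hw heq

end Main

end Fermat.Agent.H3
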