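import Mathlib
import Fermat.Agent.H3.KummerMain

/-!
# Basic tools for the explicit certificates in Kummer's lemma (helper3)
-/

set_option autoImplicit false
set_option linter.unusedSectionVars false
set_option linter.unusedVariables false

namespace Fermat.Agent.H3

open NumberField

section Generic

variable {R : Type*} [CommRing R]

lemma dvd_step {m q A u r r' s t : R} {k : ℕ} (hq : m ∣ q)
    (hx : m ∣ A * u ^ k - r) (hid : r * u = r' + m * s + q * t) :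
    m ∣ A * u ^ (k + 1) - r' := by
  obtain ⟨a, ha⟩ := hx
  obtain ⟨b, hb⟩ := hq
  refine ⟨a * u + s + b * t, ?_⟩
  rw [hb] at hid
  linear_combination u * ha + hid

lemma dvd_final {m q x r r' t : R} (hq : m ∣ q) (hx : m ∣ x - r) (hid : r = r' + q * t) :
    m ∣ x - r' := by
  obtain ⟨a, ha⟩ := hx
  obtain ⟨b, hb⟩ := hq
  refine ⟨a + b * t, ?_⟩
  rw [hb] at hid
  linear_combination ha + hid

lemma geom_two (z : R) : ∑ i ∈ Finset.range 2, z ^ i = 2 + 1 * (z - 1) := by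
  simp [Finset.sum_range_succ]; ring

lemma geom_three (z : R) : ∑ i ∈ Finset.range 3, z ^ i = 3 + 3 * (z - 1) + 1 * (z - 1) ^ 2 := by
  simp [Finset.sum_range_succ]; ring

lemma geom_four (z : R) :
    ∑ i ∈ Finset.range 4, z ^ i = 4 + 6 * (z - 1) + 4 * (z - 1) ^ 2 + 1 * (z - 1) ^ 3 := by
  simp [Finset.sum_range_succ]; ring

lemma geom_five (z : R) :
    ∑ i ∈ Finset.range 5, z ^ i =
      5 + 10 * (z - 1) + 10 * (z - 1) ^ 2 + 5 * (z - 1) ^ 3 + 1 * (z - 1) ^ 4 := by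
  simp [Finset.sum_range_succ]; ring

lemma geom_six (z : R) :
    ∑ i ∈ Finset.range 6, z ^ i =
      6 + 15 * (z - 1) + 20 * (z - 1) ^ 2 + 15 * (z - 1) ^ 3 + 6 * (z - 1) ^ 4
        + 1 * (z - 1) ^ 5 := by
  simp [Finset.sum_range_succ]; ring

end Generic

section Units

variable {p : ℕ} [hp : Fact p.Prime] {K : Type*} [Field K] [NumberField K]
  [hK : IsCyclotomicExtension {p} ℚ K] {ζ : K} (hζ : IsPrimitiveRoot ζ p)

/-- `ζ` as a unit of `𝓞 K`. -/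
noncomputable def zetaUnit : (𝓞 K)ˣ :=
  (hζ.toInteger_isPrimitiveRoot.isUnit hp.out.ne_zero).unit

lemma val_zetaUnit : (zetaUnit hζ : 𝓞 K) = hζ.toInteger := rfl

lemma val_zetaUnit_eq : (zetaUnit hζ : 𝓞 K) = 1 + 1 * (hζ.toInteger - 1) := by
  rw [val_zetaUnit]; ring

/-- The cyclotomic unit `1 + ζ + ⋯ + ζ ^ (a - 1)`. -/
noncomputable def cycUnit (a : ℕ) (h2 : 2 ≤ p) (ha : a.Coprime p) : (𝓞 K)ˣ :=
  (hζ.toInteger_isPrimitiveRoot.geom_sum_isUnit h2 ha).unit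

lemma val_cycUnit (a : ℕ) (h2 : 2 ≤ p) (ha : a.Coprime p) :
    (cycUnit hζ a h2 ha : 𝓞 K) = ∑ i ∈ Finset.range a, hζ.toInteger ^ i := rfl

lemma val_cycUnit_2 (h2 : 2 ≤ p) (ha : (2 : ℕ).Coprime p) :
    (cycUnit hζ 2 h2 ha : 𝓞 K) = 2 + 1 * (hζ.toInteger - 1) := by
  rw [val_cycUnit, geom_two]

lemma val_cycUnit_3 (h2 : 2 ≤ p) (ha : (3 : ℕ).Coprime p) :
    (cycUnit hζ 3 h2 ha : 𝓞 K) = 3 + 3 * (hζ.toInteger - 1) + 1 * (hζ.toInteger - 1) ^ 2 := by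
  rw [val_cycUnit, geom_three]

lemma val_cycUnit_4 (h2 : 2 ≤ p) (ha : (4 : ℕ).Coprime p) :
    (cycUnit hζ 4 h2 ha : 𝓞 K) =
      4 + 6 * (hζ.toInteger - 1) + 4 * (hζ.toInteger - 1) ^ 2 + 1 * (hζ.toInteger - 1) ^ 3 := by
  rw [val_cycUnit, geom_four]

lemma val_cycUnit_5 (h2 : 2 ≤ p) (ha : (5 : ℕ).Coprime p) :
    (cycUnit hζ 5 h2 ha : 𝓞 K) =
      5 + 10 * (hζ.toInteger - 1) + 10 * (hζ.toInteger - 1) ^ 2 + 5 * (hζ.toInteger - 1) ^ 3
        + 1 * (hζ.toInteger - 1) ^ 4 := by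
  rw [val_cycUnit, geom_five]

lemma val_cycUnit_6 (h2 : 2 ≤ p) (ha : (6 : ℕ).Coprime p) :
    (cycUnit hζ 6 h2 ha : 𝓞 K) =
      6 + 15 * (hζ.toInteger - 1) + 20 * (hζ.toInteger - 1) ^ 2 + 15 * (hζ.toInteger - 1) ^ 3
        + 6 * (hζ.toInteger - 1) ^ 4 + 1 * (hζ.toInteger - 1) ^ 5 := by
  rw [val_cycUnit, geom_six]

/-- The level-one certificate: `ζ = 1 + π`. -/
lemma lev_zetaUnit : Lev hζ 1 (zetaUnit hζ : 𝓞 K) 1 := by
  refine ⟨1, ⟨0, ?_⟩⟩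
  rw [val_zetaUnit]
  push_cast
  ring

end Units

end Fermat.Agent.H3
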