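import Mathlib
import Fermat.Agent.H3.KummerMain
import Fermat.Agent.H3.KummerCertBasic

/-!
# Kummer's lemma for `p = 5` (helper3): explicit cyclotomic-unit certificates
Generated by a script; every identity is re-checked by `ring`.
-/

set_option autoImplicit false
set_option linter.unusedSectionVars false
set_option linter.unusedVariables false
set_option linter.style.longLine false

namespace Fermat.Agent.H3

open NumberField

theorem cert_5_2 {R : Type*} [CommRing R] (π : R) (hq : π ^ 3 ∣ (5 : R)) :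
    π ^ 3 ∣ 1 * (1 + 1 * π) ^ 2 * (2 + 1 * π) ^ 1 - 2 * (1 + 2 * π ^ 2) := by
  have h0 : π ^ 3 ∣ (1 : R) - 1 := by simp
  have h1 : π ^ 3 ∣ 1 * (1 + 1 * π) ^ 0 - (1) := by simpa using h0
  have h2 : π ^ 3 ∣ 1 * (1 + 1 * π) ^ 1 - (1 + 1 * π) :=
    dvd_step hq h1 (s := 0) (t := 0) (by ring)
  have h3 : π ^ 3 ∣ 1 * (1 + 1 * π) ^ 2 - (1 + 2 * π + 1 * π ^ 2) :=
    dvd_step hq h2 (s := 0) (t := 0) (by ring)
  have h4 : π ^ 3 ∣ 1 * (1 + 1 * π) ^ 2 * (2 + 1 * π) ^ 0 - (1 + 2 * π + 1 * π ^ 2) := by simpa using h3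
  have h5 : π ^ 3 ∣ 1 * (1 + 1 * π) ^ 2 * (2 + 1 * π) ^ 1 - (2 + 4 * π ^ 2) :=
    dvd_step hq h4 (s := 1) (t := 1 * π) (by ring)
  exact dvd_final hq h5 (t := 0) (by ring)

section Field5

variable {K : Type*} [Field K] [NumberField K] [hK : IsCyclotomicExtension {5} ℚ K]

instance fact_prime_five : Fact (Nat.Prime 5) := ⟨by norm_num⟩

/-- The certificate unit at level `2`. -/
noncomputable def certUnit_5_2 {ζ : K} (hζ : IsPrimitiveRoot ζ 5) : (𝓞 K)ˣ :=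
  zetaUnit hζ ^ 2 * cycUnit hζ 2 (by norm_num) (by norm_num) ^ 1

lemma lev_certUnit_5_2 {ζ : K} (hζ : IsPrimitiveRoot ζ 5) :
    Lev hζ 2 (certUnit_5_2 hζ : 𝓞 K) 2 := by
  refine ⟨2, ?_⟩
  have hq : (hζ.toInteger - 1) ^ 3 ∣ (5 : 𝓞 K) := by
    have h1 := pi_pow_dvd_p hζ
    have h2 : (hζ.toInteger - 1) ^ 3 ∣ (hζ.toInteger - 1) ^ (5 - 1) := pow_dvd_pow _ (by norm_num)
    simpa using h2.trans h1
  have key := cert_5_2 (hζ.toInteger - 1) hq
  simp only [certUnit_5_2, Units.val_mul, Units.val_pow_eq_pow_val, val_zetaUnit_eq hζ, val_cycUnit_2 hζ]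
  simpa using key

/-- **Kummer's lemma for `p = 5`.** -/
theorem kummer_five (K : Type*) [Field K] [NumberField K] [IsCyclotomicExtension {5} ℚ K]
    (u : (𝓞 K)ˣ) (h : ∃ n : ℤ, ((5 : ℕ) : 𝓞 K) ∣ (u : 𝓞 K) - (n : 𝓞 K)) :
    ∃ v : (𝓞 K)ˣ, u = v ^ 5 := by
  obtain ⟨n, hn⟩ := h
  have hζ := IsCyclotomicExtension.zeta_spec 5 ℚ K
  refine kummer_of_chain (p := 5) hζ (by norm_num) (m := 2) (by norm_num)
    ![zetaUnit hζ, certUnit_5_2 hζ] ![1, 2] ![1, 2] ?_ ?_ ?_ ?_ ?_ u n hn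
  · intro i j hij
    fin_cases i <;> fin_cases j <;> simp at hij ⊢ <;> omega
  · intro i; fin_cases i <;> simp
  · intro i; fin_cases i <;> simp
  · intro i
    fin_cases i
    · exact lev_zetaUnit hζ
    · exact lev_certUnit_5_2 hζ
  · intro i; fin_cases i <;> simp <;> norm_num

end Field5

end Fermat.Agent.H3
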