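import Mathlib
import Fermat.Agent.H3.KummerMain
import Fermat.Agent.H3.KummerCertBasic

/-!
# Kummer's lemma for `p = 7` (helper3): explicit cyclotomic-unit certificates
Generated by a script; every identity is re-checked by `ring`.
-/

set_option autoImplicit false
set_option linter.unusedSectionVars false
set_option linter.unusedVariables false
set_option linter.style.longLine false

namespace Fermat.Agent.H3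

open NumberField

theorem cert_7_2 {R : Type*} [CommRing R] (π : R) (hq : π ^ 3 ∣ (7 : R)) :
    π ^ 3 ∣ 1 * (2 + 1 * π) ^ 1 * (3 + 3 * π + 1 * π ^ 2) ^ 3 - 5 * (1 + 2 * π ^ 2) := by
  have h0 : π ^ 3 ∣ (1 : R) - 1 := by simp
  have h1 : π ^ 3 ∣ 1 * (2 + 1 * π) ^ 0 - (1) := by simpa using h0
  have h2 : π ^ 3 ∣ 1 * (2 + 1 * π) ^ 1 - (2 + 1 * π) :=
    dvd_step hq h1 (s := 0) (t := 0) (by ring)
  have h3 : π ^ 3 ∣ 1 * (2 + 1 * π) ^ 1 * (3 + 3 * π + 1 * π ^ 2) ^ 0 - (2 + 1 * π) := by simpa using h2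
  have h4 : π ^ 3 ∣ 1 * (2 + 1 * π) ^ 1 * (3 + 3 * π + 1 * π ^ 2) ^ 1 - (6 + 2 * π + 5 * π ^ 2) :=
    dvd_step hq h3 (s := 1) (t := 1 * π) (by ring)
  have h5 : π ^ 3 ∣ 1 * (2 + 1 * π) ^ 1 * (3 + 3 * π + 1 * π ^ 2) ^ 2 - (4 + 3 * π + 6 * π ^ 2) :=
    dvd_step hq h4 (s := 17 + 5 * π) (t := 2 + 3 * π + 3 * π ^ 2) (by ring)
  have h6 : π ^ 3 ∣ 1 * (2 + 1 * π) ^ 1 * (3 + 3 * π + 1 * π ^ 2) ^ 3 - (5 + 3 * π ^ 2) :=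
    dvd_step hq h5 (s := 21 + 6 * π) (t := 1 + 3 * π + 4 * π ^ 2) (by ring)
  exact dvd_final hq h6 (t := -1 * π ^ 2) (by ring)

theorem cert_7_4 {R : Type*} [CommRing R] (π : R) (hq : π ^ 5 ∣ (7 : R)) :
    π ^ 5 ∣ 1 * (1 + 1 * π) ^ 5 * (2 + 1 * π) ^ 2 * (3 + 3 * π + 1 * π ^ 2) ^ 1 - 5 * (1 + 3 * π ^ 4) := by
  have h0 : π ^ 5 ∣ (1 : R) - 1 := by simp
  have h1 : π ^ 5 ∣ 1 * (1 + 1 * π) ^ 0 - (1) := by simpa using h0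
  have h2 : π ^ 5 ∣ 1 * (1 + 1 * π) ^ 1 - (1 + 1 * π) :=
    dvd_step hq h1 (s := 0) (t := 0) (by ring)
  have h3 : π ^ 5 ∣ 1 * (1 + 1 * π) ^ 2 - (1 + 2 * π + 1 * π ^ 2) :=
    dvd_step hq h2 (s := 0) (t := 0) (by ring)
  have h4 : π ^ 5 ∣ 1 * (1 + 1 * π) ^ 3 - (1 + 3 * π + 3 * π ^ 2 + 1 * π ^ 3) :=
    dvd_step hq h3 (s := 0) (t := 0) (by ring)
  have h5 : π ^ 5 ∣ 1 * (1 + 1 * π) ^ 4 - (1 + 4 * π + 6 * π ^ 2 + 4 * π ^ 3 + 1 * π ^ 4) :=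
    dvd_step hq h4 (s := 0) (t := 0) (by ring)
  have h6 : π ^ 5 ∣ 1 * (1 + 1 * π) ^ 5 - (1 + 5 * π + 3 * π ^ 2 + 3 * π ^ 3 + 5 * π ^ 4) :=
    dvd_step hq h5 (s := 1) (t := 1 * π ^ 2 + 1 * π ^ 3) (by ring)
  have h7 : π ^ 5 ∣ 1 * (1 + 1 * π) ^ 5 * (2 + 1 * π) ^ 0 - (1 + 5 * π + 3 * π ^ 2 + 3 * π ^ 3 + 5 * π ^ 4) := by simpa using h6
  have h8 : π ^ 5 ∣ 1 * (1 + 1 * π) ^ 5 * (2 + 1 * π) ^ 1 - (2 + 4 * π + 4 * π ^ 2 + 2 * π ^ 3 + 6 * π ^ 4) :=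
    dvd_step hq h7 (s := 5) (t := 1 * π + 1 * π ^ 2 + 1 * π ^ 3 + 1 * π ^ 4) (by ring)
  have h9 : π ^ 5 ∣ 1 * (1 + 1 * π) ^ 5 * (2 + 1 * π) ^ 2 - (4 + 3 * π + 5 * π ^ 2 + 1 * π ^ 3) :=
    dvd_step hq h8 (s := 6) (t := 1 * π + 1 * π ^ 2 + 1 * π ^ 3 + 2 * π ^ 4) (by ring)
  have h10 : π ^ 5 ∣ 1 * (1 + 1 * π) ^ 5 * (2 + 1 * π) ^ 2 * (3 + 3 * π + 1 * π ^ 2) ^ 0 - (4 + 3 * π + 5 * π ^ 2 + 1 * π ^ 3) := by simpa using h9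
  have h11 : π ^ 5 ∣ 1 * (1 + 1 * π) ^ 5 * (2 + 1 * π) ^ 2 * (3 + 3 * π + 1 * π ^ 2) ^ 1 - (5 + 1 * π ^ 4) :=
    dvd_step hq h10 (s := 1) (t := 1 + 3 * π + 4 * π ^ 2 + 3 * π ^ 3 + 1 * π ^ 4) (by ring)
  exact dvd_final hq h11 (t := -2 * π ^ 4) (by ring)

section Field7

variable {K : Type*} [Field K] [NumberField K] [hK : IsCyclotomicExtension {7} ℚ K]

instance fact_prime_seven : Fact (Nat.Prime 7) := ⟨by norm_num⟩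

/-- The certificate unit at level `2`. -/
noncomputable def certUnit_7_2 {ζ : K} (hζ : IsPrimitiveRoot ζ 7) : (𝓞 K)ˣ :=
  cycUnit hζ 2 (by norm_num) (by norm_num) ^ 1 * cycUnit hζ 3 (by norm_num) (by norm_num) ^ 3

lemma lev_certUnit_7_2 {ζ : K} (hζ : IsPrimitiveRoot ζ 7) :
    Lev hζ 2 (certUnit_7_2 hζ : 𝓞 K) 2 := by
  refine ⟨5, ?_⟩
  have hq : (hζ.toInteger - 1) ^ 3 ∣ (7 : 𝓞 K) := by
    have h1 := pi_pow_dvd_p hζ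
    have h2 : (hζ.toInteger - 1) ^ 3 ∣ (hζ.toInteger - 1) ^ (7 - 1) := pow_dvd_pow _ (by norm_num)
    simpa using h2.trans h1
  have key := cert_7_2 (hζ.toInteger - 1) hq
  simp only [certUnit_7_2, Units.val_mul, Units.val_pow_eq_pow_val, val_cycUnit_2 hζ, val_cycUnit_3 hζ]
  simpa using key

/-- The certificate unit at level `4`. -/
noncomputable def certUnit_7_4 {ζ : K} (hζ : IsPrimitiveRoot ζ 7) : (𝓞 K)ˣ :=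
  zetaUnit hζ ^ 5 * cycUnit hζ 2 (by norm_num) (by norm_num) ^ 2 * cycUnit hζ 3 (by norm_num) (by norm_num) ^ 1

lemma lev_certUnit_7_4 {ζ : K} (hζ : IsPrimitiveRoot ζ 7) :
    Lev hζ 4 (certUnit_7_4 hζ : 𝓞 K) 3 := by
  refine ⟨5, ?_⟩
  have hq : (hζ.toInteger - 1) ^ 5 ∣ (7 : 𝓞 K) := by
    have h1 := pi_pow_dvd_p hζ
    have h2 : (hζ.toInteger - 1) ^ 5 ∣ (hζ.toInteger - 1) ^ (7 - 1) := pow_dvd_pow _ (by norm_num)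
    simpa using h2.trans h1
  have key := cert_7_4 (hζ.toInteger - 1) hq
  simp only [certUnit_7_4, Units.val_mul, Units.val_pow_eq_pow_val, val_zetaUnit_eq hζ, val_cycUnit_2 hζ, val_cycUnit_3 hζ]
  simpa using key

/-- **Kummer's lemma for `p = 7`.** -/
theorem kummer_seven (K : Type*) [Field K] [NumberField K] [IsCyclotomicExtension {7} ℚ K]
    (u : (𝓞 K)ˣ) (h : ∃ n : ℤ, ((7 : ℕ) : 𝓞 K) ∣ (u : 𝓞 K) - (n : 𝓞 K)) :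
    ∃ v : (𝓞 K)ˣ, u = v ^ 7 := by
  obtain ⟨n, hn⟩ := h
  have hζ := IsCyclotomicExtension.zeta_spec 7 ℚ K
  refine kummer_of_chain (p := 7) hζ (by norm_num) (m := 3) (by norm_num)
    ![zetaUnit hζ, certUnit_7_2 hζ, certUnit_7_4 hζ] ![1, 2, 4] ![1, 2, 3] ?_ ?_ ?_ ?_ ?_ u n hn
  · intro i j hij
    fin_cases i <;> fin_cases j <;> simp at hij ⊢ <;> omega
  · intro i; fin_cases i <;> simp
  · intro i; fin_cases i <;> simp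
  · intro i
    fin_cases i
    · exact lev_zetaUnit hζ
    · exact lev_certUnit_7_2 hζ
    · exact lev_certUnit_7_4 hζ
  · intro i; fin_cases i <;> simp <;> norm_num

end Field7

end Fermat.Agent.H3
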