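import Mathlib
import Fermat.Agent.H3.KummerMain
import Fermat.Agent.H3.KummerCertBasic

/-!
# Kummer's lemma for `p = 13` (helper3): explicit cyclotomic-unit certificates
Generated by a script; every identity is re-checked by `ring`.
-/

set_option autoImplicit false
set_option linter.unusedSectionVars false
set_option linter.unusedVariables false
set_option linter.style.longLine false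

namespace Fermat.Agent.H3

open NumberField

theorem cert_13_2 {R : Type*} [CommRing R] (π : R) (hq : π ^ 3 ∣ (13 : R)) :
    π ^ 3 ∣ 1 * (5 + 10 * π + 10 * π ^ 2 + 5 * π ^ 3 + 1 * π ^ 4) ^ 2 * (6 + 15 * π + 20 * π ^ 2 + 15 * π ^ 3 + 6 * π ^ 4 + 1 * π ^ 5) ^ 1 - 7 * (1 + 4 * π ^ 2) := by
  have h0 : π ^ 3 ∣ (1 : R) - 1 := by simp
  have h1 : π ^ 3 ∣ 1 * (5 + 10 * π + 10 * π ^ 2 + 5 * π ^ 3 + 1 * π ^ 4) ^ 0 - (1) := by simpa using h0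
  have h2 : π ^ 3 ∣ 1 * (5 + 10 * π + 10 * π ^ 2 + 5 * π ^ 3 + 1 * π ^ 4) ^ 1 - (5 + 10 * π + 10 * π ^ 2) :=
    dvd_step hq h1 (s := 5 + 1 * π) (t := 0) (by ring)
  have h3 : π ^ 3 ∣ 1 * (5 + 10 * π + 10 * π ^ 2 + 5 * π ^ 3 + 1 * π ^ 4) ^ 2 - (12 + 9 * π + 5 * π ^ 2) :=
    dvd_step hq h2 (s := 225 + 155 * π + 60 * π ^ 2 + 10 * π ^ 3) (t := 1 + 7 * π + 15 * π ^ 2) (by ring)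
  have h4 : π ^ 3 ∣ 1 * (5 + 10 * π + 10 * π ^ 2 + 5 * π ^ 3 + 1 * π ^ 4) ^ 2 * (6 + 15 * π + 20 * π ^ 2 + 15 * π ^ 3 + 6 * π ^ 4 + 1 * π ^ 5) ^ 0 - (12 + 9 * π + 5 * π ^ 2) := by simpa using h3
  have h5 : π ^ 3 ∣ 1 * (5 + 10 * π + 10 * π ^ 2 + 5 * π ^ 3 + 1 * π ^ 4) ^ 2 * (6 + 15 * π + 20 * π ^ 2 + 15 * π ^ 3 + 6 * π ^ 4 + 1 * π ^ 5) ^ 1 - (7 + 2 * π ^ 2) :=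
    dvd_step hq h4 (s := 435 + 307 * π + 141 * π ^ 2 + 39 * π ^ 3 + 5 * π ^ 4) (t := 5 + 18 * π + 31 * π ^ 2) (by ring)
  exact dvd_final hq h5 (t := -2 * π ^ 2) (by ring)

theorem cert_13_4 {R : Type*} [CommRing R] (π : R) (hq : π ^ 5 ∣ (13 : R)) :
    π ^ 5 ∣ 1 * (1 + 1 * π) ^ 1 * (4 + 6 * π + 4 * π ^ 2 + 1 * π ^ 3) ^ 2 * (6 + 15 * π + 20 * π ^ 2 + 15 * π ^ 3 + 6 * π ^ 4 + 1 * π ^ 5) ^ 1 - 5 * (1 + 4 * π ^ 4) := by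
  have h0 : π ^ 5 ∣ (1 : R) - 1 := by simp
  have h1 : π ^ 5 ∣ 1 * (1 + 1 * π) ^ 0 - (1) := by simpa using h0
  have h2 : π ^ 5 ∣ 1 * (1 + 1 * π) ^ 1 - (1 + 1 * π) :=
    dvd_step hq h1 (s := 0) (t := 0) (by ring)
  have h3 : π ^ 5 ∣ 1 * (1 + 1 * π) ^ 1 * (4 + 6 * π + 4 * π ^ 2 + 1 * π ^ 3) ^ 0 - (1 + 1 * π) := by simpa using h2
  have h4 : π ^ 5 ∣ 1 * (1 + 1 * π) ^ 1 * (4 + 6 * π + 4 * π ^ 2 + 1 * π ^ 3) ^ 1 - (4 + 10 * π + 10 * π ^ 2 + 5 * π ^ 3 + 1 * π ^ 4) :=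
    dvd_step hq h3 (s := 0) (t := 0) (by ring)
  have h5 : π ^ 5 ∣ 1 * (1 + 1 * π) ^ 1 * (4 + 6 * π + 4 * π ^ 2 + 1 * π ^ 3) ^ 2 - (3 + 12 * π + 12 * π ^ 2 + 7 * π ^ 3 + 6 * π ^ 4) :=
    dvd_step hq h4 (s := 36 + 9 * π + 1 * π ^ 2) (t := 1 + 4 * π + 8 * π ^ 2 + 9 * π ^ 3 + 6 * π ^ 4) (by ring)
  have h6 : π ^ 5 ∣ 1 * (1 + 1 * π) ^ 1 * (4 + 6 * π + 4 * π ^ 2 + 1 * π ^ 3) ^ 2 * (6 + 15 * π + 20 * π ^ 2 + 15 * π ^ 3 + 6 * π ^ 4 + 1 * π ^ 5) ^ 0 - (3 + 12 * π + 12 * π ^ 2 + 7 * π ^ 3 + 6 * π ^ 4) := by simpa using h5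
  have h7 : π ^ 5 ∣ 1 * (1 + 1 * π) ^ 1 * (4 + 6 * π + 4 * π ^ 2 + 1 * π ^ 3) ^ 2 * (6 + 15 * π + 20 * π ^ 2 + 15 * π ^ 3 + 6 * π ^ 4 + 1 * π ^ 5) ^ 1 - (5 + 7 * π ^ 4) :=
    dvd_step hq h6 (s := 485 + 309 * π + 144 * π ^ 2 + 43 * π ^ 3 + 6 * π ^ 4) (t := 1 + 9 * π + 24 * π ^ 2 + 39 * π ^ 3 + 44 * π ^ 4) (by ring)
  exact dvd_final hq h7 (t := -1 * π ^ 4) (by ring)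

theorem cert_13_6 {R : Type*} [CommRing R] (π : R) (hq : π ^ 7 ∣ (13 : R)) :
    π ^ 7 ∣ 1 * (2 + 1 * π) ^ 5 * (4 + 6 * π + 4 * π ^ 2 + 1 * π ^ 3) ^ 1 * (6 + 15 * π + 20 * π ^ 2 + 15 * π ^ 3 + 6 * π ^ 4 + 1 * π ^ 5) ^ 1 - 1 * (1 + 12 * π ^ 6) := by
  have h0 : π ^ 7 ∣ (1 : R) - 1 := by simp
  have h1 : π ^ 7 ∣ 1 * (2 + 1 * π) ^ 0 - (1) := by simpa using h0
  have h2 : π ^ 7 ∣ 1 * (2 + 1 * π) ^ 1 - (2 + 1 * π) :=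
    dvd_step hq h1 (s := 0) (t := 0) (by ring)
  have h3 : π ^ 7 ∣ 1 * (2 + 1 * π) ^ 2 - (4 + 4 * π + 1 * π ^ 2) :=
    dvd_step hq h2 (s := 0) (t := 0) (by ring)
  have h4 : π ^ 7 ∣ 1 * (2 + 1 * π) ^ 3 - (8 + 12 * π + 6 * π ^ 2 + 1 * π ^ 3) :=
    dvd_step hq h3 (s := 0) (t := 0) (by ring)
  have h5 : π ^ 7 ∣ 1 * (2 + 1 * π) ^ 4 - (3 + 6 * π + 11 * π ^ 2 + 8 * π ^ 3 + 1 * π ^ 4) :=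
    dvd_step hq h4 (s := 0) (t := 1 + 2 * π + 1 * π ^ 2) (by ring)
  have h6 : π ^ 7 ∣ 1 * (2 + 1 * π) ^ 5 - (6 + 2 * π + 2 * π ^ 2 + 1 * π ^ 3 + 10 * π ^ 4 + 1 * π ^ 5) :=
    dvd_step hq h5 (s := 0) (t := 1 * π + 2 * π ^ 2 + 2 * π ^ 3) (by ring)
  have h7 : π ^ 7 ∣ 1 * (2 + 1 * π) ^ 5 * (4 + 6 * π + 4 * π ^ 2 + 1 * π ^ 3) ^ 0 - (6 + 2 * π + 2 * π ^ 2 + 1 * π ^ 3 + 10 * π ^ 4 + 1 * π ^ 5) := by simpa using h6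
  have h8 : π ^ 7 ∣ 1 * (2 + 1 * π) ^ 5 * (4 + 6 * π + 4 * π ^ 2 + 1 * π ^ 3) ^ 1 - (11 + 5 * π + 5 * π ^ 2 + 4 * π ^ 3 + 4 * π ^ 4 + 5 * π ^ 5 + 8 * π ^ 6) :=
    dvd_step hq h7 (s := 14 + 1 * π) (t := 1 + 3 * π + 3 * π ^ 2 + 2 * π ^ 3 + 4 * π ^ 4 + 5 * π ^ 5 + 3 * π ^ 6) (by ring)
  have h9 : π ^ 7 ∣ 1 * (2 + 1 * π) ^ 5 * (4 + 6 * π + 4 * π ^ 2 + 1 * π ^ 3) ^ 1 * (6 + 15 * π + 20 * π ^ 2 + 15 * π ^ 3 + 6 * π ^ 4 + 1 * π ^ 5) ^ 0 - (11 + 5 * π + 5 * π ^ 2 + 4 * π ^ 3 + 4 * π ^ 4 + 5 * π ^ 5 + 8 * π ^ 6) := by simpa using h8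
  have h10 : π ^ 7 ∣ 1 * (2 + 1 * π) ^ 5 * (4 + 6 * π + 4 * π ^ 2 + 1 * π ^ 3) ^ 1 * (6 + 15 * π + 20 * π ^ 2 + 15 * π ^ 3 + 6 * π ^ 4 + 1 * π ^ 5) ^ 1 - (1 + 12 * π ^ 6) :=
    dvd_step hq h9 (s := 309 + 263 * π + 154 * π ^ 2 + 53 * π ^ 3 + 8 * π ^ 4) (t := 5 + 15 * π + 25 * π ^ 2 + 28 * π ^ 3 + 25 * π ^ 4 + 22 * π ^ 5 + 22 * π ^ 6) (by ring)
  exact dvd_final hq h10 (t := 0) (by ring)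

theorem cert_13_8 {R : Type*} [CommRing R] (π : R) (hq : π ^ 9 ∣ (13 : R)) :
    π ^ 9 ∣ 1 * (2 + 1 * π) ^ 5 * (3 + 3 * π + 1 * π ^ 2) ^ 1 * (4 + 6 * π + 4 * π ^ 2 + 1 * π ^ 3) ^ 4 * (5 + 10 * π + 10 * π ^ 2 + 5 * π ^ 3 + 1 * π ^ 4) ^ 7 * (6 + 15 * π + 20 * π ^ 2 + 15 * π ^ 3 + 6 * π ^ 4 + 1 * π ^ 5) ^ 1 - 2 * (1 + 11 * π ^ 8) := by
  have h0 : π ^ 9 ∣ (1 : R) - 1 := by simp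
  have h1 : π ^ 9 ∣ 1 * (2 + 1 * π) ^ 0 - (1) := by simpa using h0
  have h2 : π ^ 9 ∣ 1 * (2 + 1 * π) ^ 1 - (2 + 1 * π) :=
    dvd_step hq h1 (s := 0) (t := 0) (by ring)
  have h3 : π ^ 9 ∣ 1 * (2 + 1 * π) ^ 2 - (4 + 4 * π + 1 * π ^ 2) :=
    dvd_step hq h2 (s := 0) (t := 0) (by ring)
  have h4 : π ^ 9 ∣ 1 * (2 + 1 * π) ^ 3 - (8 + 12 * π + 6 * π ^ 2 + 1 * π ^ 3) :=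
    dvd_step hq h3 (s := 0) (t := 0) (by ring)
  have h5 : π ^ 9 ∣ 1 * (2 + 1 * π) ^ 4 - (3 + 6 * π + 11 * π ^ 2 + 8 * π ^ 3 + 1 * π ^ 4) :=
    dvd_step hq h4 (s := 0) (t := 1 + 2 * π + 1 * π ^ 2) (by ring)
  have h6 : π ^ 9 ∣ 1 * (2 + 1 * π) ^ 5 - (6 + 2 * π + 2 * π ^ 2 + 1 * π ^ 3 + 10 * π ^ 4 + 1 * π ^ 5) :=
    dvd_step hq h5 (s := 0) (t := 1 * π + 2 * π ^ 2 + 2 * π ^ 3) (by ring)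
  have h7 : π ^ 9 ∣ 1 * (2 + 1 * π) ^ 5 * (3 + 3 * π + 1 * π ^ 2) ^ 0 - (6 + 2 * π + 2 * π ^ 2 + 1 * π ^ 3 + 10 * π ^ 4 + 1 * π ^ 5) := by simpa using h6
  have h8 : π ^ 9 ∣ 1 * (2 + 1 * π) ^ 5 * (3 + 3 * π + 1 * π ^ 2) ^ 1 - (5 + 11 * π + 5 * π ^ 2 + 11 * π ^ 3 + 9 * π ^ 4 + 8 * π ^ 5 + 1 * π ^ 7) :=
    dvd_step hq h7 (s := 0) (t := 1 + 1 * π + 1 * π ^ 2 + 2 * π ^ 4 + 2 * π ^ 5 + 1 * π ^ 6) (by ring)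
  have h9 : π ^ 9 ∣ 1 * (2 + 1 * π) ^ 5 * (3 + 3 * π + 1 * π ^ 2) ^ 1 * (4 + 6 * π + 4 * π ^ 2 + 1 * π ^ 3) ^ 0 - (5 + 11 * π + 5 * π ^ 2 + 11 * π ^ 3 + 9 * π ^ 4 + 8 * π ^ 5 + 1 * π ^ 7) := by simpa using h8
  have h10 : π ^ 9 ∣ 1 * (2 + 1 * π) ^ 5 * (3 + 3 * π + 1 * π ^ 2) ^ 1 * (4 + 6 * π + 4 * π ^ 2 + 1 * π ^ 3) ^ 1 - (7 + 9 * π + 2 * π ^ 2 + 6 * π ^ 3 + 3 * π ^ 4 + 5 * π ^ 5 + 4 * π ^ 6 + 6 * π ^ 7 + 1 * π ^ 8) :=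
    dvd_step hq h9 (s := 4 + 1 * π) (t := 1 + 5 * π + 8 * π ^ 2 + 9 * π ^ 3 + 10 * π ^ 4 + 10 * π ^ 5 + 7 * π ^ 6 + 3 * π ^ 7 + 1 * π ^ 8) (by ring)
  have h11 : π ^ 9 ∣ 1 * (2 + 1 * π) ^ 5 * (3 + 3 * π + 1 * π ^ 2) ^ 1 * (4 + 6 * π + 4 * π ^ 2 + 1 * π ^ 3) ^ 2 - (2 + 12 * π ^ 2 + 1 * π ^ 3 + 12 * π ^ 5 + 12 * π ^ 6 + 6 * π ^ 7 + 9 * π ^ 8) :=
    dvd_step hq h10 (s := 34 + 10 * π + 1 * π ^ 2) (t := 2 + 6 * π + 6 * π ^ 2 + 6 * π ^ 3 + 5 * π ^ 4 + 4 * π ^ 5 + 4 * π ^ 6 + 5 * π ^ 7 + 4 * π ^ 8) (by ring)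
  have h12 : π ^ 9 ∣ 1 * (2 + 1 * π) ^ 5 * (3 + 3 * π + 1 * π ^ 2) ^ 1 * (4 + 6 * π + 4 * π ^ 2 + 1 * π ^ 3) ^ 3 - (8 + 12 * π + 4 * π ^ 2 + 2 * π ^ 4 + 12 * π ^ 5 + 4 * π ^ 6 + 1 * π ^ 7 + 2 * π ^ 8) :=
    dvd_step hq h11 (s := 90 + 42 * π + 9 * π ^ 2) (t := 4 * π ^ 2 + 6 * π ^ 3 + 4 * π ^ 4 + 4 * π ^ 5 + 9 * π ^ 6 + 11 * π ^ 7 + 10 * π ^ 8) (by ring)
  have h13 : π ^ 9 ∣ 1 * (2 + 1 * π) ^ 5 * (3 + 3 * π + 1 * π ^ 2) ^ 1 * (4 + 6 * π + 4 * π ^ 2 + 1 * π ^ 3) ^ 4 - (6 + 5 * π + 3 * π ^ 2 + 2 * π ^ 3 + 10 * π ^ 4 + 12 * π ^ 5 + 5 * π ^ 6 + 3 * π ^ 8) :=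
    dvd_step hq h12 (s := 20 + 9 * π + 2 * π ^ 2) (t := 2 + 7 * π + 9 * π ^ 2 + 6 * π ^ 3 + 2 * π ^ 4 + 4 * π ^ 5 + 7 * π ^ 6 + 6 * π ^ 7 + 3 * π ^ 8) (by ring)
  have h14 : π ^ 9 ∣ 1 * (2 + 1 * π) ^ 5 * (3 + 3 * π + 1 * π ^ 2) ^ 1 * (4 + 6 * π + 4 * π ^ 2 + 1 * π ^ 3) ^ 4 * (5 + 10 * π + 10 * π ^ 2 + 5 * π ^ 3 + 1 * π ^ 4) ^ 0 - (6 + 5 * π + 3 * π ^ 2 + 2 * π ^ 3 + 10 * π ^ 4 + 12 * π ^ 5 + 5 * π ^ 6 + 3 * π ^ 8) := by simpa using h13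
  have h15 : π ^ 9 ∣ 1 * (2 + 1 * π) ^ 5 * (3 + 3 * π + 1 * π ^ 2) ^ 1 * (4 + 6 * π + 4 * π ^ 2 + 1 * π ^ 3) ^ 4 * (5 + 10 * π + 10 * π ^ 2 + 5 * π ^ 3 + 1 * π ^ 4) ^ 1 - (4 + 7 * π + 8 * π ^ 2 + 3 * π ^ 3 + 1 * π ^ 4 + 5 * π ^ 5 + 11 * π ^ 6 + 1 * π ^ 7 + 5 * π ^ 8) :=
    dvd_step hq h14 (s := 67 + 35 * π + 15 * π ^ 2 + 3 * π ^ 3) (t := 2 + 6 * π + 9 * π ^ 2 + 9 * π ^ 3 + 10 * π ^ 4 + 15 * π ^ 5 + 19 * π ^ 6 + 17 * π ^ 7 + 10 * π ^ 8) (by ring)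
  have h16 : π ^ 9 ∣ 1 * (2 + 1 * π) ^ 5 * (3 + 3 * π + 1 * π ^ 2) ^ 1 * (4 + 6 * π + 4 * π ^ 2 + 1 * π ^ 3) ^ 4 * (5 + 10 * π + 10 * π ^ 2 + 5 * π ^ 3 + 1 * π ^ 4) ^ 2 - (7 + 10 * π + 7 * π ^ 2 + 3 * π ^ 3 + 11 * π ^ 4 + 8 * π ^ 5 + 8 * π ^ 6 + 4 * π ^ 7 + 2 * π ^ 8) :=
    dvd_step hq h15 (s := 120 + 66 * π + 26 * π ^ 2 + 5 * π ^ 3) (t := 1 + 5 * π + 11 * π ^ 2 + 14 * π ^ 3 + 11 * π ^ 4 + 8 * π ^ 5 + 10 * π ^ 6 + 13 * π ^ 7 + 13 * π ^ 8) (by ring)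
  have h17 : π ^ 9 ∣ 1 * (2 + 1 * π) ^ 5 * (3 + 3 * π + 1 * π ^ 2) ^ 1 * (4 + 6 * π + 4 * π ^ 2 + 1 * π ^ 3) ^ 4 * (5 + 10 * π + 10 * π ^ 2 + 5 * π ^ 3 + 1 * π ^ 4) ^ 3 - (9 + 3 * π + 10 * π ^ 2 + 12 * π ^ 3 + 4 * π ^ 4 + 4 * π ^ 5 + 5 * π ^ 6 + 4 * π ^ 7 + 12 * π ^ 8) :=
    dvd_step hq h16 (s := 108 + 48 * π + 14 * π ^ 2 + 2 * π ^ 3) (t := 2 + 9 * π + 15 * π ^ 2 + 16 * π ^ 3 + 16 * π ^ 4 + 17 * π ^ 5 + 19 * π ^ 6 + 18 * π ^ 7 + 13 * π ^ 8) (by ring)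
  have h18 : π ^ 9 ∣ 1 * (2 + 1 * π) ^ 5 * (3 + 3 * π + 1 * π ^ 2) ^ 1 * (4 + 6 * π + 4 * π ^ 2 + 1 * π ^ 3) ^ 4 * (5 + 10 * π + 10 * π ^ 2 + 5 * π ^ 3 + 1 * π ^ 4) ^ 4 - (6 + 1 * π + 1 * π ^ 2 + 1 * π ^ 3 + 4 * π ^ 4 + 12 * π ^ 5 + 6 * π ^ 6 + 12 * π ^ 7 + 5 * π ^ 8) :=
    dvd_step hq h17 (s := 189 + 145 * π + 64 * π ^ 2 + 12 * π ^ 3) (t := 3 + 8 * π + 13 * π ^ 2 + 18 * π ^ 3 + 20 * π ^ 4 + 17 * π ^ 5 + 13 * π ^ 6 + 10 * π ^ 7 + 13 * π ^ 8) (by ring)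
  have h19 : π ^ 9 ∣ 1 * (2 + 1 * π) ^ 5 * (3 + 3 * π + 1 * π ^ 2) ^ 1 * (4 + 6 * π + 4 * π ^ 2 + 1 * π ^ 3) ^ 4 * (5 + 10 * π + 10 * π ^ 2 + 5 * π ^ 3 + 1 * π ^ 4) ^ 5 - (4 + 10 * π ^ 2 + 3 * π ^ 3 + 12 * π ^ 4 + 12 * π ^ 5 + 1 * π ^ 6 + 1 * π ^ 7 + 9 * π ^ 8) :=
    dvd_step hq h18 (s := 212 + 116 * π + 37 * π ^ 2 + 5 * π ^ 3) (t := 2 + 5 * π + 5 * π ^ 2 + 4 * π ^ 3 + 3 * π ^ 4 + 8 * π ^ 5 + 15 * π ^ 6 + 20 * π ^ 7 + 20 * π ^ 8) (by ring)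
  have h20 : π ^ 9 ∣ 1 * (2 + 1 * π) ^ 5 * (3 + 3 * π + 1 * π ^ 2) ^ 1 * (4 + 6 * π + 4 * π ^ 2 + 1 * π ^ 3) ^ 4 * (5 + 10 * π + 10 * π ^ 2 + 5 * π ^ 3 + 1 * π ^ 4) ^ 6 - (7 + 1 * π + 12 * π ^ 2 + 5 * π ^ 3 + 12 * π ^ 4 + 10 * π ^ 6 + 3 * π ^ 7 + 7 * π ^ 8) :=
    dvd_step hq h19 (s := 117 + 96 * π + 46 * π ^ 2 + 9 * π ^ 3) (t := 1 + 3 * π + 6 * π ^ 2 + 10 * π ^ 3 + 14 * π ^ 4 + 20 * π ^ 5 + 20 * π ^ 6 + 15 * π ^ 7 + 10 * π ^ 8) (by ring)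
  have h21 : π ^ 9 ∣ 1 * (2 + 1 * π) ^ 5 * (3 + 3 * π + 1 * π ^ 2) ^ 1 * (4 + 6 * π + 4 * π ^ 2 + 1 * π ^ 3) ^ 4 * (5 + 10 * π + 10 * π ^ 2 + 5 * π ^ 3 + 1 * π ^ 4) ^ 7 - (9 + 10 * π + 10 * π ^ 2 + 8 * π ^ 3 + 8 * π ^ 4 + 10 * π ^ 5 + 12 * π ^ 6 + 11 * π ^ 7 + 8 * π ^ 8) :=
    dvd_step hq h20 (s := 150 + 95 * π + 38 * π ^ 2 + 7 * π ^ 3) (t := 2 + 5 * π + 10 * π ^ 2 + 14 * π ^ 3 + 18 * π ^ 4 + 17 * π ^ 5 + 15 * π ^ 6 + 13 * π ^ 7 + 13 * π ^ 8) (by ring)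
  have h22 : π ^ 9 ∣ 1 * (2 + 1 * π) ^ 5 * (3 + 3 * π + 1 * π ^ 2) ^ 1 * (4 + 6 * π + 4 * π ^ 2 + 1 * π ^ 3) ^ 4 * (5 + 10 * π + 10 * π ^ 2 + 5 * π ^ 3 + 1 * π ^ 4) ^ 7 * (6 + 15 * π + 20 * π ^ 2 + 15 * π ^ 3 + 6 * π ^ 4 + 1 * π ^ 5) ^ 0 - (9 + 10 * π + 10 * π ^ 2 + 8 * π ^ 3 + 8 * π ^ 4 + 10 * π ^ 5 + 12 * π ^ 6 + 11 * π ^ 7 + 8 * π ^ 8) := by simpa using h21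
  have h23 : π ^ 9 ∣ 1 * (2 + 1 * π) ^ 5 * (3 + 3 * π + 1 * π ^ 2) ^ 1 * (4 + 6 * π + 4 * π ^ 2 + 1 * π ^ 3) ^ 4 * (5 + 10 * π + 10 * π ^ 2 + 5 * π ^ 3 + 1 * π ^ 4) ^ 7 * (6 + 15 * π + 20 * π ^ 2 + 15 * π ^ 3 + 6 * π ^ 4 + 1 * π ^ 5) ^ 1 - (2 + 9 * π ^ 8) :=
    dvd_step hq h22 (s := 588 + 407 * π + 198 * π ^ 2 + 59 * π ^ 3 + 8 * π ^ 4) (t := 4 + 15 * π + 30 * π ^ 2 + 41 * π ^ 3 + 44 * π ^ 4 + 43 * π ^ 5 + 44 * π ^ 6 + 48 * π ^ 7 + 50 * π ^ 8) (by ring)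
  exact dvd_final hq h23 (t := -1 * π ^ 8) (by ring)

theorem cert_13_10 {R : Type*} [CommRing R] (π : R) (hq : π ^ 11 ∣ (13 : R)) :
    π ^ 11 ∣ 1 * (1 + 1 * π) ^ 6 * (2 + 1 * π) ^ 9 * (3 + 3 * π + 1 * π ^ 2) ^ 4 * (4 + 6 * π + 4 * π ^ 2 + 1 * π ^ 3) ^ 10 * (5 + 10 * π + 10 * π ^ 2 + 5 * π ^ 3 + 1 * π ^ 4) ^ 1 * (6 + 15 * π + 20 * π ^ 2 + 15 * π ^ 3 + 6 * π ^ 4 + 1 * π ^ 5) ^ 3 - 5 * (1 + 6 * π ^ 10) := by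
  have h0 : π ^ 11 ∣ (1 : R) - 1 := by simp
  have h1 : π ^ 11 ∣ 1 * (1 + 1 * π) ^ 0 - (1) := by simpa using h0
  have h2 : π ^ 11 ∣ 1 * (1 + 1 * π) ^ 1 - (1 + 1 * π) :=
    dvd_step hq h1 (s := 0) (t := 0) (by ring)
  have h3 : π ^ 11 ∣ 1 * (1 + 1 * π) ^ 2 - (1 + 2 * π + 1 * π ^ 2) :=
    dvd_step hq h2 (s := 0) (t := 0) (by ring)
  have h4 : π ^ 11 ∣ 1 * (1 + 1 * π) ^ 3 - (1 + 3 * π + 3 * π ^ 2 + 1 * π ^ 3) :=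
    dvd_step hq h3 (s := 0) (t := 0) (by ring)
  have h5 : π ^ 11 ∣ 1 * (1 + 1 * π) ^ 4 - (1 + 4 * π + 6 * π ^ 2 + 4 * π ^ 3 + 1 * π ^ 4) :=
    dvd_step hq h4 (s := 0) (t := 0) (by ring)
  have h6 : π ^ 11 ∣ 1 * (1 + 1 * π) ^ 5 - (1 + 5 * π + 10 * π ^ 2 + 10 * π ^ 3 + 5 * π ^ 4 + 1 * π ^ 5) :=
    dvd_step hq h5 (s := 0) (t := 0) (by ring)
  have h7 : π ^ 11 ∣ 1 * (1 + 1 * π) ^ 6 - (1 + 6 * π + 2 * π ^ 2 + 7 * π ^ 3 + 2 * π ^ 4 + 6 * π ^ 5 + 1 * π ^ 6) :=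
    dvd_step hq h6 (s := 0) (t := 1 * π ^ 2 + 1 * π ^ 3 + 1 * π ^ 4) (by ring)
  have h8 : π ^ 11 ∣ 1 * (1 + 1 * π) ^ 6 * (2 + 1 * π) ^ 0 - (1 + 6 * π + 2 * π ^ 2 + 7 * π ^ 3 + 2 * π ^ 4 + 6 * π ^ 5 + 1 * π ^ 6) := by simpa using h7
  have h9 : π ^ 11 ∣ 1 * (1 + 1 * π) ^ 6 * (2 + 1 * π) ^ 1 - (2 + 10 * π ^ 2 + 3 * π ^ 3 + 11 * π ^ 4 + 1 * π ^ 5 + 8 * π ^ 6 + 1 * π ^ 7) :=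
    dvd_step hq h8 (s := 0) (t := 1 * π + 1 * π ^ 3 + 1 * π ^ 5) (by ring)
  have h10 : π ^ 11 ∣ 1 * (1 + 1 * π) ^ 6 * (2 + 1 * π) ^ 2 - (4 + 2 * π + 7 * π ^ 2 + 3 * π ^ 3 + 12 * π ^ 4 + 4 * π ^ 6 + 10 * π ^ 7 + 1 * π ^ 8) :=
    dvd_step hq h9 (s := 0) (t := 1 * π ^ 2 + 1 * π ^ 3 + 1 * π ^ 4 + 1 * π ^ 5 + 1 * π ^ 6) (by ring)
  have h11 : π ^ 11 ∣ 1 * (1 + 1 * π) ^ 6 * (2 + 1 * π) ^ 3 - (8 + 8 * π + 3 * π ^ 2 + 1 * π ^ 4 + 12 * π ^ 5 + 8 * π ^ 6 + 11 * π ^ 7 + 12 * π ^ 8 + 1 * π ^ 9) :=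
    dvd_step hq h10 (s := 0) (t := 1 * π ^ 2 + 1 * π ^ 3 + 2 * π ^ 4 + 1 * π ^ 7) (by ring)
  have h12 : π ^ 11 ∣ 1 * (1 + 1 * π) ^ 6 * (2 + 1 * π) ^ 4 - (3 + 11 * π + 1 * π ^ 2 + 3 * π ^ 3 + 2 * π ^ 4 + 12 * π ^ 5 + 2 * π ^ 6 + 4 * π ^ 7 + 9 * π ^ 8 + 1 * π ^ 9 + 1 * π ^ 10) :=
    dvd_step hq h11 (s := 0) (t := 1 + 1 * π + 1 * π ^ 2 + 1 * π ^ 5 + 2 * π ^ 6 + 2 * π ^ 7 + 2 * π ^ 8 + 1 * π ^ 9) (by ring)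
  have h13 : π ^ 11 ∣ 1 * (1 + 1 * π) ^ 6 * (2 + 1 * π) ^ 5 - (6 + 12 * π + 7 * π ^ 3 + 7 * π ^ 4 + 3 * π ^ 6 + 10 * π ^ 7 + 9 * π ^ 8 + 11 * π ^ 9 + 3 * π ^ 10) :=
    dvd_step hq h12 (s := 1) (t := 1 * π + 1 * π ^ 2 + 2 * π ^ 5 + 1 * π ^ 6 + 1 * π ^ 8) (by ring)
  have h14 : π ^ 11 ∣ 1 * (1 + 1 * π) ^ 6 * (2 + 1 * π) ^ 6 - (12 + 4 * π + 12 * π ^ 2 + 1 * π ^ 3 + 8 * π ^ 4 + 7 * π ^ 5 + 6 * π ^ 6 + 10 * π ^ 7 + 2 * π ^ 8 + 5 * π ^ 9 + 4 * π ^ 10) :=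
    dvd_step hq h13 (s := 3) (t := 2 * π + 1 * π ^ 3 + 1 * π ^ 4 + 1 * π ^ 7 + 2 * π ^ 8 + 2 * π ^ 9 + 1 * π ^ 10) (by ring)
  have h15 : π ^ 11 ∣ 1 * (1 + 1 * π) ^ 6 * (2 + 1 * π) ^ 7 - (11 + 7 * π + 2 * π ^ 2 + 1 * π ^ 3 + 4 * π ^ 4 + 9 * π ^ 5 + 6 * π ^ 6 + 1 * π ^ 8 + 12 * π ^ 9) :=
    dvd_step hq h14 (s := 4) (t := 1 + 1 * π + 2 * π ^ 2 + 1 * π ^ 3 + 1 * π ^ 4 + 1 * π ^ 5 + 1 * π ^ 6 + 2 * π ^ 7 + 1 * π ^ 8 + 1 * π ^ 10) (by ring)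
  have h16 : π ^ 11 ∣ 1 * (1 + 1 * π) ^ 6 * (2 + 1 * π) ^ 8 - (9 + 12 * π + 11 * π ^ 2 + 4 * π ^ 3 + 9 * π ^ 4 + 9 * π ^ 5 + 8 * π ^ 6 + 6 * π ^ 7 + 2 * π ^ 8 + 12 * π ^ 9 + 12 * π ^ 10) :=
    dvd_step hq h15 (s := 0) (t := 1 + 1 * π + 1 * π ^ 5 + 1 * π ^ 6 + 1 * π ^ 9) (by ring)
  have h17 : π ^ 11 ∣ 1 * (1 + 1 * π) ^ 6 * (2 + 1 * π) ^ 9 - (5 + 7 * π + 8 * π ^ 2 + 6 * π ^ 3 + 9 * π ^ 4 + 1 * π ^ 5 + 12 * π ^ 6 + 7 * π ^ 7 + 10 * π ^ 8 + 10 * π ^ 10) :=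
    dvd_step hq h16 (s := 12) (t := 1 + 2 * π + 2 * π ^ 2 + 1 * π ^ 3 + 1 * π ^ 4 + 2 * π ^ 5 + 1 * π ^ 6 + 1 * π ^ 7 + 2 * π ^ 9 + 2 * π ^ 10) (by ring)
  have h18 : π ^ 11 ∣ 1 * (1 + 1 * π) ^ 6 * (2 + 1 * π) ^ 9 * (3 + 3 * π + 1 * π ^ 2) ^ 0 - (5 + 7 * π + 8 * π ^ 2 + 6 * π ^ 3 + 9 * π ^ 4 + 1 * π ^ 5 + 12 * π ^ 6 + 7 * π ^ 7 + 10 * π ^ 8 + 10 * π ^ 10) := by simpa using h17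
  have h19 : π ^ 11 ∣ 1 * (1 + 1 * π) ^ 6 * (2 + 1 * π) ^ 9 * (3 + 3 * π + 1 * π ^ 2) ^ 1 - (2 + 10 * π + 11 * π ^ 2 + 10 * π ^ 3 + 1 * π ^ 4 + 10 * π ^ 5 + 9 * π ^ 6 + 6 * π ^ 7 + 11 * π ^ 8 + 11 * π ^ 9 + 1 * π ^ 10) :=
    dvd_step hq h18 (s := 30 + 10 * π) (t := 1 + 2 * π + 3 * π ^ 2 + 3 * π ^ 3 + 4 * π ^ 4 + 2 * π ^ 5 + 3 * π ^ 6 + 4 * π ^ 7 + 4 * π ^ 8 + 2 * π ^ 9 + 3 * π ^ 10) (by ring)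
  have h20 : π ^ 11 ∣ 1 * (1 + 1 * π) ^ 6 * (2 + 1 * π) ^ 9 * (3 + 3 * π + 1 * π ^ 2) ^ 2 - (6 + 10 * π + 8 * π ^ 3 + 5 * π ^ 4 + 4 * π ^ 5 + 6 * π ^ 6 + 3 * π ^ 7 + 8 * π ^ 8 + 7 * π ^ 9 + 8 * π ^ 10) :=
    dvd_step hq h19 (s := 14 + 1 * π) (t := 2 * π + 5 * π ^ 2 + 5 * π ^ 3 + 3 * π ^ 4 + 3 * π ^ 5 + 4 * π ^ 6 + 4 * π ^ 7 + 4 * π ^ 8 + 5 * π ^ 9 + 3 * π ^ 10) (by ring)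
  have h21 : π ^ 11 ∣ 1 * (1 + 1 * π) ^ 6 * (2 + 1 * π) ^ 9 * (3 + 3 * π + 1 * π ^ 2) ^ 3 - (5 + 9 * π + 10 * π ^ 2 + 8 * π ^ 3 + 9 * π ^ 5 + 9 * π ^ 6 + 5 * π ^ 7 + 9 * π ^ 9 + 1 * π ^ 10) :=
    dvd_step hq h20 (s := 31 + 8 * π) (t := 1 + 3 * π + 2 * π ^ 2 + 2 * π ^ 3 + 3 * π ^ 4 + 2 * π ^ 5 + 2 * π ^ 6 + 2 * π ^ 7 + 3 * π ^ 8 + 3 * π ^ 9 + 4 * π ^ 10) (by ring)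
  have h22 : π ^ 11 ∣ 1 * (1 + 1 * π) ^ 6 * (2 + 1 * π) ^ 9 * (3 + 3 * π + 1 * π ^ 2) ^ 4 - (2 + 3 * π + 10 * π ^ 2 + 11 * π ^ 3 + 8 * π ^ 4 + 9 * π ^ 5 + 2 * π ^ 6 + 12 * π ^ 7 + 11 * π ^ 8 + 6 * π ^ 9 + 4 * π ^ 10) :=
    dvd_step hq h21 (s := 12 + 1 * π) (t := 1 + 3 * π + 4 * π ^ 2 + 4 * π ^ 3 + 2 * π ^ 4 + 2 * π ^ 5 + 4 * π ^ 6 + 3 * π ^ 7 + 1 * π ^ 8 + 2 * π ^ 9 + 2 * π ^ 10) (by ring)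
  have h23 : π ^ 11 ∣ 1 * (1 + 1 * π) ^ 6 * (2 + 1 * π) ^ 9 * (3 + 3 * π + 1 * π ^ 2) ^ 4 * (4 + 6 * π + 4 * π ^ 2 + 1 * π ^ 3) ^ 0 - (2 + 3 * π + 10 * π ^ 2 + 11 * π ^ 3 + 8 * π ^ 4 + 9 * π ^ 5 + 2 * π ^ 6 + 12 * π ^ 7 + 11 * π ^ 8 + 6 * π ^ 9 + 4 * π ^ 10) := by simpa using h22
  have h24 : π ^ 11 ∣ 1 * (1 + 1 * π) ^ 6 * (2 + 1 * π) ^ 9 * (3 + 3 * π + 1 * π ^ 2) ^ 4 * (4 + 6 * π + 4 * π ^ 2 + 1 * π ^ 3) ^ 1 - (8 + 11 * π + 1 * π ^ 2 + 1 * π ^ 3 + 11 * π ^ 4 + 8 * π ^ 5 + 1 * π ^ 6 + 3 * π ^ 8 + 10 * π ^ 9 + 4 * π ^ 10) :=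
    dvd_step hq h23 (s := 59 + 22 * π + 4 * π ^ 2) (t := 1 * π + 5 * π ^ 2 + 9 * π ^ 3 + 10 * π ^ 4 + 10 * π ^ 5 + 8 * π ^ 6 + 8 * π ^ 7 + 10 * π ^ 8 + 10 * π ^ 9 + 8 * π ^ 10) (by ring)
  have h25 : π ^ 11 ∣ 1 * (1 + 1 * π) ^ 6 * (2 + 1 * π) ^ 9 * (3 + 3 * π + 1 * π ^ 2) ^ 4 * (4 + 6 * π + 4 * π ^ 2 + 1 * π ^ 3) ^ 2 - (6 + 1 * π + 11 * π ^ 2 + 10 * π ^ 3 + 12 * π ^ 5 + 6 * π ^ 6 + 10 * π ^ 7 + 11 * π ^ 8 + 7 * π ^ 9 + 10 * π ^ 10) :=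
    dvd_step hq h24 (s := 67 + 26 * π + 4 * π ^ 2) (t := 2 + 7 * π + 7 * π ^ 2 + 4 * π ^ 3 + 5 * π ^ 4 + 7 * π ^ 5 + 7 * π ^ 6 + 3 * π ^ 7 + 1 * π ^ 8 + 4 * π ^ 9 + 6 * π ^ 10) (by ring)
  have h26 : π ^ 11 ∣ 1 * (1 + 1 * π) ^ 6 * (2 + 1 * π) ^ 9 * (3 + 3 * π + 1 * π ^ 2) ^ 4 * (4 + 6 * π + 4 * π ^ 2 + 1 * π ^ 3) ^ 3 - (11 + 1 * π + 9 * π ^ 2 + 12 * π ^ 3 + 1 * π ^ 4 + 8 * π ^ 5 + 2 * π ^ 6 + 7 * π ^ 7 + 10 * π ^ 8 + 10 * π ^ 9 + 6 * π ^ 10) :=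
    dvd_step hq h25 (s := 99 + 47 * π + 10 * π ^ 2) (t := 1 + 3 * π + 5 * π ^ 2 + 8 * π ^ 3 + 8 * π ^ 4 + 7 * π ^ 5 + 8 * π ^ 6 + 9 * π ^ 7 + 10 * π ^ 8 + 10 * π ^ 9 + 10 * π ^ 10) (by ring)
  have h27 : π ^ 11 ∣ 1 * (1 + 1 * π) ^ 6 * (2 + 1 * π) ^ 9 * (3 + 3 * π + 1 * π ^ 2) ^ 4 * (4 + 6 * π + 4 * π ^ 2 + 1 * π ^ 3) ^ 4 - (5 + 5 * π + 8 * π ^ 2 + 9 * π ^ 4 + 4 * π ^ 5 + 7 * π ^ 6 + 8 * π ^ 7 + 7 * π ^ 8 + 1 * π ^ 10) :=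
    dvd_step hq h26 (s := 86 + 34 * π + 6 * π ^ 2) (t := 3 + 5 * π + 6 * π ^ 2 + 9 * π ^ 3 + 8 * π ^ 4 + 7 * π ^ 5 + 5 * π ^ 6 + 5 * π ^ 7 + 7 * π ^ 8 + 10 * π ^ 9 + 10 * π ^ 10) (by ring)
  have h28 : π ^ 11 ∣ 1 * (1 + 1 * π) ^ 6 * (2 + 1 * π) ^ 9 * (3 + 3 * π + 1 * π ^ 2) ^ 4 * (4 + 6 * π + 4 * π ^ 2 + 1 * π ^ 3) ^ 5 - (7 + 11 * π + 4 * π ^ 2 + 8 * π ^ 3 + 8 * π ^ 4 + 10 * π ^ 6 + 8 * π ^ 7 + 4 * π ^ 8 + 3 * π ^ 9 + 1 * π ^ 10) :=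
    dvd_step hq h27 (s := 13 + 4 * π + 1 * π ^ 2) (t := 1 + 3 * π + 6 * π ^ 2 + 5 * π ^ 3 + 5 * π ^ 4 + 6 * π ^ 5 + 6 * π ^ 6 + 7 * π ^ 7 + 8 * π ^ 8 + 6 * π ^ 9 + 3 * π ^ 10) (by ring)
  have h29 : π ^ 11 ∣ 1 * (1 + 1 * π) ^ 6 * (2 + 1 * π) ^ 9 * (3 + 3 * π + 1 * π ^ 2) ^ 4 * (4 + 6 * π + 4 * π ^ 2 + 1 * π ^ 3) ^ 6 - (2 + 8 * π + 6 * π ^ 2 + 3 * π ^ 3 + 3 * π ^ 4 + 6 * π ^ 5 + 2 * π ^ 6 + 9 * π ^ 7 + 7 * π ^ 10) :=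
    dvd_step hq h28 (s := 22 + 7 * π + 1 * π ^ 2) (t := 2 + 6 * π + 8 * π ^ 2 + 8 * π ^ 3 + 8 * π ^ 4 + 6 * π ^ 5 + 6 * π ^ 6 + 7 * π ^ 7 + 8 * π ^ 8 + 6 * π ^ 9 + 3 * π ^ 10) (by ring)
  have h30 : π ^ 11 ∣ 1 * (1 + 1 * π) ^ 6 * (2 + 1 * π) ^ 9 * (3 + 3 * π + 1 * π ^ 2) ^ 4 * (4 + 6 * π + 4 * π ^ 2 + 1 * π ^ 3) ^ 7 - (8 + 5 * π + 2 * π ^ 2 + 4 * π ^ 3 + 10 * π ^ 4 + 8 * π ^ 5 + 7 * π ^ 6 + 10 * π ^ 7 + 3 * π ^ 8 + 12 * π ^ 9 + 11 * π ^ 10) :=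
    dvd_step hq h29 (s := 42 + 28 * π + 7 * π ^ 2) (t := 3 * π + 6 * π ^ 2 + 6 * π ^ 3 + 4 * π ^ 4 + 4 * π ^ 5 + 4 * π ^ 6 + 5 * π ^ 7 + 5 * π ^ 8 + 2 * π ^ 9 + 2 * π ^ 10) (by ring)
  have h31 : π ^ 11 ∣ 1 * (1 + 1 * π) ^ 6 * (2 + 1 * π) ^ 9 * (3 + 3 * π + 1 * π ^ 2) ^ 4 * (4 + 6 * π + 4 * π ^ 2 + 1 * π ^ 3) ^ 8 - (6 + 3 * π + 5 * π ^ 2 + 4 * π ^ 3 + 12 * π ^ 4 + 6 * π ^ 5 + 3 * π ^ 6 + 7 * π ^ 7 + 4 * π ^ 8 + 9 * π ^ 9 + 8 * π ^ 10) :=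
    dvd_step hq h30 (s := 117 + 56 * π + 11 * π ^ 2) (t := 2 + 5 * π + 5 * π ^ 2 + 4 * π ^ 3 + 5 * π ^ 4 + 8 * π ^ 5 + 9 * π ^ 6 + 9 * π ^ 7 + 8 * π ^ 8 + 8 * π ^ 9 + 10 * π ^ 10) (by ring)
  have h32 : π ^ 11 ∣ 1 * (1 + 1 * π) ^ 6 * (2 + 1 * π) ^ 9 * (3 + 3 * π + 1 * π ^ 2) ^ 4 * (4 + 6 * π + 4 * π ^ 2 + 1 * π ^ 3) ^ 9 - (11 + 9 * π + 10 * π ^ 2 + 12 * π ^ 3 + 4 * π ^ 4 + 9 * π ^ 6 + 4 * π ^ 7 + 11 * π ^ 8 + 5 * π ^ 10) :=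
    dvd_step hq h31 (s := 88 + 41 * π + 8 * π ^ 2) (t := 1 + 3 * π + 4 * π ^ 2 + 4 * π ^ 3 + 7 * π ^ 4 + 9 * π ^ 5 + 7 * π ^ 6 + 6 * π ^ 7 + 5 * π ^ 8 + 7 * π ^ 9 + 8 * π ^ 10) (by ring)
  have h33 : π ^ 11 ∣ 1 * (1 + 1 * π) ^ 6 * (2 + 1 * π) ^ 9 * (3 + 3 * π + 1 * π ^ 2) ^ 4 * (4 + 6 * π + 4 * π ^ 2 + 1 * π ^ 3) ^ 10 - (5 + 11 * π + 8 * π ^ 2 + 12 * π ^ 3 + 7 * π ^ 4 + 4 * π ^ 5 + 12 * π ^ 6 + 9 * π ^ 7 + 3 * π ^ 10) :=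
    dvd_step hq h32 (s := 41 + 20 * π + 5 * π ^ 2) (t := 3 + 7 * π + 10 * π ^ 2 + 11 * π ^ 3 + 10 * π ^ 4 + 6 * π ^ 5 + 4 * π ^ 6 + 5 * π ^ 7 + 8 * π ^ 8 + 7 * π ^ 9 + 5 * π ^ 10) (by ring)
  have h34 : π ^ 11 ∣ 1 * (1 + 1 * π) ^ 6 * (2 + 1 * π) ^ 9 * (3 + 3 * π + 1 * π ^ 2) ^ 4 * (4 + 6 * π + 4 * π ^ 2 + 1 * π ^ 3) ^ 10 * (5 + 10 * π + 10 * π ^ 2 + 5 * π ^ 3 + 1 * π ^ 4) ^ 0 - (5 + 11 * π + 8 * π ^ 2 + 12 * π ^ 3 + 7 * π ^ 4 + 4 * π ^ 5 + 12 * π ^ 6 + 9 * π ^ 7 + 3 * π ^ 10) := by simpa using h33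
  have h35 : π ^ 11 ∣ 1 * (1 + 1 * π) ^ 6 * (2 + 1 * π) ^ 9 * (3 + 3 * π + 1 * π ^ 2) ^ 4 * (4 + 6 * π + 4 * π ^ 2 + 1 * π ^ 3) ^ 10 * (5 + 10 * π + 10 * π ^ 2 + 5 * π ^ 3 + 1 * π ^ 4) ^ 1 - (12 + 1 * π + 5 * π ^ 2 + 2 * π ^ 3 + 9 * π ^ 4 + 1 * π ^ 5 + 4 * π ^ 6 + 5 * π ^ 7 + 3 * π ^ 8 + 11 * π ^ 9 + 7 * π ^ 10) :=
    dvd_step hq h34 (s := 39 + 30 * π + 15 * π ^ 2 + 3 * π ^ 3) (t := 1 + 8 * π + 15 * π ^ 2 + 21 * π ^ 3 + 22 * π ^ 4 + 20 * π ^ 5 + 18 * π ^ 6 + 19 * π ^ 7 + 18 * π ^ 8 + 11 * π ^ 9 + 5 * π ^ 10) (by ring)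
  have h36 : π ^ 11 ∣ 1 * (1 + 1 * π) ^ 6 * (2 + 1 * π) ^ 9 * (3 + 3 * π + 1 * π ^ 2) ^ 4 * (4 + 6 * π + 4 * π ^ 2 + 1 * π ^ 3) ^ 10 * (5 + 10 * π + 10 * π ^ 2 + 5 * π ^ 3 + 1 * π ^ 4) ^ 1 * (6 + 15 * π + 20 * π ^ 2 + 15 * π ^ 3 + 6 * π ^ 4 + 1 * π ^ 5) ^ 0 - (12 + 1 * π + 5 * π ^ 2 + 2 * π ^ 3 + 9 * π ^ 4 + 1 * π ^ 5 + 4 * π ^ 6 + 5 * π ^ 7 + 3 * π ^ 8 + 11 * π ^ 9 + 7 * π ^ 10) := by simpa using h35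
  have h37 : π ^ 11 ∣ 1 * (1 + 1 * π) ^ 6 * (2 + 1 * π) ^ 9 * (3 + 3 * π + 1 * π ^ 2) ^ 4 * (4 + 6 * π + 4 * π ^ 2 + 1 * π ^ 3) ^ 10 * (5 + 10 * π + 10 * π ^ 2 + 5 * π ^ 3 + 1 * π ^ 4) ^ 1 * (6 + 15 * π + 20 * π ^ 2 + 15 * π ^ 3 + 6 * π ^ 4 + 1 * π ^ 5) ^ 1 - (7 + 4 * π + 12 * π ^ 2 + 1 * π ^ 3 + 11 * π ^ 4 + 1 * π ^ 5 + 7 * π ^ 6 + 2 * π ^ 7 + 10 * π ^ 8 + 3 * π ^ 10) :=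
    dvd_step hq h36 (s := 404 + 328 * π + 174 * π ^ 2 + 53 * π ^ 3 + 7 * π ^ 4) (t := 5 + 14 * π + 21 * π ^ 2 + 22 * π ^ 3 + 20 * π ^ 4 + 21 * π ^ 5 + 21 * π ^ 6 + 20 * π ^ 7 + 18 * π ^ 8 + 22 * π ^ 9 + 28 * π ^ 10) (by ring)
  have h38 : π ^ 11 ∣ 1 * (1 + 1 * π) ^ 6 * (2 + 1 * π) ^ 9 * (3 + 3 * π + 1 * π ^ 2) ^ 4 * (4 + 6 * π + 4 * π ^ 2 + 1 * π ^ 3) ^ 10 * (5 + 10 * π + 10 * π ^ 2 + 5 * π ^ 3 + 1 * π ^ 4) ^ 1 * (6 + 15 * π + 20 * π ^ 2 + 15 * π ^ 3 + 6 * π ^ 4 + 1 * π ^ 5) ^ 2 - (3 + 12 * π + 12 * π ^ 2 + 7 * π ^ 3 + 7 * π ^ 4 + 12 * π ^ 5 + 4 * π ^ 6 + 8 * π ^ 7 + 5 * π ^ 10) :=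
    dvd_step hq h37 (s := 214 + 122 * π + 55 * π ^ 2 + 18 * π ^ 3 + 3 * π ^ 4) (t := 3 + 9 * π + 20 * π ^ 2 + 28 * π ^ 3 + 32 * π ^ 4 + 30 * π ^ 5 + 28 * π ^ 6 + 24 * π ^ 7 + 24 * π ^ 8 + 24 * π ^ 9 + 22 * π ^ 10) (by ring)
  have h39 : π ^ 11 ∣ 1 * (1 + 1 * π) ^ 6 * (2 + 1 * π) ^ 9 * (3 + 3 * π + 1 * π ^ 2) ^ 4 * (4 + 6 * π + 4 * π ^ 2 + 1 * π ^ 3) ^ 10 * (5 + 10 * π + 10 * π ^ 2 + 5 * π ^ 3 + 1 * π ^ 4) ^ 1 * (6 + 15 * π + 20 * π ^ 2 + 15 * π ^ 3 + 6 * π ^ 4 + 1 * π ^ 5) ^ 3 - (5 + 4 * π ^ 10) :=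
    dvd_step hq h38 (s := 127 + 108 * π + 75 * π ^ 2 + 30 * π ^ 3 + 5 * π ^ 4) (t := 1 + 9 * π + 24 * π ^ 2 + 39 * π ^ 3 + 45 * π ^ 4 + 44 * π ^ 5 + 41 * π ^ 6 + 39 * π ^ 7 + 33 * π ^ 8 + 23 * π ^ 9 + 14 * π ^ 10) (by ring)
  exact dvd_final hq h39 (t := -2 * π ^ 10) (by ring)

section Field13

variable {K : Type*} [Field K] [NumberField K] [hK : IsCyclotomicExtension {13} ℚ K]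

instance fact_prime_thirteen : Fact (Nat.Prime 13) := ⟨by norm_num⟩

/-- The certificate unit at level `2`. -/
noncomputable def certUnit_13_2 {ζ : K} (hζ : IsPrimitiveRoot ζ 13) : (𝓞 K)ˣ :=
  cycUnit hζ 5 (by norm_num) (by norm_num) ^ 2 * cycUnit hζ 6 (by norm_num) (by norm_num) ^ 1

lemma lev_certUnit_13_2 {ζ : K} (hζ : IsPrimitiveRoot ζ 13) :
    Lev hζ 2 (certUnit_13_2 hζ : 𝓞 K) 4 := by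
  refine ⟨7, ?_⟩
  have hq : (hζ.toInteger - 1) ^ 3 ∣ (13 : 𝓞 K) := by
    have h1 := pi_pow_dvd_p hζ
    have h2 : (hζ.toInteger - 1) ^ 3 ∣ (hζ.toInteger - 1) ^ (13 - 1) := pow_dvd_pow _ (by norm_num)
    simpa using h2.trans h1
  have key := cert_13_2 (hζ.toInteger - 1) hq
  simp only [certUnit_13_2, Units.val_mul, Units.val_pow_eq_pow_val, val_cycUnit_5 hζ, val_cycUnit_6 hζ]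
  simpa using key

/-- The certificate unit at level `4`. -/
noncomputable def certUnit_13_4 {ζ : K} (hζ : IsPrimitiveRoot ζ 13) : (𝓞 K)ˣ :=
  zetaUnit hζ ^ 1 * cycUnit hζ 4 (by norm_num) (by norm_num) ^ 2 * cycUnit hζ 6 (by norm_num) (by norm_num) ^ 1

lemma lev_certUnit_13_4 {ζ : K} (hζ : IsPrimitiveRoot ζ 13) :
    Lev hζ 4 (certUnit_13_4 hζ : 𝓞 K) 4 := by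
  refine ⟨5, ?_⟩
  have hq : (hζ.toInteger - 1) ^ 5 ∣ (13 : 𝓞 K) := by
    have h1 := pi_pow_dvd_p hζ
    have h2 : (hζ.toInteger - 1) ^ 5 ∣ (hζ.toInteger - 1) ^ (13 - 1) := pow_dvd_pow _ (by norm_num)
    simpa using h2.trans h1
  have key := cert_13_4 (hζ.toInteger - 1) hq
  simp only [certUnit_13_4, Units.val_mul, Units.val_pow_eq_pow_val, val_zetaUnit_eq hζ, val_cycUnit_4 hζ, val_cycUnit_6 hζ]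
  simpa using key

/-- The certificate unit at level `6`. -/
noncomputable def certUnit_13_6 {ζ : K} (hζ : IsPrimitiveRoot ζ 13) : (𝓞 K)ˣ :=
  cycUnit hζ 2 (by norm_num) (by norm_num) ^ 5 * cycUnit hζ 4 (by norm_num) (by norm_num) ^ 1 * cycUnit hζ 6 (by norm_num) (by norm_num) ^ 1

lemma lev_certUnit_13_6 {ζ : K} (hζ : IsPrimitiveRoot ζ 13) :
    Lev hζ 6 (certUnit_13_6 hζ : 𝓞 K) 12 := by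
  refine ⟨1, ?_⟩
  have hq : (hζ.toInteger - 1) ^ 7 ∣ (13 : 𝓞 K) := by
    have h1 := pi_pow_dvd_p hζ
    have h2 : (hζ.toInteger - 1) ^ 7 ∣ (hζ.toInteger - 1) ^ (13 - 1) := pow_dvd_pow _ (by norm_num)
    simpa using h2.trans h1
  have key := cert_13_6 (hζ.toInteger - 1) hq
  simp only [certUnit_13_6, Units.val_mul, Units.val_pow_eq_pow_val, val_cycUnit_2 hζ, val_cycUnit_4 hζ, val_cycUnit_6 hζ]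
  simpa using key

/-- The certificate unit at level `8`. -/
noncomputable def certUnit_13_8 {ζ : K} (hζ : IsPrimitiveRoot ζ 13) : (𝓞 K)ˣ :=
  cycUnit hζ 2 (by norm_num) (by norm_num) ^ 5 * cycUnit hζ 3 (by norm_num) (by norm_num) ^ 1 * cycUnit hζ 4 (by norm_num) (by norm_num) ^ 4 * cycUnit hζ 5 (by norm_num) (by norm_num) ^ 7 * cycUnit hζ 6 (by norm_num) (by norm_num) ^ 1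

lemma lev_certUnit_13_8 {ζ : K} (hζ : IsPrimitiveRoot ζ 13) :
    Lev hζ 8 (certUnit_13_8 hζ : 𝓞 K) 11 := by
  refine ⟨2, ?_⟩
  have hq : (hζ.toInteger - 1) ^ 9 ∣ (13 : 𝓞 K) := by
    have h1 := pi_pow_dvd_p hζ
    have h2 : (hζ.toInteger - 1) ^ 9 ∣ (hζ.toInteger - 1) ^ (13 - 1) := pow_dvd_pow _ (by norm_num)
    simpa using h2.trans h1
  have key := cert_13_8 (hζ.toInteger - 1) hq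
  simp only [certUnit_13_8, Units.val_mul, Units.val_pow_eq_pow_val, val_cycUnit_2 hζ, val_cycUnit_3 hζ, val_cycUnit_4 hζ, val_cycUnit_5 hζ, val_cycUnit_6 hζ]
  simpa using key

/-- The certificate unit at level `10`. -/
noncomputable def certUnit_13_10 {ζ : K} (hζ : IsPrimitiveRoot ζ 13) : (𝓞 K)ˣ :=
  zetaUnit hζ ^ 6 * cycUnit hζ 2 (by norm_num) (by norm_num) ^ 9 * cycUnit hζ 3 (by norm_num) (by norm_num) ^ 4 * cycUnit hζ 4 (by norm_num) (by norm_num) ^ 10 * cycUnit hζ 5 (by norm_num) (by norm_num) ^ 1 * cycUnit hζ 6 (by norm_num) (by norm_num) ^ 3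

lemma lev_certUnit_13_10 {ζ : K} (hζ : IsPrimitiveRoot ζ 13) :
    Lev hζ 10 (certUnit_13_10 hζ : 𝓞 K) 6 := by
  refine ⟨5, ?_⟩
  have hq : (hζ.toInteger - 1) ^ 11 ∣ (13 : 𝓞 K) := by
    have h1 := pi_pow_dvd_p hζ
    have h2 : (hζ.toInteger - 1) ^ 11 ∣ (hζ.toInteger - 1) ^ (13 - 1) := pow_dvd_pow _ (by norm_num)
    simpa using h2.trans h1
  have key := cert_13_10 (hζ.toInteger - 1) hq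
  simp only [certUnit_13_10, Units.val_mul, Units.val_pow_eq_pow_val, val_zetaUnit_eq hζ, val_cycUnit_2 hζ, val_cycUnit_3 hζ, val_cycUnit_4 hζ, val_cycUnit_5 hζ, val_cycUnit_6 hζ]
  simpa using key

/-- **Kummer's lemma for `p = 13`.** -/
theorem kummer_thirteen (K : Type*) [Field K] [NumberField K] [IsCyclotomicExtension {13} ℚ K]
    (u : (𝓞 K)ˣ) (h : ∃ n : ℤ, ((13 : ℕ) : 𝓞 K) ∣ (u : 𝓞 K) - (n : 𝓞 K)) :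
    ∃ v : (𝓞 K)ˣ, u = v ^ 13 := by
  obtain ⟨n, hn⟩ := h
  have hζ := IsCyclotomicExtension.zeta_spec 13 ℚ K
  refine kummer_of_chain (p := 13) hζ (by norm_num) (m := 6) (by norm_num)
    ![zetaUnit hζ, certUnit_13_2 hζ, certUnit_13_4 hζ, certUnit_13_6 hζ, certUnit_13_8 hζ, certUnit_13_10 hζ] ![1, 2, 4, 6, 8, 10] ![1, 4, 4, 12, 11, 6] ?_ ?_ ?_ ?_ ?_ u n hn
  · intro i j hij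
    fin_cases i <;> fin_cases j <;> simp at hij ⊢ <;> omega
  · intro i; fin_cases i <;> simp
  · intro i; fin_cases i <;> simp
  · intro i
    fin_cases i
    · exact lev_zetaUnit hζ
    · exact lev_certUnit_13_2 hζ
    · exact lev_certUnit_13_4 hζ
    · exact lev_certUnit_13_6 hζ
    · exact lev_certUnit_13_8 hζ
    · exact lev_certUnit_13_10 hζ
  · intro i; fin_cases i <;> simp <;> norm_num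

end Field13

end Fermat.Agent.H3
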