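import Mathlib
import Fermat.Prelude.Def_ModularCurve_X0

/-!
# P-SS / SS-A2a (helper3): `k((t))` is free of rank `q` over `k((t^q))`

`TwBase k q` is a copy of `k((t))` acting on `k((t))` through `f ↦ f(t^q)` (the prelude's
`ModularCurve.qExpand k q`).  The series `1, t, …, t^(q-1)` form a basis, hence for `q` prime and
`x ∉ k((t^q))` the powers `1, x, …, x^(q-1)` are linearly independent over `k((t^q))`.
-/

set_option autoImplicit false
set_option linter.unusedSectionVars false

noncomputable section

namespace Fermat.Agent.H3.SSTwist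

open ModularCurve HahnSeries

universe u

/-- a copy of `k((t))`, acting on `k((t))` through `f ↦ f(t^q)` -/
def TwBase (k : Type u) [Field k] (_q : ℕ) : Type u := LaurentSeries k

instance TwBase.instField (k : Type u) [Field k] (q : ℕ) : Field (TwBase k q) :=
  inferInstanceAs (Field (LaurentSeries k))

instance TwBase.instAlgebra (k : Type u) [Field k] (q : ℕ) [NeZero q] :
    Algebra (TwBase k q) (LaurentSeries k) :=
  (qExpand k q).toAlgebra

variable {k : Type u} [Field k] (q : ℕ) [NeZero q]

/-- the identification `k((t)) = TwBase k q` -/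
def toTw (f : LaurentSeries k) : TwBase k q := f

theorem algebraMap_toTw (f : LaurentSeries k) :
    algebraMap (TwBase k q) (LaurentSeries k) (toTw q f) = qExpand k q f := rfl

theorem toTw_smul (f g : LaurentSeries k) : toTw q f • g = qExpand k q f * g := rfl

theorem toTw_injective : Function.Injective (toTw (k := k) q) := fun _ _ h => h

theorem toTw_surjective : Function.Surjective (toTw (k := k) q) := fun u => ⟨u, rfl⟩

theorem toTw_zero : toTw q (0 : LaurentSeries k) = 0 := rfl

/-- the `r`-th section `n ↦ f_(q n + r)` of a Laurent series -/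
def sect (r : ℤ) (f : LaurentSeries k) : LaurentSeries k :=
  HahnSeries.ofSuppBddBelow (fun n : ℤ => f.coeff ((q : ℤ) * n + r)) (by
    refine ⟨min (f.order - r) 0, fun n hn => ?_⟩
    by_contra hlt
    rw [not_le, lt_min_iff] at hlt
    apply hn
    apply HahnSeries.coeff_eq_zero_of_lt_order
    have hq : (1 : ℤ) ≤ (q : ℤ) := by
      exact_mod_cast Nat.one_le_iff_ne_zero.mpr (NeZero.ne q)
    nlinarith [mul_nonneg (sub_nonneg.mpr hq) (neg_nonneg.mpr hlt.2.le), hlt.1])

theorem coeff_sect (r : ℤ) (f : LaurentSeries k) (n : ℤ) :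
    (sect q r f).coeff n = f.coeff ((q : ℤ) * n + r) := rfl

/-- the coefficient of `∑_r u_r(t^q) t^r` at `q m + r₀` -/
theorem coeff_sum_twist (u : Fin q → LaurentSeries k) (r0 : Fin q) (m : ℤ) :
    (∑ r : Fin q, qExpand k q (u r) * HahnSeries.single (((r : ℕ) : ℤ)) (1 : k)).coeff
      ((q : ℤ) * m + ((r0 : ℕ) : ℤ)) = (u r0).coeff m := by
  have hcoeff : ∀ (s : Finset (Fin q)) (g : Fin q → LaurentSeries k) (n : ℤ),
      (∑ r ∈ s, g r).coeff n = ∑ r ∈ s, (g r).coeff n := by
    intro s g n
    classical
    induction s using Finset.induction_on with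
    | empty => simp
    | insert a s ha ih => rw [Finset.sum_insert ha, Finset.sum_insert ha, HahnSeries.coeff_add, ih]
  rw [hcoeff]
  rw [Finset.sum_eq_single r0]
  · rw [HahnSeries.coeff_mul_single, mul_one, add_sub_cancel_right, qExpand_coeff_mul]
  · intro r _ hr
    rw [HahnSeries.coeff_mul_single, mul_one]
    apply qExpand_coeff_of_not_dvd
    rintro ⟨c, hc⟩
    apply hr
    have h1 : ((r0 : ℕ) : ℤ) - ((r : ℕ) : ℤ) = (q : ℤ) * (c - m) := by
      rw [mul_sub, ← hc]; ring
    have hr0 : ((r0 : ℕ) : ℤ) < q := by exact_mod_cast r0.2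
    have hr' : ((r : ℕ) : ℤ) < q := by exact_mod_cast r.2
    have hr0' : (0 : ℤ) ≤ ((r0 : ℕ) : ℤ) := Int.natCast_nonneg _
    have hr'' : (0 : ℤ) ≤ ((r : ℕ) : ℤ) := Int.natCast_nonneg _
    have hcm : c - m = 0 := by
      by_contra hne
      rcases lt_or_gt_of_ne hne with h | h
      · have : c - m ≤ -1 := by omega
        nlinarith
      · have : 1 ≤ c - m := by omega
        nlinarith
    rw [hcm, mul_zero] at h1
    apply Fin.ext
    omega
  · intro h
    exact absurd (Finset.mem_univ r0) h

/-- the decomposition `f = ∑_r f_r(t^q) t^r` -/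
theorem eq_sum_sect (f : LaurentSeries k) :
    f = ∑ r : Fin q, qExpand k q (sect q ((r : ℕ) : ℤ) f) *
      HahnSeries.single (((r : ℕ) : ℤ)) (1 : k) := by
  ext n
  have hq : (0 : ℤ) < (q : ℤ) := by
    exact_mod_cast Nat.pos_of_ne_zero (NeZero.ne q)
  have h1 : 0 ≤ n % (q : ℤ) := Int.emod_nonneg n hq.ne'
  have h2 : n % (q : ℤ) < q := Int.emod_lt_of_pos n hq
  have h3 : (n % (q : ℤ)).toNat < q := by
    have := Int.toNat_of_nonneg h1
    omega
  have h4 : n = (q : ℤ) * (n / q) + (((⟨(n % (q : ℤ)).toNat, h3⟩ : Fin q) : ℕ) : ℤ) := by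
    show n = (q : ℤ) * (n / q) + (((n % (q : ℤ)).toNat : ℕ) : ℤ)
    rw [Int.toNat_of_nonneg h1]
    exact (Int.mul_ediv_add_emod n q).symm
  conv_rhs => rw [h4]
  rw [coeff_sum_twist, coeff_sect]
  congr 1

/-- uniqueness of the decomposition -/
theorem eq_zero_of_sum_twist (u : Fin q → LaurentSeries k)
    (h : ∑ r : Fin q, qExpand k q (u r) * HahnSeries.single (((r : ℕ) : ℤ)) (1 : k) = 0)
    (r0 : Fin q) : u r0 = 0 := by
  ext m
  rw [← coeff_sum_twist q u r0 m, h]
  rfl

/-- the family `1, t, …, t^(q-1)` -/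
def twFam (r : Fin q) : LaurentSeries k := HahnSeries.single (((r : ℕ) : ℤ)) (1 : k)

theorem twFam_linearIndependent :
    LinearIndependent (TwBase k q) (twFam (k := k) q) := by
  rw [Fintype.linearIndependent_iff]
  intro g hg r0
  exact eq_zero_of_sum_twist q (fun r => (g r : LaurentSeries k)) hg r0

theorem twFam_span : ⊤ ≤ Submodule.span (TwBase k q) (Set.range (twFam (k := k) q)) := by
  intro f _
  rw [eq_sum_sect q f]
  refine Submodule.sum_mem _ fun r _ => ?_
  exact Submodule.smul_mem _ (toTw q (sect q ((r : ℕ) : ℤ) f))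
    (Submodule.subset_span ⟨r, rfl⟩)

/-- the basis `1, t, …, t^(q-1)` of `k((t))` over `k((t^q))` -/
def twBasis : Module.Basis (Fin q) (TwBase k q) (LaurentSeries k) :=
  Module.Basis.mk (twFam_linearIndependent q) (twFam_span q)

theorem finrank_tw : Module.finrank (TwBase k q) (LaurentSeries k) = q := by
  rw [Module.finrank_eq_card_basis (twBasis q), Fintype.card_fin]

theorem finite_tw : Module.Finite (TwBase k q) (LaurentSeries k) :=
  Module.Finite.of_basis (twBasis q)

/-- `x ∉ k((t^q))` if some coefficient of `x` at an index prime to `q` is nonzero -/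
theorem notMem_range_of_coeff {x : LaurentSeries k} {m : ℤ} (hm : ¬ (q : ℤ) ∣ m)
    (hx : x.coeff m ≠ 0) : x ∉ (algebraMap (TwBase k q) (LaurentSeries k)).range := by
  rintro ⟨u, rfl⟩
  exact hx (qExpand_coeff_of_not_dvd q _ hm)

/-- for `q` prime and `x ∉ k((t^q))` the minimal polynomial of `x` has degree `q` -/
theorem natDegree_minpoly_tw (hq : q.Prime) {x : LaurentSeries k}
    (hx : x ∉ (algebraMap (TwBase k q) (LaurentSeries k)).range) :
    (minpoly (TwBase k q) x).natDegree = q := by
  haveI := finite_tw (k := k) q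
  have hint : IsIntegral (TwBase k q) x := IsIntegral.of_finite _ x
  have hdvd := minpoly.degree_dvd hint
  rw [finrank_tw] at hdvd
  rcases (Nat.dvd_prime hq).mp hdvd with h | h
  · exact absurd (minpoly.natDegree_eq_one_iff.mp h) hx
  · exact h

/-- for `q` prime and `x ∉ k((t^q))` the powers `1, x, …, x^(q-1)` are independent over
`k((t^q))` -/
theorem pow_independent (hq : q.Prime) {x : LaurentSeries k} {m : ℤ} (hm : ¬ (q : ℤ) ∣ m)
    (hx : x.coeff m ≠ 0) (w : Fin q → LaurentSeries k)
    (h : ∑ j : Fin q, qExpand k q (w j) * x ^ (j : ℕ) = 0) : ∀ j, w j = 0 := by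
  have hdeg := natDegree_minpoly_tw q hq (notMem_range_of_coeff q hm hx)
  have hli := linearIndependent_pow (K := TwBase k q) x
  rw [hdeg] at hli
  rw [Fintype.linearIndependent_iff] at hli
  exact hli (fun j => toTw q (w j)) h

/-- `f ↦ f(t^q)` as a `k`-algebra homomorphism -/
def twAlgHom : LaurentSeries k →ₐ[k] LaurentSeries k where
  __ := qExpand k q
  commutes' c := by
    show qExpand k q (algebraMap k (LaurentSeries k) c) = algebraMap k (LaurentSeries k) c
    have h1 : algebraMap k (PowerSeries k) c = PowerSeries.C c := by simp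
    have h2 : algebraMap k (LaurentSeries k) c = HahnSeries.single 0 c := by
      rw [HahnSeries.algebraMap_apply', h1, HahnSeries.ofPowerSeries_C]
      rfl
    rw [h2, qExpand_single, mul_zero]

theorem twAlgHom_apply (f : LaurentSeries k) : twAlgHom q f = qExpand k q f := rfl

/-- `qExpand` commutes with evaluation of polynomials with constant coefficients -/
theorem aeval_qExpand (x : LaurentSeries k) (P : Polynomial k) :
    Polynomial.aeval (qExpand k q x) P = qExpand k q (Polynomial.aeval x P) := by
  have h := Polynomial.aeval_algHom_apply (twAlgHom (k := k) q) x P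
  rw [twAlgHom_apply, twAlgHom_apply] at h
  exact h

end Fermat.Agent.H3.SSTwist
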